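import Mathlib
import Fermat.Prelude.Def_FLTPrelim_FreyPackage
import Fermat.Prelude.Def_FLTPrelim_GaloisRep
import Fermat.Prelude.Def_FLTPrelim_Ramification
import Fermat.Prelude.Def_FLTPrelim_CofixedLine
import Fermat.Agent.S05.Defs

set_option autoImplicit false

/-!
# S13: shared definitions

`xc`, `yc`: coordinates of a point (junk value `0` at the point at infinity).
`InE1 A W P`: `P` lies in the kernel of reduction with respect to the valuation subring `A`.
`wseq W P n`: the value `ψ_n(P)` of the `n`-th division polynomial at the point `P`.
-/

namespace Fermat.Agent.S13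

open WeierstrassCurve

variable {L : Type*} [Field L]

/-- The `x`-coordinate of a point (junk value `0` at the point at infinity). -/
def xc (W : Affine L) : W.Point → L
  | .zero => 0
  | .some x _ _ => x

/-- The `y`-coordinate of a point (junk value `0` at the point at infinity). -/
def yc (W : Affine L) : W.Point → L
  | .zero => 0
  | .some _ y _ => y

@[simp] theorem xc_zero (W : Affine L) : xc W (0 : W.Point) = 0 := rfl

@[simp] theorem yc_zero (W : Affine L) : yc W (0 : W.Point) = 0 := rfl

@[simp] theorem xc_some (W : Affine L) {x y : L} (h : W.Nonsingular x y) :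
    xc W (Affine.Point.some x y h) = x := rfl

@[simp] theorem yc_some (W : Affine L) {x y : L} (h : W.Nonsingular x y) :
    yc W (Affine.Point.some x y h) = y := rfl

/-- The kernel of reduction: the point at infinity together with the affine points whose
`x`-coordinate is not in the valuation subring `A`. -/
def InE1 (A : ValuationSubring L) (W : Affine L) (P : W.Point) : Prop :=
  P = 0 ∨ 1 < A.valuation (xc W P)

/-- The value `ψ_n(P)` of the `n`-th division polynomial at `P`, defined as the normalised
elliptic divisibility sequence with parameters `η(P) = 2y + a₁x + a₃`, `Ψ₃(x)`, `preΨ₄(x)`. -/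
noncomputable def wseq (W : Affine L) (P : W.Point) (n : ℤ) : L :=
  normEDS (Fermat.Agent.S05.eta W P) ((W.Ψ₃).eval (xc W P)) ((W.preΨ₄).eval (xc W P)) n

theorem xi_eq_xc_sub (W : Affine L) (x0 : L) {P : W.Point} (hP : P ≠ 0) :
    Fermat.Agent.S05.xi W x0 P = xc W P - x0 := by
  rcases P with _ | ⟨x, y, h⟩
  · exact absurd rfl hP
  · rfl

end Fermat.Agent.S13
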