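import Mathlib
import Fermat.Prelude.Def_FLTPrelim_FreyPackage
import Fermat.Prelude.Def_FLTPrelim_GaloisRep
import Fermat.Prelude.Def_FLTPrelim_Ramification
import Fermat.Prelude.Def_FLTPrelim_CofixedLine
import Fermat.Agent.S13.Defs

set_option autoImplicit false

/-!
# S13, assembly: group-theoretic part

For a Galois-stable submodule `N` of the `n`-torsion `V` of an elliptic curve over `ℚ`, the
elements of `Gal(ℚ̄/ℚ)` acting trivially on `N` (resp. on `V / N`) form a normal subgroup,
which contains the pointwise stabiliser of the (finite) set of coordinates of the points of `V`.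
-/

namespace Fermat.Agent.S13

open WeierstrassCurve WeierstrassCurve.Affine WeierstrassCurve.Affine.Point

local notation "K" => AlgebraicClosure ℚ
local notation "Γ" => (AlgebraicClosure ℚ ≃ₐ[ℚ] AlgebraicClosure ℚ)

section Asm

variable {E : WeierstrassCurve ℚ} {n : ℕ}

/-- The elements of the Galois group acting trivially on `N`. -/
def fixSub (N : Submodule (ZMod n) (Submodule.torsionBy ℤ (E⁄K).Point n)) : Subgroup Γ where
  carrier := {σ | ∀ x ∈ N, σ • x = x}
  one_mem' := fun x _ => one_smul _ x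
  mul_mem' := by
    intro σ τ hσ hτ x hx
    rw [mul_smul, hτ x hx, hσ x hx]
  inv_mem' := by
    intro σ hσ x hx
    have h := hσ x hx
    calc σ⁻¹ • x = σ⁻¹ • (σ • x) := by rw [h]
      _ = x := inv_smul_smul σ x

theorem mem_fixSub {N : Submodule (ZMod n) (Submodule.torsionBy ℤ (E⁄K).Point n)} {σ : Γ} :
    σ ∈ fixSub N ↔ ∀ x ∈ N, σ • x = x := Iff.rfl

theorem fixSub_normal {N : Submodule (ZMod n) (Submodule.torsionBy ℤ (E⁄K).Point n)}
    (hN : IsGaloisStable ℚ N) : (fixSub N).Normal := by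
  constructor
  intro σ hσ g x hx
  have h1 : g⁻¹ • x ∈ N := hN g⁻¹ x hx
  have h2 := hσ _ h1
  rw [mul_smul, mul_smul, h2, smul_inv_smul]

/-- The elements of the Galois group acting trivially on the quotient by a Galois-stable `N`. -/
def quotSub (N : Submodule (ZMod n) (Submodule.torsionBy ℤ (E⁄K).Point n))
    (hN : IsGaloisStable ℚ N) : Subgroup Γ where
  carrier := {σ | ∀ x : Submodule.torsionBy ℤ (E⁄K).Point n, σ • x - x ∈ N}
  one_mem' := by
    intro x
    rw [one_smul, sub_self]
    exact N.zero_mem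
  mul_mem' := by
    intro σ τ hσ hτ x
    have h1 : σ • (τ • x - x) ∈ N := hN σ _ (hτ x)
    have h2 : (σ * τ) • x - x = σ • (τ • x - x) + (σ • x - x) := by
      rw [mul_smul, smul_sub]; abel
    rw [h2]
    exact N.add_mem h1 (hσ x)
  inv_mem' := by
    intro σ hσ x
    have h1 : σ⁻¹ • (σ • x - x) ∈ N := hN σ⁻¹ _ (hσ x)
    have h2 : σ⁻¹ • x - x = -(σ⁻¹ • (σ • x - x)) := by
      rw [smul_sub, inv_smul_smul]; abel
    rw [h2]
    exact N.neg_mem h1

theorem mem_quotSub {N : Submodule (ZMod n) (Submodule.torsionBy ℤ (E⁄K).Point n)}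
    {hN : IsGaloisStable ℚ N} {σ : Γ} :
    σ ∈ quotSub N hN ↔ ∀ x : Submodule.torsionBy ℤ (E⁄K).Point n, σ • x - x ∈ N := Iff.rfl

theorem quotSub_normal {N : Submodule (ZMod n) (Submodule.torsionBy ℤ (E⁄K).Point n)}
    (hN : IsGaloisStable ℚ N) : (quotSub N hN).Normal := by
  constructor
  intro σ hσ g x
  have h1 : g • (σ • (g⁻¹ • x) - g⁻¹ • x) ∈ N := hN g _ (hσ _)
  have h2 : (g * σ * g⁻¹) • x - x = g • (σ • (g⁻¹ • x) - g⁻¹ • x) := by
    rw [mul_smul, mul_smul, smul_sub, smul_inv_smul]
  rw [h2]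
  exact h1

/-- An automorphism fixing both coordinates of a point fixes the point. -/
theorem smul_eq_self_of_coord (σ : Γ) (x : (E⁄K).Point)
    (hx : σ (xc (E⁄K) x) = xc (E⁄K) x) (hy : σ (yc (E⁄K) x) = yc (E⁄K) x) : σ • x = x := by
  rcases x with _ | ⟨a, b, h⟩
  · rfl
  · have ha : σ a = a := hx
    have hb : σ b = b := hy
    rw [algEquiv_smul_def]
    simp only [Point.map_some]
    congr 1
    

/-- The finite set of all coordinates of the points of a finite torsion module. -/
noncomputable def coordSet (E : WeierstrassCurve ℚ) (n : ℕ)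
    [Finite (Submodule.torsionBy ℤ (E⁄K).Point n)] : Finset K :=
  letI : Fintype (Submodule.torsionBy ℤ (E⁄K).Point n) := Fintype.ofFinite _
  (Finset.univ.image fun x : Submodule.torsionBy ℤ (E⁄K).Point n => xc (E⁄K) x.1) ∪
    (Finset.univ.image fun x : Submodule.torsionBy ℤ (E⁄K).Point n => yc (E⁄K) x.1)

theorem smul_eq_self_of_coordSet [Finite (Submodule.torsionBy ℤ (E⁄K).Point n)] (σ : Γ)
    (hσ : ∀ s ∈ coordSet E n, σ s = s) (x : Submodule.torsionBy ℤ (E⁄K).Point n) :
    σ • x = x := by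
  letI : Fintype (Submodule.torsionBy ℤ (E⁄K).Point n) := Fintype.ofFinite _
  apply Subtype.ext
  apply smul_eq_self_of_coord σ x.1
  · apply hσ
    unfold coordSet
    exact Finset.mem_union_left _ (Finset.mem_image_of_mem _ (Finset.mem_univ x))
  · apply hσ
    unfold coordSet
    exact Finset.mem_union_right _ (Finset.mem_image_of_mem _ (Finset.mem_univ x))

end Asm

end Fermat.Agent.S13
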