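import Mathlib
import Fermat.Prelude.Def_FLTPrelim_Ramification
import Fermat.Agent.S05.Inertia
import Fermat.Agent.S54.Frobenius

set_option autoImplicit false

/-!
# S13, global part: lifting inertia from a finite level to the absolute Galois group
-/

namespace Fermat.Agent.S13

open scoped Pointwise

section Aux

local notation "Ω" => AlgebraicClosure ℚ
local notation "Γ" => (AlgebraicClosure ℚ ≃ₐ[ℚ] AlgebraicClosure ℚ)
local notation "B" => integralClosure ℤ (AlgebraicClosure ℚ)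

/-- An automorphism which acts trivially on the algebraic integers modulo the centre of `A` lies in
the inertia group of `A`. -/
theorem GlobLift.mem_inertia_of_integers (A : ValuationSubring Ω) {ℓ : ℕ} (hℓ : ℓ.Prime)
    (hA : A.LiesOverPrime ℓ) (σ : Γ)
    (hσ : ∀ b : Ω, IsIntegral ℤ b → A.valuation (σ b - b) < 1) :
    σ ∈ A.inertiaSubgroupIn ℚ := by
  have hℓA : ((ℓ : ℕ) : Ω) ∈ A.nonunits := hA
  have hB1 : ∀ b : Ω, IsIntegral ℤ b → A.valuation b ≤ 1 := fun b hb =>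
    (A.valuation_le_one_iff _).mpr (Fermat.Agent.S54.mem_of_isIntegral_int A hb)
  have hσint : ∀ b : Ω, IsIntegral ℤ b → IsIntegral ℤ (σ b) := fun b hb => hb.map σ
  have hσint' : ∀ b : Ω, IsIntegral ℤ b → IsIntegral ℤ (σ.symm b) := fun b hb => hb.map σ.symm
  have hunit : ∀ b : Ω, IsIntegral ℤ b → A.valuation b = 1 → A.valuation (σ b) = 1 := by
    intro b hb hb1
    refine le_antisymm (hB1 _ (hσint b hb)) (not_lt.mp fun hlt => ?_)
    have h1 : A.valuation b < 1 := by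
      have : b = σ b - (σ b - b) := by ring
      rw [this]
      exact lt_of_le_of_lt (A.valuation.map_sub _ _) (max_lt hlt (hσ b hb))
    rw [hb1] at h1
    exact lt_irrefl _ h1
  have hunit' : ∀ b : Ω, IsIntegral ℤ b → A.valuation b = 1 → A.valuation (σ.symm b) = 1 := by
    intro b hb hb1
    refine le_antisymm (hB1 _ (hσint' b hb)) (not_lt.mp fun hlt => ?_)
    have h1 : A.valuation (σ (σ.symm b)) < 1 := by
      have : σ (σ.symm b) = (σ (σ.symm b) - σ.symm b) + σ.symm b := by ring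
      rw [this]
      exact lt_of_le_of_lt (A.valuation.map_add _ _) (max_lt (hσ _ (hσint' b hb)) hlt)
    rw [AlgEquiv.apply_symm_apply, hb1] at h1
    exact lt_irrefl _ h1
  have hmem : ∀ x : Ω, x ∈ A → σ x ∈ A := by
    intro x hx
    obtain ⟨b, s, hb, hs, hs1, hxs⟩ := Fermat.Agent.S54.exists_integral_frac A hℓ hℓA x
      (Fermat.Agent.S54.isAlgebraic_int x) hx
    have h1 : A.valuation (σ x) * A.valuation (σ s) = A.valuation (σ b) := by
      rw [← map_mul, ← map_mul, hxs]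
    rw [hunit s hs hs1, mul_one] at h1
    rw [← A.valuation_le_one_iff, h1]
    exact hB1 _ (hσint b hb)
  have hmem' : ∀ x : Ω, x ∈ A → σ.symm x ∈ A := by
    intro x hx
    obtain ⟨b, s, hb, hs, hs1, hxs⟩ := Fermat.Agent.S54.exists_integral_frac A hℓ hℓA x
      (Fermat.Agent.S54.isAlgebraic_int x) hx
    have h1 : A.valuation (σ.symm x) * A.valuation (σ.symm s) = A.valuation (σ.symm b) := by
      rw [← map_mul, ← map_mul, hxs]
    rw [hunit' s hs hs1, mul_one] at h1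
    rw [← A.valuation_le_one_iff, h1]
    exact hB1 _ (hσint' b hb)
  rw [Fermat.Agent.S05.Inertia.mem_inertiaSubgroupIn_iff]
  refine ⟨?_, ?_⟩
  · rw [Fermat.Agent.S05.Inertia.mem_decomposition_iff]
    intro x
    constructor
    · intro h
      have := hmem' _ h
      rwa [AlgEquiv.symm_apply_apply] at this
    · exact hmem x
  · intro x hx
    obtain ⟨b, s, hb, hs, hs1, hxs⟩ := Fermat.Agent.S54.exists_integral_frac A hℓ hℓA x
      (Fermat.Agent.S54.isAlgebraic_int x) hx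
    have hden : A.valuation (σ s * s) = 1 := by
      rw [map_mul, hunit s hs hs1, hs1, one_mul]
    have hkey : (σ x - x) * (σ s * s) = (σ b - b) * s - b * (σ s - s) := by
      rw [← hxs, map_mul]; ring
    have hnum : A.valuation ((σ b - b) * s - b * (σ s - s)) < 1 := by
      refine lt_of_le_of_lt (A.valuation.map_sub _ _) (max_lt ?_ ?_)
      · rw [map_mul, hs1, mul_one]
        exact hσ b hb
      · rw [map_mul]
        exact lt_of_le_of_lt (mul_le_of_le_one_left' (hB1 _ hb)) (hσ s hs)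
    rw [← hkey, map_mul, hden, mul_one] at hnum
    exact hnum

theorem GlobLift.stabilizer_isOpen (b : B) : IsOpen (MulAction.stabilizer Γ b : Set Γ) := by
  have : (MulAction.stabilizer Γ b : Set Γ) = MulAction.stabilizer Γ (b : Ω) := by
    ext g
    simp only [SetLike.mem_coe, MulAction.mem_stabilizer_iff, Subtype.ext_iff]
    rfl
  rw [this]
  exact stabilizer_isOpen_of_isIntegral (K := ℚ) (L := Ω) b.1

end Aux

local notation "K" => AlgebraicClosure ℚ
local notation "Γ" => (AlgebraicClosure ℚ ≃ₐ[ℚ] AlgebraicClosure ℚ)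
local notation "B" => integralClosure ℤ (AlgebraicClosure ℚ)

/-- Let `H` be an open normal subgroup of `Γ = Gal(ℚ̄/ℚ)` and `A` a valuation subring of `ℚ̄` over
`ℓ`.  If `γ ∈ Γ` acts on the `H`-fixed algebraic integers as an inertia element at `A`
(`γ b ≡ b` modulo the maximal ideal of `A`), then `γ ∈ σ H` for some `σ` in the inertia group
of `A`. -/
theorem exists_inertia_lift (H : Subgroup Γ) [H.Normal] (hopen : IsOpen (H : Set Γ))
    (A : ValuationSubring K) {ℓ : ℕ} (hℓ : ℓ.Prime) (hA : A.LiesOverPrime ℓ) (γ : Γ)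
    (hγ : ∀ b : K, IsIntegral ℤ b → (∀ h ∈ H, h b = b) → A.valuation (γ b - b) < 1) :
    ∃ σ ∈ A.inertiaSubgroupIn ℚ, σ⁻¹ * γ ∈ H := by
  classical
  suffices h : ∃ σ : Γ, σ⁻¹ * γ ∈ H ∧ ∀ b : K, IsIntegral ℤ b → A.valuation (σ b - b) < 1 by
    obtain ⟨σ, h1, h2⟩ := h
    exact ⟨σ, GlobLift.mem_inertia_of_integers A hℓ hA σ h2, h1⟩
  have hBV : ∀ b : B, (b : K) ∈ A := fun b => Fermat.Agent.S54.mem_of_isIntegral_int A b.2
  let ι : B →+* A :=
    { toFun := fun b => ⟨b.1, hBV b⟩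
      map_one' := rfl
      map_mul' := fun _ _ => rfl
      map_zero' := rfl
      map_add' := fun _ _ => rfl }
  let Q : Ideal B := (IsLocalRing.maximalIdeal A).comap ι
  have hQprime : Q.IsPrime := Ideal.comap_isPrime ι _
  have hQ : ∀ b : B, b ∈ Q ↔ A.valuation (b : K) < 1 := by
    intro b
    rw [Ideal.mem_comap, A.valuation_lt_one_iff]
    rfl
  let _ : TopologicalSpace B := ⊥
  have : DiscreteTopology B := ⟨rfl⟩
  have hcont : ContinuousSMul Γ B :=
    continuousSMul_iff_stabilizer_isOpen.mpr fun b => GlobLift.stabilizer_isOpen b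
  have hcontH : ContinuousSMul H B := inferInstance
  have hcompact : CompactSpace H :=
    isCompact_iff_compactSpace.mp (Subgroup.isClosed_of_isOpen H hopen).isCompact
  let A₀ : Subalgebra ℤ B := FixedPoints.subalgebra ℤ B H
  have hA₀ : ∀ b : B, b ∈ A₀ ↔ ∀ h ∈ H, h • b = b := by
    intro b
    constructor
    · intro hb h hh
      exact hb ⟨h, hh⟩
    · intro hb h
      exact hb h.1 h.2
  have hcomm : SMulCommClass H A₀ B := by
    refine ⟨fun h a b => ?_⟩
    rw [Algebra.smul_def, Algebra.smul_def, smul_mul']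
    congr 1
    exact a.2 h
  have hinv : Algebra.IsInvariant A₀ B H := ⟨fun b hb => ⟨⟨b, hb⟩, rfl⟩⟩
  -- the hypothesis on `γ`, in terms of `Q`
  have hγQ : ∀ b : B, b ∈ A₀ → γ • b - b ∈ Q := by
    intro b hb
    rw [hQ]
    refine hγ (b : K) b.2 fun h hh => ?_
    have := (hA₀ b).mp hb h hh
    exact congrArg Subtype.val this
  -- (a)
  have hγA₀ : ∀ b : B, b ∈ A₀ → γ • b ∈ A₀ := by
    intro b hb
    rw [hA₀] at hb ⊢
    intro h hh
    have h1 : γ⁻¹ * h * γ ∈ H := by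
      have := Subgroup.Normal.conj_mem ‹H.Normal› h hh γ⁻¹
      simpa using this
    have h2 := hb _ h1
    rw [mul_smul, mul_smul] at h2
    have h3 := congrArg (fun x => γ • x) h2
    simpa using h3
  have hγinvA₀ : ∀ b : B, b ∈ A₀ → γ⁻¹ • b ∈ A₀ := by
    intro b hb
    rw [hA₀] at hb ⊢
    intro h hh
    have h1 : γ * h * γ⁻¹ ∈ H := Subgroup.Normal.conj_mem ‹H.Normal› h hh γ
    have h2 := hb _ h1
    rw [mul_smul, mul_smul] at h2
    have h3 := congrArg (fun x => γ⁻¹ • x) h2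
    simpa using h3
  have hunder : (γ • Q).under A₀ = Q.under A₀ := by
    ext a
    rw [Ideal.mem_comap, Ideal.mem_comap, Ideal.mem_pointwise_smul_iff_inv_smul_mem]
    have h1 := hγQ _ (hγinvA₀ _ a.2)
    rw [smul_inv_smul] at h1
    constructor
    · intro h2
      have := Q.add_mem h1 h2
      simpa using this
    · intro h2
      have := Q.sub_mem h2 h1
      simpa using this
  -- (b)
  obtain ⟨h, hh⟩ := Algebra.IsInvariant.exists_smul_of_under_eq_of_profinite (A := A₀) (G := H)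
    (γ • Q) Q hunder
  have hσ₁Q : ((h : Γ) * γ) • Q = Q := by
    rw [mul_smul]
    exact hh.symm
  have hσ₁A₀ : ∀ b : B, b ∈ A₀ → ((h : Γ) * γ) • b - b ∈ Q := by
    intro b hb
    have h1 : ((h : Γ) * γ) • b = γ • b := by
      rw [mul_smul]
      exact (hA₀ _).mp (hγA₀ b hb) h.1 h.2
    rw [h1]
    exact hγQ b hb
  -- (c)
  let P : Ideal A₀ := Q.under A₀
  have hlies : Q.LiesOver P := ⟨rfl⟩
  let τ₀ : (B ⧸ Q) ≃ₐ[ℤ ⧸ Q.under ℤ] (B ⧸ Q) :=
    Ideal.Quotient.stabilizerHom Q (Q.under ℤ) Γ ⟨(h : Γ) * γ, hσ₁Q⟩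
  have hτ₀ : ∀ b : B, τ₀ (Ideal.Quotient.mk Q b) = Ideal.Quotient.mk Q (((h : Γ) * γ) • b) :=
    fun b => Ideal.Quotient.stabilizerHom_apply Q (Q.under ℤ) Γ ⟨(h : Γ) * γ, hσ₁Q⟩ b
  let τ : (B ⧸ Q) ≃ₐ[A₀ ⧸ P] (B ⧸ Q) :=
    { τ₀.toRingEquiv with
      commutes' := fun r => by
        obtain ⟨a, rfl⟩ := Ideal.Quotient.mk_surjective r
        show τ₀ (Ideal.Quotient.mk Q (a : B)) = Ideal.Quotient.mk Q (a : B)
        rw [hτ₀, Ideal.Quotient.eq]
        exact hσ₁A₀ _ a.2 }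
  have hτ : ∀ b : B, τ (Ideal.Quotient.mk Q b) = Ideal.Quotient.mk Q (((h : Γ) * γ) • b) := hτ₀
  -- (d)
  obtain ⟨⟨h', hh'Q⟩, hh'⟩ := Ideal.Quotient.stabilizerHom_surjective_of_profinite (G := H) P Q τ
  refine ⟨(h : Γ) * γ * (h' : Γ)⁻¹, ?_, ?_⟩
  · have h1 : ((h : Γ) * γ * (h' : Γ)⁻¹)⁻¹ * γ = (h' : Γ) * (γ⁻¹ * (h : Γ)⁻¹ * γ) := by group
    rw [h1]
    refine H.mul_mem h'.2 ?_
    have := Subgroup.Normal.conj_mem ‹H.Normal› _ (H.inv_mem h.2) γ⁻¹
    simpa using this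
  · intro b hb
    have hb' : b ∈ integralClosure ℤ K := hb
    have h2 := DFunLike.congr_fun hh' (Ideal.Quotient.mk Q ((h' : Γ)⁻¹ • (⟨b, hb'⟩ : B)))
    rw [Ideal.Quotient.stabilizerHom_apply, hτ] at h2
    have h5 : (⟨h', hh'Q⟩ : MulAction.stabilizer H Q) • ((h' : Γ)⁻¹ • (⟨b, hb'⟩ : B)) =
        ⟨b, hb'⟩ := smul_inv_smul (h' : Γ) (⟨b, hb'⟩ : B)
    have h2' : Ideal.Quotient.mk Q (⟨b, hb'⟩ : B) =
        Ideal.Quotient.mk Q (((h : Γ) * γ) • ((h' : Γ)⁻¹ • (⟨b, hb'⟩ : B))) :=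
      (congrArg (Ideal.Quotient.mk Q) h5).symm.trans h2
    have h3 := Ideal.Quotient.eq.mp h2'.symm
    rw [hQ] at h3
    exact h3

end Fermat.Agent.S13
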