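import Mathlib
import Fermat.Prelude.Def_FLTPrelim_Ramification
import Fermat.Agent.S05.Inertia
import Fermat.Agent.S54.Frobenius
import Fermat.Agent.S13.GlobLift

set_option autoImplicit false

/-!
# S13, global part: a normal open subgroup of `Gal(ℚ̄/ℚ)` containing one inertia group at every
prime is everything (Minkowski: `ℚ` has no nontrivial extension unramified everywhere).
-/

namespace Fermat.Agent.S13

local notation "K" => AlgebraicClosure ℚ
local notation "Γ" => (AlgebraicClosure ℚ ≃ₐ[ℚ] AlgebraicClosure ℚ)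

open scoped NumberField

/-- A subgroup containing the pointwise stabiliser of a finite set is open. -/
theorem GlobMain.isOpen_of_finset (H : Subgroup Γ) (S : Finset K)
    (hS : ∀ σ : Γ, (∀ s ∈ S, σ s = s) → σ ∈ H) : IsOpen (H : Set Γ) := by
  let F : IntermediateField ℚ K := IntermediateField.adjoin ℚ (S : Set K)
  have : FiniteDimensional ℚ F :=
    IntermediateField.finiteDimensional_adjoin (fun x _ => Algebra.IsIntegral.isIntegral x)
  have hle : F.fixingSubgroup ≤ H := by
    intro σ hσ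
    apply hS
    intro s hs
    exact (IntermediateField.mem_fixingSubgroup_iff F σ).mp hσ s
      (IntermediateField.subset_adjoin ℚ _ hs)
  exact Subgroup.isOpen_mono hle F.fixingSubgroup_isOpen

/-- In a finite Galois extension `L/ℚ`, a ramified prime over `p` has a nontrivial inertia
element. -/
theorem GlobMain.exists_inertia_ne_one (L : Type) [Field L] [NumberField L] [IsGalois ℚ L]
    (P : Ideal (𝓞 L)) [P.IsPrime] {p : ℕ} (hp : p.Prime) (hpP : (p : 𝓞 L) ∈ P)
    (hP : ¬ Algebra.IsUnramifiedAt ℤ P) :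
    ∃ g : L ≃ₐ[ℚ] L, g ≠ 1 ∧ ∀ x : 𝓞 L,
      (galRestrict ℤ ℚ L (𝓞 L) g x : 𝓞 L) - x ∈ P := by
  let : MulSemiringAction Gal(L/ℚ) (𝓞 L) := IsIntegralClosure.MulSemiringAction ℤ ℚ L (𝓞 L)
  have := IsGaloisGroup.of_isFractionRing Gal(L/ℚ) ℤ (𝓞 L) ℚ L
  have hbot : P.under ℤ ≠ ⊥ := by
    intro h
    have h1 : ((p : ℤ)) ∈ P.under ℤ := by
      rw [Ideal.mem_comap]
      simpa using hpP
    rw [h, Ideal.mem_bot] at h1
    exact hp.ne_zero (by exact_mod_cast h1)
  have : (P.under ℤ).IsMaximal := Ideal.IsPrime.isMaximal inferInstance hbot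
  have hfin : Finite (ℤ ⧸ P.under ℤ) := Ring.HasFiniteQuotients.finiteQuotient hbot
  have hcard : Nat.card (P.inertia Gal(L/ℚ)) = (P.under ℤ).ramificationIdxIn (𝓞 L) :=
    Ideal.card_inertia_eq_ramificationIdxIn (P.under ℤ) P
  rw [Ideal.ramificationIdxIn_eq_ramificationIdx (P.under ℤ) P Gal(L/ℚ)] at hcard
  have hne : Nat.card (P.inertia Gal(L/ℚ)) ≠ 1 := by
    rw [hcard]; intro h; exact hP (Ideal.ramificationIdx_eq_one_iff.mp h)
  have hnt : Nontrivial (P.inertia Gal(L/ℚ)) := by
    by_contra hcon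
    rw [not_nontrivial_iff_subsingleton] at hcon
    exact hne (Nat.card_unique)
  obtain ⟨⟨g, hg⟩, hg1⟩ := exists_ne (1 : P.inertia Gal(L/ℚ))
  refine ⟨g, fun h => hg1 (Subtype.ext h), fun x => ?_⟩
  exact hg x

theorem eq_top_of_inertia_le (H : Subgroup Γ) [H.Normal] (S : Finset K)
    (hS : ∀ σ : Γ, (∀ s ∈ S, σ s = s) → σ ∈ H)
    (hI : ∀ ℓ : ℕ, ℓ.Prime →
      ∃ A : ValuationSubring K, A.LiesOverPrime ℓ ∧ A.inertiaSubgroupIn ℚ ≤ H) :
    H = ⊤ := by
  have hopen : IsOpen (H : Set Γ) := GlobMain.isOpen_of_finset H S hS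
  have hclosed : IsClosed (H : Set Γ) := Subgroup.isClosed_of_isOpen H hopen
  let Hc : ClosedSubgroup Γ := ⟨H, hclosed⟩
  let L : IntermediateField ℚ K := IntermediateField.fixedField H
  have hfix : L.fixingSubgroup = H := InfiniteGalois.fixingSubgroup_fixedField Hc
  have hLopen : IsOpen L.fixingSubgroup.carrier := by rw [hfix]; exact hopen
  have hLnormal : L.fixingSubgroup.Normal := by rw [hfix]; infer_instance
  obtain ⟨hfd, hgal⟩ :=
    (InfiniteGalois.isOpen_and_normal_iff_finite_and_isGalois L).mp ⟨hLopen, hLnormal⟩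
  have hfd' : FiniteDimensional ℚ L := hfd
  have hgal' : IsGalois ℚ L := hgal
  have hNF : NumberField L := NumberField.mk
  by_contra hne
  have hrank : 1 < Module.finrank ℚ L := by
    have hpos : 0 < Module.finrank ℚ L := Module.finrank_pos
    have h1 : Module.finrank ℚ L ≠ 1 := by
      intro h
      have hb : L = ⊥ := IntermediateField.finrank_eq_one_iff.mp h
      apply hne
      rw [← hfix, hb]
      exact IntermediateField.fixingSubgroup_bot
    omega
  obtain ⟨p, hp, hram⟩ :=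
    NumberField.exists_not_isUnramifiedAt_int_of_isGalois (𝒪 := 𝓞 L) hrank
  obtain ⟨A, hA, hAH⟩ := hI p hp
  -- the prime of `𝓞 L` below `A`
  have hint : ∀ x : 𝓞 L, IsIntegral ℤ (((x : L) : K)) := fun x =>
    (NumberField.RingOfIntegers.isIntegral_coe x).map (IsScalarTower.toAlgHom ℤ L K)
  have hmem : ∀ x : 𝓞 L, ((algebraMap L K).comp (algebraMap (𝓞 L) L)) x ∈ A.toSubring :=
    fun x => S54.mem_of_isIntegral_int A (hint x)
  let f : 𝓞 L →+* A := ((algebraMap L K).comp (algebraMap (𝓞 L) L)).codRestrict A.toSubring hmem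
  let P : Ideal (𝓞 L) := Ideal.comap f (IsLocalRing.maximalIdeal A)
  have hPprime : P.IsPrime := Ideal.comap_isPrime f _
  have hPval : ∀ x : 𝓞 L, x ∈ P ↔ A.valuation ((x : L) : K) < 1 := fun x => by
    show f x ∈ IsLocalRing.maximalIdeal A ↔ _
    rw [A.valuation_lt_one_iff]; rfl
  have hpP : (p : 𝓞 L) ∈ P := by
    rw [hPval]
    have : (((p : 𝓞 L) : L) : K) = (p : K) := by simp
    rw [this]
    exact A.mem_nonunits_iff.mp hA
  obtain ⟨g, hg1, hg⟩ := GlobMain.exists_inertia_ne_one L P hp hpP (hram P hPprime hpP)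
  obtain ⟨γ, hγ⟩ := AlgEquiv.restrictNormalHom_surjective K g
  have hkey : ∀ b : K, IsIntegral ℤ b → (∀ h ∈ H, h b = b) → A.valuation (γ b - b) < 1 := by
    intro b hb hfixb
    have hbL : b ∈ L := fun h => hfixb h.1 h.2
    have hbL' : IsIntegral ℤ (⟨b, hbL⟩ : L) := by
      have : IsIntegral ℤ (algebraMap L K ⟨b, hbL⟩) := hb
      exact (isIntegral_algebraMap_iff (algebraMap L K).injective).mp this
    let x : 𝓞 L := ⟨⟨b, hbL⟩, hbL'⟩
    have h1 := (hPval _).mp (hg x)
    have h2 : A.valuation (γ b - b) =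
        A.valuation (((galRestrict ℤ ℚ L (𝓞 L) g x - x : 𝓞 L) : L) : K) := by
      congr 1
      have e1 : ((galRestrict ℤ ℚ L (𝓞 L) g x - x : 𝓞 L) : L) = g (x : L) - (x : L) := by
        have := algebraMap_galRestrict_apply ℤ g x
        rw [← this]
        exact map_sub (algebraMap (𝓞 L) L) _ _
      rw [e1, ← hγ]
      have e2 : (((AlgEquiv.restrictNormalHom L γ) (x : L) : L) : K) = γ ((x : L) : K) :=
        AlgEquiv.restrictNormalHom_apply L γ (x : L)
      show γ b - b = ((((AlgEquiv.restrictNormalHom L γ) (x : L) : L) : K) - ((x : L) : K))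
      rw [e2]
      rfl
    rw [h2]; exact h1
  obtain ⟨σ, hσ, hσγ⟩ := exists_inertia_lift H hopen A hp hA γ hkey
  have hγH : γ ∈ H := by
    have := H.mul_mem (hAH hσ) hσγ
    simpa using this
  have hker : γ ∈ L.fixingSubgroup := by rw [hfix]; exact hγH
  have hone := MonoidHom.mem_ker.mp ((IntermediateField.restrictNormalHom_ker L).ge hker)
  exact hg1 (hγ.symm.trans hone)

end Fermat.Agent.S13
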