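import Fermat.Agent.S05.OrdLemmas

set_option autoImplicit false

namespace Fermat.Agent.S13

open Fermat.Agent.S05

variable {L : Type*} [Field L] {A : ValuationSubring L}

/-- The order of a finite product of nonzero elements is the sum of the orders. -/
theorem LocCountAbs.ord_prod (O : OrdFun A) {κ : Type*} [DecidableEq κ] (s : Finset κ)
    (g : κ → L) (hg : ∀ i ∈ s, g i ≠ 0) :
    O.ord (∏ i ∈ s, g i) = ∑ i ∈ s, O.ord (g i) := by
  induction s using Finset.induction_on with
  | empty => simp [O.ord_one]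
  | insert a s ha ih =>
    have hg' : ∀ i ∈ s, g i ≠ 0 := fun i hi => hg i (Finset.mem_insert_of_mem hi)
    rw [Finset.prod_insert ha, Finset.sum_insert ha,
      O.ord_mul _ _ (hg a (Finset.mem_insert_self a s)) (Finset.prod_ne_zero_iff.mpr hg'),
      ih hg']

/-- For an exactly `2`-to-`1` family, the product over a stable set is the square of the
product of the distinct values. -/
theorem LocCountAbs.prod_eq_sq {ι : Type*} [DecidableEq ι] [DecidableEq L]
    (f : ι → L) (ν : ι → ι)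
    (hν : ∀ i, ν i ≠ i) (hfν : ∀ i, f (ν i) = f i)
    (hinj : ∀ i j, f i = f j → j = i ∨ j = ν i)
    (S : Finset ι) (hSν : ∀ i ∈ S, ν i ∈ S) :
    ∏ i ∈ S, f i = (∏ x ∈ S.image f, x) ^ 2 := by
  have h1 := Finset.prod_comp (s := S) (fun x : L => x) f
  rw [h1, ← Finset.prod_pow]
  refine Finset.prod_congr rfl ?_
  intro b hb
  obtain ⟨i, hi, rfl⟩ := Finset.mem_image.mp hb
  have hfib : S.filter (fun a => f a = f i) = {i, ν i} := by
    ext a
    simp only [Finset.mem_filter, Finset.mem_insert, Finset.mem_singleton]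
    constructor
    · rintro ⟨_, ha⟩
      exact hinj i a ha.symm
    · rintro (rfl | rfl)
      · exact ⟨hi, rfl⟩
      · exact ⟨hSν _ hi, hfν _⟩
  rw [hfib, Finset.card_pair (hν i).symm]

/-- Counting lemma: a finite family `f` of elements of negative order, invariant under a free
involution `ν` and exactly `2`-to-`1`, whose total product has order `≥ -2`, cannot contain a
proper nonempty `ν`-stable subfamily `S` such that the product of the *distinct values* of `f`
on `S` has integral order. -/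
theorem count_contra (O : OrdFun A) {ι : Type*} [Fintype ι] [DecidableEq ι] [DecidableEq L]
    (f : ι → L) (ν : ι → ι)
    (hf0 : ∀ i, f i ≠ 0) (hneg : ∀ i, O.ord (f i) < 0)
    (hν : ∀ i, ν i ≠ i) (hνν : ∀ i, ν (ν i) = i) (hfν : ∀ i, f (ν i) = f i)
    (hinj : ∀ i j, f i = f j → j = i ∨ j = ν i)
    (htot : -2 ≤ O.ord (∏ i, f i))
    (S : Finset ι) (hS : S.Nonempty) (hSc : Sᶜ.Nonempty) (hSν : ∀ i ∈ S, ν i ∈ S)
    (hint : ∃ k : ℤ, O.ord (∏ x ∈ S.image f, x) = k) : False := by
  have _ := hνν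
  obtain ⟨k, hk⟩ := hint
  have himg0 : ∀ x ∈ S.image f, x ≠ 0 := by
    intro x hx
    obtain ⟨i, _, rfl⟩ := Finset.mem_image.mp hx
    exact hf0 i
  have hs0 : (∏ x ∈ S.image f, x) ≠ 0 := Finset.prod_ne_zero_iff.mpr himg0
  have hsum : O.ord (∏ x ∈ S.image f, x) = ∑ x ∈ S.image f, O.ord x :=
    LocCountAbs.ord_prod O (S.image f) (fun x => x) himg0
  have hsneg : O.ord (∏ x ∈ S.image f, x) < 0 := by
    rw [hsum]
    refine Finset.sum_neg ?_ (hS.image f)
    intro x hx
    obtain ⟨i, _, rfl⟩ := Finset.mem_image.mp hx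
    exact hneg i
  have hk1 : (k : ℚ) ≤ -1 := by
    have h1 : (k : ℚ) < 0 := hk ▸ hsneg
    have h2 : k < 0 := by exact_mod_cast h1
    have h3 : k ≤ -1 := by omega
    exact_mod_cast h3
  have hS2 : O.ord (∏ i ∈ S, f i) ≤ -2 := by
    rw [LocCountAbs.prod_eq_sq f ν hν hfν hinj S hSν, O.ord_pow hs0 2, hk]
    push_cast
    linarith
  have hSc' : O.ord (∏ i ∈ Sᶜ, f i) < 0 := by
    rw [LocCountAbs.ord_prod O Sᶜ f (fun i _ => hf0 i)]
    exact Finset.sum_neg (fun i _ => hneg i) hSc
  have htot' : O.ord (∏ i, f i) = O.ord (∏ i ∈ S, f i) + O.ord (∏ i ∈ Sᶜ, f i) := by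
    rw [← Finset.prod_mul_prod_compl S f]
    exact O.ord_mul _ _ (Finset.prod_ne_zero_iff.mpr (fun i _ => hf0 i))
      (Finset.prod_ne_zero_iff.mpr (fun i _ => hf0 i))
  linarith

end Fermat.Agent.S13
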