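import Mathlib

set_option autoImplicit false

namespace Fermat.Agent.S13

variable {p : ℕ} [Fact p.Prime] {V : Type*} [AddCommGroup V] [Module (ZMod p) V]

omit [AddCommGroup V] [Module (ZMod p) V] in
/-- A plane over `𝔽_p` is finite. -/
theorem LocLin.finite (hcard : Nat.card V = p ^ 2) : Finite V := by
  apply Nat.finite_of_card_ne_zero
  rw [hcard]
  exact pow_ne_zero _ (Fact.out : p.Prime).ne_zero

/-- A plane over `𝔽_p` has dimension two. -/
theorem LocLin.finrank_eq_two (hcard : Nat.card V = p ^ 2) :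
    Module.finrank (ZMod p) V = 2 := by
  have := LocLin.finite hcard
  have h := Module.natCard_eq_pow_finrank (K := ZMod p) (V := V)
  rw [hcard, Nat.card_zmod] at h
  exact (Nat.pow_right_injective (Fact.out : p.Prime).two_le h).symm

/-- A proper nonzero subspace of a plane has dimension one. -/
theorem LocLin.finrank_eq_one (hcard : Nat.card V = p ^ 2) (N : Submodule (ZMod p) V)
    (hbot : N ≠ ⊥) (htop : N ≠ ⊤) : Module.finrank (ZMod p) N = 1 := by
  have := LocLin.finite hcard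
  have h2 := LocLin.finrank_eq_two hcard
  have hlt : Module.finrank (ZMod p) N < Module.finrank (ZMod p) V :=
    Submodule.finrank_lt htop
  have hne : Module.finrank (ZMod p) N ≠ 0 := by
    intro h0
    exact hbot (Submodule.finrank_eq_zero.mp h0)
  omega

/-- In a plane over `𝔽_p`, a proper nonzero subspace has `p` elements. -/
theorem card_of_ne_bot_of_ne_top (hcard : Nat.card V = p ^ 2) (N : Submodule (ZMod p) V)
    (hbot : N ≠ ⊥) (htop : N ≠ ⊤) : Nat.card N = p := by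
  have := LocLin.finite hcard
  have h := Module.natCard_eq_pow_finrank (K := ZMod p) (V := N)
  rw [LocLin.finrank_eq_one hcard N hbot htop, Nat.card_zmod, pow_one] at h
  exact h

/-- Every vector of a line is a multiple of a given nonzero vector of it. -/
theorem LocLin.exists_smul (hcard : Nat.card V = p ^ 2) (N : Submodule (ZMod p) V)
    (hbot : N ≠ ⊥) (htop : N ≠ ⊤) {x₀ : V} (hx₀ : x₀ ∈ N) (h0 : x₀ ≠ 0) {x : V}
    (hx : x ∈ N) : ∃ c : ZMod p, c • x₀ = x := by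
  have h1 := LocLin.finrank_eq_one hcard N hbot htop
  have hv : (⟨x₀, hx₀⟩ : N) ≠ 0 := by
    intro h
    exact h0 (congrArg Subtype.val h)
  obtain ⟨c, hc⟩ := (finrank_eq_one_iff_of_nonzero' (⟨x₀, hx₀⟩ : N) hv).mp h1 ⟨x, hx⟩
  exact ⟨c, congrArg Subtype.val hc⟩

/-- Two comparable lines of a plane coincide. -/
theorem LocLin.eq_of_le (hcard : Nat.card V = p ^ 2) (N M : Submodule (ZMod p) V)
    (hbot : N ≠ ⊥) (hMtop : M ≠ ⊤) (hle : N ≤ M) : N = M := by
  have := LocLin.finite hcard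
  by_contra hne
  have hlt : N < M := lt_of_le_of_ne hle hne
  have hMbot : M ≠ ⊥ := by
    intro h
    rw [h] at hle
    exact hbot (le_bot_iff.mp hle)
  have hNtop : N ≠ ⊤ := by
    intro h
    rw [h] at hle
    exact hMtop (top_le_iff.mp hle)
  have h1 := LocLin.finrank_eq_one hcard N hbot hNtop
  have h2 := LocLin.finrank_eq_one hcard M hMbot hMtop
  have h3 := Submodule.finrank_lt_finrank_of_lt hlt
  omega

/-- If `D` preserves the line `N`, `D² N ⊆ T` and `N ∩ T = 0`, then `D` kills `N`. -/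
theorem lin_zero_on (hcard : Nat.card V = p ^ 2) (N T : Submodule (ZMod p) V)
    (hbot : N ≠ ⊥) (htop : N ≠ ⊤) (D : V →+ V) (hDN : ∀ x ∈ N, D x ∈ N)
    (hD2 : ∀ x ∈ N, D (D x) ∈ T) (hNT : N ⊓ T = ⊥) : ∀ x ∈ N, D x = 0 := by
  obtain ⟨x₀, hx₀, h0⟩ := (Submodule.ne_bot_iff N).mp hbot
  obtain ⟨c, hc⟩ := LocLin.exists_smul hcard N hbot htop hx₀ h0 (hDN x₀ hx₀)
  have hDD : D (D x₀) = (c * c) • x₀ := by
    rw [← hc, ZMod.map_smul, ← hc, smul_smul]
  have hmem : (c * c) • x₀ ∈ N ⊓ T := by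
    refine ⟨N.smul_mem _ hx₀, ?_⟩
    rw [← hDD]
    exact hD2 x₀ hx₀
  rw [hNT, Submodule.mem_bot] at hmem
  have hc0 : c = 0 := by
    rcases smul_eq_zero.mp hmem with h | h
    · exact mul_self_eq_zero.mp h
    · exact absurd h h0
  have hDx₀ : D x₀ = 0 := by rw [← hc, hc0, zero_smul]
  intro x hx
  obtain ⟨a, ha⟩ := LocLin.exists_smul hcard N hbot htop hx₀ h0 hx
  rw [← ha, ZMod.map_smul, hDx₀, smul_zero]

/-- If `D` preserves the line `N` and `D² V ⊆ N`, then `D V ⊆ N`. -/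
theorem lin_mem (hcard : Nat.card V = p ^ 2) (N : Submodule (ZMod p) V)
    (hbot : N ≠ ⊥) (htop : N ≠ ⊤) (D : V →+ V) (hDN : ∀ x ∈ N, D x ∈ N)
    (hD2 : ∀ x, D (D x) ∈ N) : ∀ x, D x ∈ N := by
  obtain ⟨x₁, hx₁⟩ : ∃ x₁ : V, x₁ ∉ N := by
    by_contra h
    exact htop (Submodule.eq_top_iff'.mpr fun x => not_not.mp fun hx => h ⟨x, hx⟩)
  have hx₁span : x₁ ∈ Submodule.span (ZMod p) ({x₁} : Set V) :=
    Submodule.mem_span_singleton_self x₁
  have hsup : N ⊔ Submodule.span (ZMod p) ({x₁} : Set V) = ⊤ := by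
    by_contra hne
    have heq := LocLin.eq_of_le hcard N _ hbot hne le_sup_left
    apply hx₁
    rw [heq]
    exact Submodule.mem_sup_right hx₁span
  have hdecomp : ∀ x : V, ∃ a : ZMod p, ∃ n ∈ N, x = a • x₁ + n := by
    intro x
    have hx : x ∈ N ⊔ Submodule.span (ZMod p) ({x₁} : Set V) := by
      rw [hsup]
      exact Submodule.mem_top
    obtain ⟨n, hn, z, hz, hnz⟩ := Submodule.mem_sup.mp hx
    obtain ⟨a, ha⟩ := Submodule.mem_span_singleton.mp hz
    exact ⟨a, n, hn, by rw [ha, add_comm, hnz]⟩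
  obtain ⟨c, n₁, hn₁, hDx₁⟩ := hdecomp (D x₁)
  have hDD : D (D x₁) = (c * c) • x₁ + (c • n₁ + D n₁) := by
    conv_lhs => rw [hDx₁]
    rw [map_add, ZMod.map_smul, hDx₁, smul_add, smul_smul, add_assoc]
  have hmem : (c * c) • x₁ ∈ N := by
    have h1 : D (D x₁) - (c • n₁ + D n₁) ∈ N :=
      N.sub_mem (hD2 x₁) (N.add_mem (N.smul_mem c hn₁) (hDN n₁ hn₁))
    rw [hDD, add_sub_cancel_right] at h1
    exact h1
  have hc0 : c = 0 := by
    by_contra hc
    have hcc : c * c ≠ 0 := mul_ne_zero hc hc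
    exact hx₁ ((N.smul_mem_iff hcc).mp hmem)
  have hDx₁N : D x₁ ∈ N := by
    rw [hDx₁, hc0, zero_smul, zero_add]
    exact hn₁
  intro x
  obtain ⟨a, n, hn, hx⟩ := hdecomp x
  rw [hx, map_add, ZMod.map_smul]
  exact N.add_mem (N.smul_mem a hDx₁N) (hDN n hn)

/-- A proper subspace meeting the line `N` nontrivially is `N`. -/
theorem lin_eq_of_inf_ne_bot (hcard : Nat.card V = p ^ 2) (N T : Submodule (ZMod p) V)
    (hbot : N ≠ ⊥) (htop : N ≠ ⊤) (hNT : N ⊓ T ≠ ⊥) (hT : T ≠ ⊤) : T = N := by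
  have h1 : N ⊓ T = N := LocLin.eq_of_le hcard (N ⊓ T) N hNT htop inf_le_left
  have hle : N ≤ T := inf_eq_left.mp h1
  exact (LocLin.eq_of_le hcard N T hbot hT hle).symm

end Fermat.Agent.S13
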