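import Fermat.Agent.S13.LocGal
import Fermat.Agent.S13.LocCountAbs
import Fermat.Agent.S13.LocLin
import Fermat.Agent.S05.Frey
import Fermat.Agent.S05.SingDepth

set_option autoImplicit false

namespace Fermat.Agent.S13

open WeierstrassCurve WeierstrassCurve.Affine WeierstrassCurve.Affine.Point Fermat.Agent.S05

local notation "K" => AlgebraicClosure ℚ

/-- `0` is a root of the two-torsion cubic of the Frey curve. -/
theorem LocCount.twoTors_zero (P : FreyPackage) : twoTors (P.freyCurve⁄K) 0 = 0 := by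
  have h := twoTors_baseChange P.freyCurve 0
  rw [_root_.map_zero] at h
  rw [h]
  have h0 : twoTors P.freyCurve 0 = 0 := by
    unfold twoTors
    rw [Frey.b₆_eq]
    ring
  rw [h0, _root_.map_zero]

theorem LocCount.tors (P : FreyPackage)
    (v : Submodule.torsionBy ℤ (P.freyCurve⁄K).Point P.p) : P.p • v.1 = 0 := by
  have h := v.2
  rw [Submodule.mem_torsionBy_iff] at h
  rwa [natCast_zsmul] at h

theorem LocCount.not_two_dvd (P : FreyPackage) : ¬ 2 ∣ P.p := by
  rw [← even_iff_two_dvd, Nat.not_even_iff_odd]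
  exact P.hp_odd

theorem LocCount.coe_ne_zero (P : FreyPackage)
    {v : Submodule.torsionBy ℤ (P.freyCurve⁄K).Point P.p} (hv : v ≠ 0) : v.1 ≠ 0 :=
  fun h => hv (Subtype.ext h)

theorem LocCount.xi_ne_zero (P : FreyPackage)
    {v : Submodule.torsionBy ℤ (P.freyCurve⁄K).Point P.p} (hv : v ≠ 0) :
    xi (P.freyCurve⁄K) 0 v.1 ≠ 0 :=
  SingDepth.xi_ne_zero (LocCount.twoTors_zero P) (LocCount.not_two_dvd P)
    (LocCount.coe_ne_zero P hv) (LocCount.tors P v)

theorem LocCount.neg_ne_self (P : FreyPackage)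
    {v : Submodule.torsionBy ℤ (P.freyCurve⁄K).Point P.p} (hv : v ≠ 0) : -v ≠ v := by
  intro h
  have h1 : -v.1 = v.1 := congrArg Subtype.val h
  have h2 : v.1 + v.1 = 0 := by
    nth_rewrite 1 [← h1]
    exact neg_add_cancel _
  exact SingDepth.add_self_ne_zero (LocCount.not_two_dvd P) (LocCount.coe_ne_zero P hv)
    (LocCount.tors P v) h2

theorem LocCount.eq_or_eq_neg (P : FreyPackage)
    {v w : Submodule.torsionBy ℤ (P.freyCurve⁄K).Point P.p} (hv : v ≠ 0) (hw : w ≠ 0)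
    (h : xi (P.freyCurve⁄K) 0 v.1 = xi (P.freyCurve⁄K) 0 w.1) : w = v ∨ w = -v := by
  rcases eq_or_eq_neg_of_xi_eq (LocCount.coe_ne_zero P hw) (LocCount.coe_ne_zero P hv) h.symm
    with h1 | h1
  · exact Or.inl (Subtype.ext h1)
  · exact Or.inr (Subtype.ext h1)

/-- The product of the distinct `x`-coordinates of the nonzero points of a Galois-stable
submodule is fixed by the Galois group. -/
theorem LocCount.prod_fixed (P : FreyPackage)
    (N : Submodule (ZMod P.p) (Submodule.torsionBy ℤ (P.freyCurve⁄K).Point P.p))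
    (hN : IsGaloisStable ℚ N)
    (S : Finset {v : Submodule.torsionBy ℤ (P.freyCurve⁄K).Point P.p // v ≠ 0})
    (hS : ∀ v, v ∈ S ↔ v.1 ∈ N) (σ : K ≃ₐ[ℚ] K) :
    σ (∏ x ∈ S.image (fun v => xi (P.freyCurve⁄K) 0 v.1.1), x) =
      ∏ x ∈ S.image (fun v => xi (P.freyCurve⁄K) 0 v.1.1), x := by
  have hsub : (S.image (fun v => xi (P.freyCurve⁄K) 0 v.1.1)).image σ ⊆
      S.image (fun v => xi (P.freyCurve⁄K) 0 v.1.1) := by
    intro y hy
    rw [Finset.mem_image] at hy
    obtain ⟨x, hx, rfl⟩ := hy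
    rw [Finset.mem_image] at hx
    obtain ⟨v, hv, rfl⟩ := hx
    rw [Finset.mem_image]
    refine ⟨⟨σ • v.1, (smul_ne_zero_iff_ne σ).mpr v.2⟩, ?_, ?_⟩
    · rw [hS]
      exact hN σ v.1 ((hS v).mp hv)
    · exact xi_zero_smul P.freyCurve σ v.1.1
  have heq : (S.image (fun v => xi (P.freyCurve⁄K) 0 v.1.1)).image σ =
      S.image (fun v => xi (P.freyCurve⁄K) 0 v.1.1) :=
    Finset.eq_of_subset_of_card_le hsub
      (le_of_eq (Finset.card_image_of_injective _ σ.injective).symm)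
  rw [map_prod]
  conv_rhs => rw [← heq]
  rw [Finset.prod_image (fun x _ y _ h => σ.injective h)]

/-- At a place above `p`: if a Galois-stable line exists, not all of `E[p]` lies in the kernel of
reduction (valuation count using the product of the `x`-coordinates). -/
theorem exists_not_inK_at_p (P : FreyPackage)
    (N : Submodule (ZMod P.p) (Submodule.torsionBy ℤ (P.freyCurve⁄K).Point P.p))
    (hN : IsGaloisStable ℚ N) (hbot : N ≠ ⊥) (htop : N ≠ ⊤)
    (hcard : Nat.card (Submodule.torsionBy ℤ (P.freyCurve⁄K).Point P.p) = P.p ^ 2)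
    (hprod : ∃ c : ℤ, ((P.p : ℕ) : K) ^ 2 *
      ∏ᶠ v : {v : Submodule.torsionBy ℤ (P.freyCurve⁄K).Point P.p // v ≠ 0},
        xi (P.freyCurve⁄K) 0 (v : Submodule.torsionBy ℤ (P.freyCurve⁄K).Point P.p).1 = (c : K))
    (A : ValuationSubring K) (hA : A.LiesOverPrime P.p) :
    ∃ Q : Submodule.torsionBy ℤ (P.freyCurve⁄K).Point P.p, ¬ InK A (P.freyCurve⁄K) 0 Q.1 := by
  classical
  by_contra hcon
  push Not at hcon
  obtain ⟨O, hOp, hOrat, hOint, -⟩ := exists_ordFun_rat A P.pp hA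
  have hfin : Finite (Submodule.torsionBy ℤ (P.freyCurve⁄K).Point P.p) :=
    Nat.finite_of_card_ne_zero (by rw [hcard]; exact pow_ne_zero 2 P.hp0)
  let _ : Fintype (Submodule.torsionBy ℤ (P.freyCurve⁄K).Point P.p) := Fintype.ofFinite _
  obtain ⟨c, hc⟩ := hprod
  rw [finprod_eq_prod_of_fintype] at hc
  let f : {v : Submodule.torsionBy ℤ (P.freyCurve⁄K).Point P.p // v ≠ 0} → K :=
    fun v => xi (P.freyCurve⁄K) 0 v.1.1
  let ν : {v : Submodule.torsionBy ℤ (P.freyCurve⁄K).Point P.p // v ≠ 0} →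
      {v : Submodule.torsionBy ℤ (P.freyCurve⁄K).Point P.p // v ≠ 0} :=
    fun v => ⟨-v.1, neg_ne_zero.mpr v.2⟩
  have hf0 : ∀ i, f i ≠ 0 := fun i => LocCount.xi_ne_zero P i.2
  have hneg : ∀ i, O.ord (f i) < 0 := by
    intro i
    have h1 : 1 < A.valuation (f i) := (inK_iff (LocCount.coe_ne_zero P i.2)).mp (hcon i.1)
    have h2 := (O.ord_lt_iff (hf0 i) one_ne_zero).mpr (by rw [Valuation.map_one]; exact h1)
    rwa [O.ord_one] at h2
  have hν : ∀ i, ν i ≠ i := by
    intro i h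
    exact LocCount.neg_ne_self P i.2 (congrArg Subtype.val h)
  have hνν : ∀ i, ν (ν i) = i := fun i => Subtype.ext (neg_neg _)
  have hfν : ∀ i, f (ν i) = f i := fun i => xi_neg _
  have hinj : ∀ i j, f i = f j → j = i ∨ j = ν i := by
    intro i j h
    rcases LocCount.eq_or_eq_neg P i.2 j.2 h with h1 | h1
    · exact Or.inl (Subtype.ext h1)
    · exact Or.inr (Subtype.ext h1)
  have hp0 : ((P.p : ℕ) : K) ≠ 0 := Nat.cast_ne_zero.mpr P.hp0
  have hprod0 : (∏ i, f i) ≠ 0 := Finset.prod_ne_zero_iff.mpr (fun i _ => hf0 i)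
  have htot : -2 ≤ O.ord (∏ i, f i) := by
    have hc' : ((P.p : ℕ) : K) ^ 2 * ∏ i, f i = (c : K) := hc
    have hc0 : c ≠ 0 := by
      rintro rfl
      rw [Int.cast_zero] at hc'
      exact mul_ne_zero (pow_ne_zero 2 hp0) hprod0 hc'
    have h1 := hOint c hc0
    rw [← hc', O.ord_mul _ _ (pow_ne_zero 2 hp0) hprod0, O.ord_pow hp0, hOp] at h1
    push_cast at h1
    linarith
  let S : Finset {v : Submodule.torsionBy ℤ (P.freyCurve⁄K).Point P.p // v ≠ 0} :=
    Finset.univ.filter (fun v => v.1 ∈ N)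
  have hSmem : ∀ v, v ∈ S ↔ v.1 ∈ N := by
    intro v
    simp only [S, Finset.mem_filter, Finset.mem_univ, true_and]
  have hS : S.Nonempty := by
    obtain ⟨x, hxN, hx0⟩ := (Submodule.ne_bot_iff N).mp hbot
    exact ⟨⟨x, hx0⟩, (hSmem _).mpr hxN⟩
  have hSc : Sᶜ.Nonempty := by
    have hex : ∃ x, x ∉ N := by
      by_contra h
      push Not at h
      exact htop (Submodule.eq_top_iff'.mpr h)
    obtain ⟨x, hx⟩ := hex
    have hx0 : x ≠ 0 := by
      rintro rfl
      exact hx N.zero_mem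
    refine ⟨⟨x, hx0⟩, ?_⟩
    rw [Finset.mem_compl, hSmem]
    exact hx
  have hSν : ∀ i ∈ S, ν i ∈ S := by
    intro i hi
    rw [hSmem] at hi ⊢
    exact N.neg_mem hi
  have hint : ∃ k : ℤ, O.ord (∏ x ∈ S.image f, x) = k := by
    obtain ⟨r, hr⟩ := exists_rat_of_fixed (∏ x ∈ S.image f, x)
      (fun σ => LocCount.prod_fixed P N hN S hSmem σ)
    have hs0 : (∏ x ∈ S.image f, x) ≠ 0 := by
      rw [Finset.prod_ne_zero_iff]
      intro x hx
      rw [Finset.mem_image] at hx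
      obtain ⟨v, -, rfl⟩ := hx
      exact hf0 v
    have hr0 : r ≠ 0 := by
      rintro rfl
      rw [_root_.map_zero] at hr
      exact hs0 hr.symm
    obtain ⟨k, hk⟩ := hOrat r hr0
    exact ⟨k, by rw [← hr]; exact hk⟩
  exact count_contra O f ν hf0 hneg hν hνν hfν hinj htot S hS hSc hSν hint

end Fermat.Agent.S13
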