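import Mathlib
import Fermat.Prelude.Def_FLTPrelim_FreyPackage
import Fermat.Agent.S05.Frey

set_option autoImplicit false

namespace Fermat.Agent.S13

/-- For a Frey package, `b` is even. -/
theorem LocFrey2.two_dvd_b (P : FreyPackage) : (2 : ℤ) ∣ P.b :=
  (ZMod.intCast_zmod_eq_zero_iff_dvd P.b 2).1 P.hb2

/-- For a Frey package, `a ≡ 3 mod 4`, i.e. `4 ∣ a + 1`. -/
theorem LocFrey2.four_dvd_a_add_one (P : FreyPackage) : (4 : ℤ) ∣ P.a + 1 := by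
  have h : ((P.a + 1 : ℤ) : ZMod 4) = 0 := by
    push_cast
    rw [P.ha4]
    decide
  exact_mod_cast (ZMod.intCast_zmod_eq_zero_iff_dvd (P.a + 1) 4).1 h

/-- For a Frey package, `a` is odd. -/
theorem LocFrey2.not_two_dvd_a (P : FreyPackage) : ¬ (2 : ℤ) ∣ P.a := by
  intro h
  have h4 := LocFrey2.four_dvd_a_add_one P
  omega

/-- For a Frey package, `4 ∣ b ^ p`. -/
theorem LocFrey2.four_dvd_b_pow (P : FreyPackage) : (4 : ℤ) ∣ P.b ^ P.p := by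
  have h2 : (2 : ℤ) ^ 2 ∣ P.b ^ 2 := pow_dvd_pow_of_dvd (LocFrey2.two_dvd_b P) 2
  have h3 : P.b ^ 2 ∣ P.b ^ P.p := pow_dvd_pow P.b (by have := P.hp5; omega)
  have h4 : (4 : ℤ) = 2 ^ 2 := by norm_num
  rw [h4]
  exact h2.trans h3

/-- For a Frey package, `4 ∣ a ^ p + 1`. -/
theorem LocFrey2.four_dvd_a_pow_add_one (P : FreyPackage) : (4 : ℤ) ∣ P.a ^ P.p + 1 := by
  have h1 : P.a ≡ -1 [ZMOD 4] := by
    rw [Int.modEq_iff_dvd]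
    have h := LocFrey2.four_dvd_a_add_one P
    have h' : (-1 : ℤ) - P.a = -(P.a + 1) := by ring
    rw [h', dvd_neg]
    exact h
  have h2 : P.a ^ P.p ≡ (-1) ^ P.p [ZMOD 4] := h1.pow P.p
  rw [P.hp_odd.neg_one_pow, Int.modEq_iff_dvd] at h2
  have h' : P.a ^ P.p + 1 = -((-1 : ℤ) - P.a ^ P.p) := by ring
  rw [h', dvd_neg]
  exact h2

/-- Local data of the Frey curve at `2`: it is `y² + xy = x³ + a₂x² + a₄x` with `a₂ ∈ ℤ` and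
`a₄ = 2^(p e - 4) · m`, `m` odd, `e ≥ 1`. -/
theorem frey_local_data_two (P : FreyPackage) :
    ∃ (n₂ m : ℤ) (e : ℕ), P.freyCurve.a₁ = 1 ∧ P.freyCurve.a₃ = 0 ∧ P.freyCurve.a₆ = 0 ∧
      P.freyCurve.a₂ = (n₂ : ℚ) ∧ 0 < e ∧ ¬ (2 : ℤ) ∣ m ∧
      P.freyCurve.a₄ = (2 : ℚ) ^ (P.p * e - 4) * (m : ℚ) := by
  have h2Z : Prime (2 : ℤ) := Int.prime_two
  have hp5 := P.hp5
  have hna : ¬ (2 : ℤ) ∣ P.a := LocFrey2.not_two_dvd_a P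
  have hb : ((2 : ℕ) : ℤ) ∣ P.b := by exact_mod_cast LocFrey2.two_dvd_b P
  obtain ⟨e, u, he, hnu, hbu⟩ := Fermat.Agent.S05.Frey.exists_pow_mul Nat.prime_two P.hb0 hb
  have hnu' : ¬ (2 : ℤ) ∣ u := by exact_mod_cast hnu
  have hbu' : P.b = (2 : ℤ) ^ e * u := by exact_mod_cast hbu
  -- integrality of a₂
  have h4 : (4 : ℤ) ∣ P.b ^ P.p - 1 - P.a ^ P.p := by
    have h' : P.b ^ P.p - 1 - P.a ^ P.p = P.b ^ P.p - (P.a ^ P.p + 1) := by ring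
    rw [h']
    exact dvd_sub (LocFrey2.four_dvd_b_pow P) (LocFrey2.four_dvd_a_pow_add_one P)
  obtain ⟨n₂, hn₂⟩ := h4
  have hpe : 4 ≤ P.p * e := by nlinarith
  refine ⟨n₂, -(P.a ^ P.p * u ^ P.p), e, rfl, rfl, rfl, ?_, he, ?_, ?_⟩
  · have hQ : ((P.b : ℚ) ^ P.p - 1 - (P.a : ℚ) ^ P.p) = 4 * (n₂ : ℚ) := by
      exact_mod_cast congrArg (Int.cast : ℤ → ℚ) hn₂
    change ((P.b : ℚ) ^ P.p - 1 - (P.a : ℚ) ^ P.p) / 4 = (n₂ : ℚ)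
    rw [hQ]
    ring
  · intro h
    rw [dvd_neg] at h
    rcases h2Z.dvd_or_dvd h with h | h
    · exact hna (h2Z.dvd_of_dvd_pow h)
    · exact hnu' (h2Z.dvd_of_dvd_pow h)
  · have hpow : (2 : ℚ) ^ (P.p * e) = (2 : ℚ) ^ (P.p * e - 4) * 16 := by
      have h16 : (16 : ℚ) = 2 ^ 4 := by norm_num
      rw [h16, ← pow_add, Nat.sub_add_cancel hpe]
    have hbQ : (P.b : ℚ) ^ P.p = (2 : ℚ) ^ (P.p * e) * (u : ℚ) ^ P.p := by
      rw [hbu']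
      push_cast
      rw [mul_pow, ← pow_mul, Nat.mul_comm e P.p]
    change -((P.a : ℚ) ^ P.p) * ((P.b : ℚ) ^ P.p) / 16 = _
    rw [hbQ, hpow]
    push_cast
    ring

end Fermat.Agent.S13
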