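import Fermat.Agent.S05.Formulas
import Fermat.Agent.S05.Depth
import Fermat.Agent.S05.SingDepth

set_option autoImplicit false

namespace Fermat.Agent.S13

open WeierstrassCurve Fermat.Agent.S05

section LocDepth2Aux

variable {L : Type*} [Field L] {A : ValuationSubring L}

/-! ### The depth calculus of `S05/Depth.lean` with `ord 2 ≥ 0` instead of `ord 2 = 0` -/

/-- `4` has nonnegative order as soon as `2` has. -/
theorem LocDepth2.ge_four {O : OrdFun A} (h2 : Depth.Ge O (2 : L) 0) : Depth.Ge O (4 : L) 0 := by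
  have h := h2.mul h2
  have e : (2 : L) * 2 = 4 := by norm_num
  rw [e, add_zero] at h
  exact h

theorem LocDepth2.step_low {O : OrdFun A} {r s U V β b : L} {a c h : ℚ} (hr : Depth.Is O r a)
    (hs : Depth.Is O s c) (hβ : Depth.Is O β h) (hb : Depth.Is O b 0)
    (h2 : Depth.Ge O (2 : L) 0)
    (hprod : U * V * (r - s) ^ 2 = (r * s - β) ^ 2)
    (hsum : (U + V) * (r - s) ^ 2 = 2 * (r + s) * (r * s + β) + b * (r * s))
    (hc0 : 0 < c) (hch : c < h) (ha : a ≤ 0) :
    O.ord U = c ∧ O.ord V = c := by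
  have hd : Depth.Is O (r - s) a := hr.sub (hs.ge le_rfl) (by linarith)
  have hrs' : Depth.Is O (r * s) (a + c) := hr.mul hs
  have hn : Depth.Is O (r * s - β) (a + c) := hrs'.sub (hβ.ge le_rfl) (by linarith)
  have hP : Depth.Is O (U * V) (2 * (a + c) - 2 * a) := Depth.Is.of_mul_eq hprod hn.sq hd.sq
  have hp1 : Depth.Is O (r + s) a := hr.add (hs.ge le_rfl) (by linarith)
  have hp2 : Depth.Is O (r * s + β) (a + c) := hrs'.add (hβ.ge le_rfl) (by linarith)
  have hN : Depth.Ge O (2 * (r + s) * (r * s + β) + b * (r * s)) (2 * a + c) :=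
    Depth.Ge.add (((h2.mul (hp1.ge le_rfl)).mul (hp2.ge le_rfl)).mono (by linarith))
      ((hb.mul hrs').ge (by linarith))
  have hS : Depth.Ge O (U + V) (2 * a + c - 2 * a) := Depth.Ge.of_mul_eq hsum hN hd.sq
  have h' := Depth.newton_equal hP hS (by linarith)
  constructor <;> linarith [h'.1, h'.2]

theorem LocDepth2.step_high {O : OrdFun A} {r s U V β b : L} {a c h : ℚ} (hr : Depth.Is O r a)
    (hs : Depth.Is O s c) (hβ : Depth.Is O β h) (hb : Depth.Is O b 0)
    (h2 : Depth.Ge O (2 : L) 0)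
    (hprod : U * V * (r - s) ^ 2 = (r * s - β) ^ 2)
    (hsum : (U + V) * (r - s) ^ 2 = 2 * (r + s) * (r * s + β) + b * (r * s))
    (hc0 : 0 < c) (hch : c < h) (ha : h ≤ a) :
    O.ord U = h - c ∧ O.ord V = h - c := by
  have hd : Depth.Is O (r - s) c := Depth.Is.sub' (hr.ge le_rfl) hs (by linarith)
  have hrs' : Depth.Is O (r * s) (a + c) := hr.mul hs
  have hn : Depth.Is O (r * s - β) h := Depth.Is.sub' (hrs'.ge le_rfl) hβ (by linarith)
  have hP : Depth.Is O (U * V) (2 * h - 2 * c) := Depth.Is.of_mul_eq hprod hn.sq hd.sq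
  have hp1 : Depth.Is O (r + s) c := Depth.Is.add' (hr.ge le_rfl) hs (by linarith)
  have hp2 : Depth.Is O (r * s + β) h := Depth.Is.add' (hrs'.ge le_rfl) hβ (by linarith)
  have hN : Depth.Ge O (2 * (r + s) * (r * s + β) + b * (r * s)) (c + h) :=
    Depth.Ge.add (((h2.mul (hp1.ge le_rfl)).mul (hp2.ge le_rfl)).mono (by linarith))
      ((hb.mul hrs').ge (by linarith))
  have hS : Depth.Ge O (U + V) (c + h - 2 * c) := Depth.Ge.of_mul_eq hsum hN hd.sq
  have h' := Depth.newton_equal hP hS (by linarith)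
  constructor <;> linarith [h'.1, h'.2]

theorem LocDepth2.step_mid {O : OrdFun A} {r s U V β b : L} {a c h : ℚ} (hr : Depth.Is O r a)
    (hs : Depth.Is O s c) (hβ : Depth.Is O β h) (hb : Depth.Is O b 0)
    (h2 : Depth.Ge O (2 : L) 0) (hU : U ≠ 0) (hV : V ≠ 0) (hrs : r ≠ s)
    (hprod : U * V * (r - s) ^ 2 = (r * s - β) ^ 2)
    (hsum : (U + V) * (r - s) ^ 2 = 2 * (r + s) * (r * s + β) + b * (r * s))
    (hc0 : 0 < c) (hch : c < h) (ha0 : 0 < a) (hah : a < h) :
    ∃ w t : ℚ, Depth.Is O (r - s) w ∧ min a c ≤ w ∧ (a ≠ c → w = min a c) ∧ min (a + c) h ≤ t ∧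
      (a + c ≠ h → t = min (a + c) h) ∧
      ((O.ord U = a + c - 2 * w ∧ O.ord V = 2 * t - (a + c)) ∨
       (O.ord V = a + c - 2 * w ∧ O.ord U = 2 * t - (a + c))) := by
  have hd0 : r - s ≠ 0 := sub_ne_zero.mpr hrs
  have hUV : U * V ≠ 0 := mul_ne_zero hU hV
  have hn0 : r * s - β ≠ 0 := by
    intro h0
    rw [h0, zero_pow two_ne_zero] at hprod
    exact (mul_ne_zero hUV (pow_ne_zero 2 hd0)) hprod
  have hd : Depth.Is O (r - s) (O.ord (r - s)) := Depth.is_self hd0
  have hn : Depth.Is O (r * s - β) (O.ord (r * s - β)) := Depth.is_self hn0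
  have hrs' : Depth.Is O (r * s) (a + c) := hr.mul hs
  have hw : min a c ≤ O.ord (r - s) :=
    hd.le_of_ge (Depth.Ge.sub (hr.ge (min_le_left _ _)) (hs.ge (min_le_right _ _)))
  have hw' : a ≠ c → O.ord (r - s) = min a c := by
    intro hne
    rcases lt_or_gt_of_ne hne with hlt | hgt
    · rw [min_eq_left hlt.le]; exact (hr.sub (hs.ge le_rfl) hlt).2
    · rw [min_eq_right hgt.le]; exact (Depth.Is.sub' (hr.ge le_rfl) hs hgt).2
  have ht : min (a + c) h ≤ O.ord (r * s - β) :=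
    hn.le_of_ge (Depth.Ge.sub (hrs'.ge (min_le_left _ _)) (hβ.ge (min_le_right _ _)))
  have ht' : a + c ≠ h → O.ord (r * s - β) = min (a + c) h := by
    intro hne
    rcases lt_or_gt_of_ne hne with hlt | hgt
    · rw [min_eq_left hlt.le]; exact (hrs'.sub (hβ.ge le_rfl) hlt).2
    · rw [min_eq_right hgt.le]; exact (Depth.Is.sub' (hrs'.ge le_rfl) hβ hgt).2
  refine ⟨O.ord (r - s), O.ord (r * s - β), hd, hw, hw', ht, ht', ?_⟩
  have hP : Depth.Is O (U * V) (2 * O.ord (r * s - β) - 2 * O.ord (r - s)) :=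
    Depth.Is.of_mul_eq hprod hn.sq hd.sq
  have hp1 : Depth.Ge O (r + s) (min a c) :=
    Depth.Ge.add (hr.ge (min_le_left _ _)) (hs.ge (min_le_right _ _))
  have hp2 : Depth.Ge O (r * s + β) (min (a + c) h) :=
    Depth.Ge.add (hrs'.ge (min_le_left _ _)) (hβ.ge (min_le_right _ _))
  have hlt : a + c < 0 + min a c + min (a + c) h := by
    rcases le_total a c with h1 | h1 <;> rcases le_total (a + c) h with h3 | h3
    · rw [min_eq_left h1, min_eq_left h3]; linarith
    · rw [min_eq_left h1, min_eq_right h3]; linarith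
    · rw [min_eq_right h1, min_eq_left h3]; linarith
    · rw [min_eq_right h1, min_eq_right h3]; linarith
  have hN : Depth.Is O (2 * (r + s) * (r * s + β) + b * (r * s)) (a + c) := by
    have h1 : Depth.Ge O (2 * (r + s) * (r * s + β)) (0 + min a c + min (a + c) h) :=
      (h2.mul hp1).mul hp2
    have h2' : Depth.Is O (b * (r * s)) (a + c) := by
      have h3 := hb.mul hrs'
      rw [zero_add] at h3
      exact h3
    exact Depth.Is.add' h1 h2' hlt
  have hS : Depth.Is O (U + V) (a + c - 2 * O.ord (r - s)) := Depth.Is.of_mul_eq hsum hN hd.sq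
  have hkey : 2 * (a + c - 2 * O.ord (r - s)) <
      2 * O.ord (r * s - β) - 2 * O.ord (r - s) := by
    rcases le_total a c with h1 | h1 <;> rcases le_total (a + c) h with h3 | h3
    · rw [min_eq_left h1] at hw; rw [min_eq_left h3] at ht; linarith
    · rw [min_eq_left h1] at hw; rw [min_eq_right h3] at ht; linarith
    · rw [min_eq_right h1] at hw; rw [min_eq_left h3] at ht; linarith
    · rw [min_eq_right h1] at hw; rw [min_eq_right h3] at ht; linarith
  rcases Depth.newton_distinct hP hS hkey with ⟨e1, e2⟩ | ⟨e1, e2⟩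
  · left; exact ⟨e1, by rw [e2]; ring⟩
  · right; exact ⟨e1, by rw [e2]; ring⟩

theorem LocDepth2.double_core {O : OrdFun A} {s U β b : L} {c h : ℚ} (hs : Depth.Is O s c)
    (hβ : Depth.Is O β h) (hb : Depth.Is O b 0) (h2 : Depth.Ge O (2 : L) 0) (hU : U ≠ 0)
    (hdbl : U * (4 * s ^ 3 + b * s ^ 2 + 4 * β * s) = (s ^ 2 - β) ^ 2)
    (hc0 : 0 < c) (hch : c < h) :
    depQ h (O.ord U) = foldQ h (c + c) := by
  have h4 : Depth.Ge O (4 : L) 0 := LocDepth2.ge_four h2
  have hD : Depth.Is O (4 * s ^ 3 + b * s ^ 2 + 4 * β * s) (2 * c) := by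
    have t1 : Depth.Ge O (4 * s ^ 3) (0 + 3 * c) := h4.mul (hs.cube.ge le_rfl)
    have t2 : Depth.Is O (b * s ^ 2) (0 + 2 * c) := hb.mul hs.sq
    have t3 : Depth.Ge O (4 * β * s) (0 + h + c) := (h4.mul (hβ.ge le_rfl)).mul (hs.ge le_rfl)
    have t12 : Depth.Is O (4 * s ^ 3 + b * s ^ 2) (0 + 2 * c) :=
      Depth.Is.add' t1 t2 (by linarith)
    have t123 := t12.add t3 (by linarith)
    rw [zero_add] at t123
    exact t123
  have hn0 : s ^ 2 - β ≠ 0 := by
    intro h0
    rw [h0, zero_pow two_ne_zero] at hdbl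
    exact (mul_ne_zero hU hD.1) hdbl
  have hn := Depth.is_self (O := O) hn0
  have hU' : Depth.Is O U (2 * O.ord (s ^ 2 - β) - 2 * c) := Depth.Is.of_mul_eq hdbl hn.sq hD
  have ht : min (2 * c) h ≤ O.ord (s ^ 2 - β) :=
    hn.le_of_ge (Depth.Ge.sub (hs.sq.ge (min_le_left _ _)) (hβ.ge (min_le_right _ _)))
  rw [hU'.2]
  rcases lt_trichotomy (2 * c) h with hlt | heq | hgt
  · have e : O.ord (s ^ 2 - β) = 2 * c := (hs.sq.sub (hβ.ge le_rfl) hlt).2
    rw [e, Depth.foldQ_of_le (by linarith), Depth.depQ_of_mem (by linarith) (by linarith)]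
    ring
  · rw [min_eq_left heq.le] at ht
    rw [Depth.foldQ_of_le (by linarith), Depth.depQ_of_ge (by linarith) (by linarith)]
    linarith
  · have e : O.ord (s ^ 2 - β) = h := (Depth.Is.sub' (hs.sq.ge le_rfl) hβ hgt).2
    rw [e, Depth.foldQ_of_gt (by linarith), Depth.depQ_of_mem (by linarith) (by linarith)]
    ring

/-- Lemma D (folded-depth rule for `R ± Q`, generic position) with `v(2) ≤ 1` only. -/
theorem LocDepth2.depth_step (O : OrdFun A) {r s U V β b : L} (hr : r ≠ 0) (hs : s ≠ 0)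
    (hU : U ≠ 0) (hV : V ≠ 0)
    (hβ0 : β ≠ 0) (hb : A.valuation b = 1) (h2 : A.valuation (2 : L) ≤ 1) (hrs : r ≠ s)
    (hprod : U * V * (r - s) ^ 2 = (r * s - β) ^ 2)
    (hsum : (U + V) * (r - s) ^ 2 = 2 * (r + s) * (r * s + β) + b * (r * s))
    (hc0 : 0 < O.ord s) (hch : O.ord s < O.ord β) :
    (depQ (O.ord β) (O.ord U) = foldQ (O.ord β) (depQ (O.ord β) (O.ord r) + O.ord s) ∧
      depQ (O.ord β) (O.ord V) = |depQ (O.ord β) (O.ord r) - O.ord s|) ∨
    (depQ (O.ord β) (O.ord U) = |depQ (O.ord β) (O.ord r) - O.ord s| ∧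
      depQ (O.ord β) (O.ord V) = foldQ (O.ord β) (depQ (O.ord β) (O.ord r) + O.ord s)) := by
  have hr' := Depth.is_self (O := O) hr
  have hs' := Depth.is_self (O := O) hs
  have hβ' := Depth.is_self (O := O) hβ0
  have hb' : Depth.Is O b 0 := Depth.is_of_valuation_eq_one hb
  have h2' : Depth.Ge O (2 : L) 0 := Depth.ge_of_valuation_le_one h2
  rcases le_or_gt (O.ord r) 0 with ha0 | ha0
  · obtain ⟨eU, eV⟩ := LocDepth2.step_low hr' hs' hβ' hb' h2' hprod hsum hc0 hch ha0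
    left
    rw [eU, eV, Depth.depQ_of_nonpos (h := O.ord β) ha0 (by linarith),
      Depth.depQ_of_mem (h := O.ord β) hc0.le hch.le, zero_add, zero_sub, abs_neg,
      abs_of_pos hc0, Depth.foldQ_of_le hch.le]
    exact ⟨rfl, rfl⟩
  rcases lt_or_ge (O.ord r) (O.ord β) with hah | hah
  · obtain ⟨w, t, -, hw, hw', ht, ht', hcases⟩ :=
      LocDepth2.step_mid hr' hs' hβ' hb' h2' hU hV hrs hprod hsum hc0 hch ha0 hah
    obtain ⟨v1, v2⟩ := Depth.mid_vals hc0 hch ha0 hah hw hw' ht ht'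
    rcases hcases with ⟨eU, eV⟩ | ⟨eV, eU⟩
    · right; rw [eU, eV]; exact ⟨v1, v2⟩
    · left; rw [eU, eV]; exact ⟨v2, v1⟩
  · obtain ⟨eU, eV⟩ := LocDepth2.step_high hr' hs' hβ' hb' h2' hprod hsum hc0 hch hah
    left
    rw [eU, eV, Depth.depQ_of_ge (h := O.ord β) hah (by linarith),
      Depth.depQ_of_mem (h := O.ord β) (x := O.ord β - O.ord s) (by linarith) (by linarith),
      Depth.foldQ_of_gt (h := O.ord β) (t := O.ord β + O.ord s) (by linarith),
      abs_of_pos (by linarith)]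
    constructor <;> ring

/-- Lemma D' (two points of the same depth with `ξ` congruent to first order), `v(2) ≤ 1`. -/
theorem LocDepth2.neg_ord_of_close (O : OrdFun A) {r s U V β b : L} (hr : r ≠ 0) (hs : s ≠ 0)
    (hU : U ≠ 0) (hV : V ≠ 0)
    (hβ0 : β ≠ 0) (hb : A.valuation b = 1) (h2 : A.valuation (2 : L) ≤ 1) (hrs : r ≠ s)
    (hprod : U * V * (r - s) ^ 2 = (r * s - β) ^ 2)
    (hsum : (U + V) * (r - s) ^ 2 = 2 * (r + s) * (r * s + β) + b * (r * s))
    (hc0 : 0 < O.ord s) (hch : O.ord s < O.ord β)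
    (hrc : O.ord r = O.ord s) (hclose : O.ord s < O.ord (r - s)) :
    O.ord U < 0 ∨ O.ord V < 0 := by
  have hr' := Depth.is_self (O := O) hr
  have hs' := Depth.is_self (O := O) hs
  have hβ' := Depth.is_self (O := O) hβ0
  have hb' : Depth.Is O b 0 := Depth.is_of_valuation_eq_one hb
  have h2' : Depth.Ge O (2 : L) 0 := Depth.ge_of_valuation_le_one h2
  obtain ⟨w, t, hd, -, -, -, -, hcases⟩ :=
    LocDepth2.step_mid hr' hs' hβ' hb' h2' hU hV hrs hprod hsum hc0 hch (by linarith)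
      (by linarith)
  have hw : O.ord (r - s) = w := hd.2
  rcases hcases with ⟨eU, -⟩ | ⟨eV, -⟩
  · left; linarith
  · right; linarith

/-- Lemma D2 (doubling) with `v(2) ≤ 1` only. -/
theorem LocDepth2.depth_double (O : OrdFun A) {s U β b : L} (hs : s ≠ 0) (hU : U ≠ 0)
    (hβ0 : β ≠ 0) (hb : A.valuation b = 1) (h2 : A.valuation (2 : L) ≤ 1)
    (hdbl : U * (4 * s ^ 3 + b * s ^ 2 + 4 * β * s) = (s ^ 2 - β) ^ 2)
    (hc0 : 0 < O.ord s) (hch : O.ord s < O.ord β) :
    depQ (O.ord β) (O.ord U) = foldQ (O.ord β) (O.ord s + O.ord s) :=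
  LocDepth2.double_core (Depth.is_self hs) (Depth.is_self hβ0) (Depth.is_of_valuation_eq_one hb)
    (Depth.ge_of_valuation_le_one h2) hU hdbl hc0 hch

/-- Deep points: the double has nonpositive order (`v(2) ≤ 1` only). -/
theorem LocDepth2.ord_nonpos_of_deep (O : OrdFun A) {s U β b : L} (hβ0 : β ≠ 0)
    (hb : A.valuation b ≤ 1) (h2 : A.valuation (2 : L) ≤ 1)
    (hdbl : U * (4 * s ^ 3 + b * s ^ 2 + 4 * β * s) = (s ^ 2 - β) ^ 2)
    (hβpos : 0 < O.ord β) (hdeep : s = 0 ∨ O.ord β ≤ O.ord s) : O.ord U ≤ 0 := by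
  have hβ' := Depth.is_self (O := O) hβ0
  rcases eq_or_ne s 0 with hs0 | hs
  · exfalso
    rw [hs0] at hdbl
    have e : U * (4 * (0 : L) ^ 3 + b * 0 ^ 2 + 4 * β * 0) = 0 := by ring
    rw [e] at hdbl
    have e2 : ((0 : L) ^ 2 - β) ^ 2 = β ^ 2 := by ring
    rw [e2] at hdbl
    exact (pow_ne_zero 2 hβ0) hdbl.symm
  have hcs : O.ord β ≤ O.ord s := hdeep.resolve_left hs
  have hs' := Depth.is_self (O := O) hs
  have hb' : Depth.Ge O b 0 := Depth.ge_of_valuation_le_one hb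
  have h2' : Depth.Ge O (2 : L) 0 := Depth.ge_of_valuation_le_one h2
  have h4' : Depth.Ge O (4 : L) 0 := LocDepth2.ge_four h2'
  have hn : Depth.Is O (s ^ 2 - β) (O.ord β) :=
    Depth.Is.sub' (hs'.sq.ge le_rfl) hβ' (by linarith)
  have hN := hn.sq
  have hDge : Depth.Ge O (4 * s ^ 3 + b * s ^ 2 + 4 * β * s) (2 * O.ord β) := by
    have t1 : Depth.Ge O (4 * s ^ 3) (0 + 3 * O.ord s) := h4'.mul (hs'.cube.ge le_rfl)
    have t2 : Depth.Ge O (b * s ^ 2) (0 + 2 * O.ord s) := hb'.mul (hs'.sq.ge le_rfl)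
    have t3 : Depth.Ge O (4 * β * s) (0 + O.ord β + O.ord s) :=
      (h4'.mul (hβ'.ge le_rfl)).mul (hs'.ge le_rfl)
    exact ((t1.mono (by linarith)).add (t2.mono (by linarith))).add (t3.mono (by linarith))
  have hD0 : 4 * s ^ 3 + b * s ^ 2 + 4 * β * s ≠ 0 := by
    intro h0
    rw [h0, mul_zero] at hdbl
    exact hN.1 hdbl.symm
  have hD := Depth.is_self (O := O) hD0
  have hle := hD.le_of_ge hDge
  have hU' := Depth.Is.of_mul_eq hdbl hN hD
  rw [hU'.2]
  linarith

end LocDepth2Aux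

variable {L : Type*} [Field L] [DecidableEq L] [CharZero L] {W : Affine L} {x0 : L}

/-- `S05.exists_int_mul_ord` without the hypothesis `v(2) = 1` (so it also applies in residue
characteristic `2`). -/
theorem exists_int_mul_ord_gen (hx0 : twoTors W x0 = 0) (A : ValuationSubring L) (O : OrdFun A)
    (hb2 : A.valuation (b2' W x0) = 1) (hβ0 : beta W x0 ≠ 0)
    {p : ℕ} (hp : p.Prime) (hp5 : 5 ≤ p)
    {P : W.Point} (hP0 : P ≠ 0) (hP : p • P = 0)
    (hc0 : 0 < O.ord (xi W x0 P)) (hch : O.ord (xi W x0 P) < O.ord (beta W x0)) :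
    ∃ k : ℤ, (p : ℚ) * O.ord (xi W x0 P) = 2 * O.ord (beta W x0) * k := by
  classical
  have h2 : A.valuation (2 : L) ≤ 1 := by
    have hmem : ((2 : ℕ) : L) ∈ A := natCast_mem A 2
    rw [Nat.cast_ofNat] at hmem
    exact (A.valuation_le_one_iff _).mpr hmem
  have hodd : ¬ 2 ∣ p := by
    intro h
    have := (Nat.prime_dvd_prime_iff_eq Nat.prime_two hp).mp h
    omega
  -- every multiple of `P` is `p`-torsion
  have htors : ∀ m : ℕ, p • (m • P) = 0 := by
    intro m
    rw [smul_comm, hP, smul_zero]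
  have hxi : ∀ Q : W.Point, Q ≠ 0 → p • Q = 0 → xi W x0 Q ≠ 0 :=
    fun Q hQ0 hQ => SingDepth.xi_ne_zero hx0 hodd hQ0 hQ
  have : Fact p.Prime := ⟨hp⟩
  have hord : addOrderOf P = p := addOrderOf_eq_prime hP hP0
  have hmul : ∀ m : ℕ, m • P = 0 ↔ p ∣ m := by
    intro m
    rw [← hord]
    exact (addOrderOf_dvd_iff_nsmul_eq_zero).symm
  have hPP : P + P ≠ 0 := SingDepth.add_self_ne_zero hodd hP0 hP
  have hPPtors : p • (P + P) = 0 := by rw [smul_add, hP, add_zero]
  have hxiPP : xi W x0 (P + P) ≠ 0 := hxi _ hPP hPPtors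
  have hsP : xi W x0 P ≠ 0 := hxi _ hP0 hP
  -- depth of `P`
  have hdepP : depQ (O.ord (beta W x0)) (O.ord (xi W x0 P)) = O.ord (xi W x0 P) := by
    unfold depQ
    rw [min_eq_left hch.le, max_eq_right hc0.le]
  -- depth of `2P`
  have hdepPP : depQ (O.ord (beta W x0)) (O.ord (xi W x0 (P + P))) =
      foldQ (O.ord (beta W x0)) (O.ord (xi W x0 P) + O.ord (xi W x0 P)) := by
    have hdbl := xi_double hx0 hP0 hPP
    unfold fxi at hdbl
    exact LocDepth2.depth_double O hsP hxiPP hβ0 hb2 h2 hdbl hc0 hch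
  refine fold_induction hc0 hch (p := p)
    (fun m => if m • P = 0 then 0 else
      depQ (O.ord (beta W x0)) (O.ord (xi W x0 (m • P)))) ?_ ?_ ?_ ?_
  · simp
  · simp only [one_nsmul, if_neg hP0]
    exact hdepP
  · intro m hm1 hmp
    obtain ⟨n, rfl⟩ : ∃ n, m = n + 1 := ⟨m - 1, by omega⟩
    have hR0 : (n + 1) • P ≠ 0 := by
      rw [Ne, hmul]
      intro hdvd
      have := Nat.le_of_dvd (by omega) hdvd
      omega
    set R : W.Point := (n + 1) • P with hRdef
    have hRtors : p • R = 0 := htors _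
    have e1 : (n + 1 + 1) • P = R + P := by rw [hRdef, succ_nsmul P (n + 1)]
    have e2 : (n + 1 - 1) • P = R - P := by
      rw [hRdef, Nat.add_sub_cancel, succ_nsmul, add_sub_cancel_right]
    simp only [e1, e2, if_neg hR0]
    by_cases hne : xi W x0 R = xi W x0 P
    · -- special position: `R = ± P`
      rcases eq_or_eq_neg_of_xi_eq hR0 hP0 hne with hRP | hRP
      · left
        rw [hRP, sub_self, if_neg hPP, if_pos rfl, hdepP, sub_self, abs_zero]
        exact ⟨hdepPP, rfl⟩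
      · right
        have e3 : -P - P = -(P + P) := by abel
        have hnPP : -(P + P) ≠ 0 := neg_ne_zero.mpr hPP
        rw [hRP, neg_add_cancel, if_pos rfl, e3, if_neg hnPP, xi_neg, xi_neg, hdepP, sub_self,
          abs_zero]
        exact ⟨rfl, hdepPP⟩
    · -- generic position
      obtain ⟨hadd, hsub⟩ := add_ne_zero_of_xi_ne (x0 := x0) hR0 hP0 hne
      rw [if_neg hadd, if_neg hsub]
      have haddtors : p • (R + P) = 0 := by rw [smul_add, hRtors, hP, add_zero]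
      have hsubtors : p • (R - P) = 0 := by rw [smul_sub, hRtors, hP, sub_zero]
      exact LocDepth2.depth_step O (hxi _ hR0 hRtors) hsP (hxi _ hadd haddtors)
        (hxi _ hsub hsubtors) hβ0 hb2 h2 hne (xi_add_mul_xi_sub hx0 hR0 hP0 hne)
        (xi_add_add_xi_sub hx0 hR0 hP0 hne) hc0 hch
  · simp only [if_pos hP]

end Fermat.Agent.S13
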