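import Fermat.Agent.S13.LocKer
import Fermat.Agent.S13.LocDepth2

set_option autoImplicit false

namespace Fermat.Agent.S13

open WeierstrassCurve Fermat.Agent.S05

variable {L : Type*} [Field L] [DecidableEq L] [CharZero L] {W : Affine L}

omit [DecidableEq L] [CharZero L] in
theorem LocRat.twoTors_zero (hW : W.a₁ = 1 ∧ W.a₃ = 0 ∧ W.a₆ = 0) : twoTors W 0 = 0 := by
  obtain ⟨h1, h3, h6⟩ := hW
  unfold twoTors
  simp only [WeierstrassCurve.b₂, WeierstrassCurve.b₄, WeierstrassCurve.b₆, h1, h3, h6]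
  ring

omit [DecidableEq L] in
theorem LocRat.beta_zero (hW : W.a₁ = 1 ∧ W.a₃ = 0 ∧ W.a₆ = 0) : beta W 0 = W.a₄ := by
  obtain ⟨h1, h3, h6⟩ := hW
  unfold beta
  simp only [WeierstrassCurve.b₂, WeierstrassCurve.b₄, h1, h3]
  have h4 : (4 : L) ≠ 0 := by norm_num
  field_simp
  ring

omit [DecidableEq L] [CharZero L] in
theorem LocRat.b2'_zero (hW : W.a₁ = 1 ∧ W.a₃ = 0 ∧ W.a₆ = 0) : b2' W 0 = 1 + 4 * W.a₂ := by
  unfold b2'
  simp only [WeierstrassCurve.b₂, hW.1]
  ring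

omit [DecidableEq L] [CharZero L] in
theorem LocRat.val_four {A : ValuationSubring L} (h2 : A.valuation (2 : L) < 1) :
    A.valuation (4 : L) < 1 := by
  have h4 : (4 : L) = 2 * 2 := by norm_num
  rw [h4, map_mul]
  exact mul_lt_one_of_nonneg_of_lt_one_left zero_le h2 h2.le

omit [DecidableEq L] [CharZero L] in
theorem LocRat.val_b {A : ValuationSubring L} (h2 : A.valuation (2 : L) < 1) {a₂ : L}
    (ha₂ : A.valuation a₂ ≤ 1) : A.valuation (1 + 4 * a₂) = 1 := by
  apply Valuation.map_one_add_of_lt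
  rw [map_mul]
  exact mul_lt_one_of_nonneg_of_lt_one_left zero_le (LocRat.val_four h2) ha₂

omit [DecidableEq L] [CharZero L] in
/-- Doubling a point with unit `x` gives a point with unit `x`. -/
theorem LocRat.dbl_unit {A : ValuationSubring L} (h2 : A.valuation (2 : L) < 1) {a₂ a₄ x X2 : L}
    (ha₂ : A.valuation a₂ ≤ 1) (ha₄ : A.valuation a₄ < 1) (hx : A.valuation x = 1)
    (h : X2 * (4 * x ^ 3 + (1 + 4 * a₂) * x ^ 2 + 4 * a₄ * x) = (x ^ 2 - a₄) ^ 2) :
    A.valuation X2 = 1 := by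
  have h4 := LocRat.val_four h2
  have hb : A.valuation (1 + 4 * a₂) = 1 := LocRat.val_b h2 ha₂
  have hR : A.valuation (x ^ 2 - a₄) = 1 := by
    have hlt : A.valuation a₄ < A.valuation (x ^ 2) := by
      rw [map_pow, hx, one_pow]
      exact ha₄
    rw [Valuation.map_sub_eq_of_lt_left _ hlt, map_pow, hx, one_pow]
  have hf : A.valuation (4 * x ^ 3 + (1 + 4 * a₂) * x ^ 2 + 4 * a₄ * x) = 1 := by
    have e : 4 * x ^ 3 + (1 + 4 * a₂) * x ^ 2 + 4 * a₄ * x =
        (1 + 4 * a₂) * x ^ 2 + 4 * (x ^ 3 + a₄ * x) := by ring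
    have h1 : A.valuation ((1 + 4 * a₂) * x ^ 2) = 1 := by
      rw [map_mul, map_pow, hb, hx, one_pow, one_mul]
    have h3 : A.valuation (x ^ 3 + a₄ * x) ≤ 1 := by
      apply Valuation.map_add_le
      · rw [map_pow, hx, one_pow]
      · rw [map_mul, hx, mul_one]
        exact ha₄.le
    have h2' : A.valuation (4 * (x ^ 3 + a₄ * x)) < 1 := by
      rw [map_mul]
      exact mul_lt_one_of_nonneg_of_lt_one_left zero_le h4 h3
    rw [e, Valuation.map_add_eq_of_lt_left _ (by rw [h1]; exact h2'), h1]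
  have hv := congrArg A.valuation h
  rw [map_mul, hf, mul_one, map_pow, hR, one_pow] at hv
  exact hv

omit [DecidableEq L] [CharZero L] in
/-- Two unit `x`-coordinates in the same residue class: the sum lies in the kernel. -/
theorem LocRat.add_kernel {A : ValuationSubring L} {a₄ x y U : L} (ha₄ : A.valuation a₄ < 1)
    (hx : A.valuation x = 1) (hy : A.valuation y = 1) (hyx : A.valuation (y - x) < 1)
    (h : U * x * (y - x) ^ 2 = (y * x - a₄) ^ 2) : 1 < A.valuation U := by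
  have hR : A.valuation (y * x - a₄) = 1 := by
    have hlt : A.valuation a₄ < A.valuation (y * x) := by
      rw [map_mul, hx, hy, one_mul]
      exact ha₄
    rw [Valuation.map_sub_eq_of_lt_left _ hlt, map_mul, hx, hy, one_mul]
  have hv := congrArg A.valuation h
  rw [map_mul, map_mul, hx, mul_one, map_pow, map_pow, hR, one_pow] at hv
  by_contra hle
  rw [not_lt] at hle
  have h1 : A.valuation U * A.valuation (y - x) ^ 2 < 1 :=
    mul_lt_one_of_nonneg_of_lt_one_right hle zero_le (pow_lt_one₀ zero_le hyx two_ne_zero)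
  exact absurd hv h1.ne

omit [DecidableEq L] [CharZero L] in
/-- Doubling a point at depth at least `ord a₄` gives a point with `v(x) ≥ 1`. -/
theorem LocRat.dbl_deep {A : ValuationSubring L} (h2 : A.valuation (2 : L) < 1) {a₂ a₄ x X2 : L}
    (ha₂ : A.valuation a₂ ≤ 1) (ha₄0 : a₄ ≠ 0) (hx0 : x ≠ 0)
    (hx : A.valuation x < 1) (hxa : A.valuation x ≤ A.valuation a₄)
    (h : X2 * (4 * x ^ 3 + (1 + 4 * a₂) * x ^ 2 + 4 * a₄ * x) = (x ^ 2 - a₄) ^ 2) :
    1 ≤ A.valuation X2 := by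
  have h4 := LocRat.val_four h2
  have hb : A.valuation (1 + 4 * a₂) = 1 := LocRat.val_b h2 ha₂
  have hapos : 0 < A.valuation a₄ := (Valuation.pos_iff _).mpr ha₄0
  have hxpos : 0 < A.valuation x := (Valuation.pos_iff _).mpr hx0
  have hxx : A.valuation x * A.valuation x ≤ A.valuation a₄ * A.valuation a₄ :=
    mul_le_mul' hxa hxa
  have hx2 : A.valuation (x ^ 2) < A.valuation a₄ := by
    rw [map_pow, pow_two]
    calc A.valuation x * A.valuation x < 1 * A.valuation x := mul_lt_mul_of_pos_right hx hxpos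
      _ = A.valuation x := one_mul _
      _ ≤ A.valuation a₄ := hxa
  have hR : A.valuation (x ^ 2 - a₄) = A.valuation a₄ := Valuation.map_sub_eq_of_lt_right _ hx2
  have hf : A.valuation (4 * x ^ 3 + (1 + 4 * a₂) * x ^ 2 + 4 * a₄ * x) ≤
      A.valuation a₄ * A.valuation a₄ := by
    refine Valuation.map_add_le _ (Valuation.map_add_le _ ?_ ?_) ?_
    · have e : (4 : L) * x ^ 3 = (4 * x) * (x * x) := by ring
      rw [e, map_mul, map_mul, map_mul]
      calc A.valuation 4 * A.valuation x * (A.valuation x * A.valuation x)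
          ≤ 1 * (A.valuation a₄ * A.valuation a₄) :=
            mul_le_mul' (mul_le_one' h4.le hx.le) hxx
        _ = A.valuation a₄ * A.valuation a₄ := one_mul _
    · rw [map_mul, map_pow, hb, one_mul, pow_two]
      exact hxx
    · rw [map_mul, map_mul]
      calc A.valuation 4 * A.valuation a₄ * A.valuation x
          ≤ 1 * A.valuation a₄ * A.valuation a₄ :=
            mul_le_mul' (mul_le_mul' h4.le le_rfl) hxa
        _ = A.valuation a₄ * A.valuation a₄ := by rw [one_mul]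
  have hv := congrArg A.valuation h
  rw [map_mul, map_pow, hR, pow_two (A.valuation a₄)] at hv
  by_contra hlt
  rw [not_le] at hlt
  have hlt' : A.valuation X2 * A.valuation (4 * x ^ 3 + (1 + 4 * a₂) * x ^ 2 + 4 * a₄ * x) <
      A.valuation a₄ * A.valuation a₄ :=
    calc A.valuation X2 * A.valuation (4 * x ^ 3 + (1 + 4 * a₂) * x ^ 2 + 4 * a₄ * x)
        ≤ A.valuation X2 * (A.valuation a₄ * A.valuation a₄) := mul_le_mul' le_rfl hf
      _ < 1 * (A.valuation a₄ * A.valuation a₄) :=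
          mul_lt_mul_of_pos_right hlt (mul_pos hapos hapos)
      _ = A.valuation a₄ * A.valuation a₄ := one_mul _
  exact absurd hv hlt'.ne

omit [DecidableEq L] [CharZero L] in
theorem LocRat.fxi_zero (hW : W.a₁ = 1 ∧ W.a₃ = 0 ∧ W.a₆ = 0) (hβ : beta W 0 = W.a₄) (t : L) :
    fxi W 0 t = 4 * t ^ 3 + (1 + 4 * W.a₂) * t ^ 2 + 4 * W.a₄ * t := by
  unfold fxi
  rw [LocRat.b2'_zero hW, hβ]

/-- Step A: a nonzero point of order `p` whose `x` and the `x` of its double reduce to `1`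
whenever they are units has `v(x) < 1`. -/
theorem LocRat.stepA (hW : W.a₁ = 1 ∧ W.a₃ = 0 ∧ W.a₆ = 0) (A : ValuationSubring L)
    (h2 : A.valuation (2 : L) < 1) (ha₂ : A.valuation W.a₂ ≤ 1) (ha₄ : A.valuation W.a₄ < 1)
    {p : ℕ} (hp : p.Prime) (hp5 : 5 ≤ p)
    {R : W.Point} (hR0 : R ≠ 0) (hpR : p • R = 0)
    (hres1 : A.valuation (xi W 0 R) = 1 → A.valuation (xi W 0 R - 1) < 1)
    (hres2 : R + R ≠ 0 → A.valuation (xi W 0 (R + R)) = 1 →
      A.valuation (xi W 0 (R + R) - 1) < 1) :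
    A.valuation (xi W 0 R) < 1 := by
  have hx0 : twoTors W 0 = 0 := LocRat.twoTors_zero hW
  have hβeq : beta W 0 = W.a₄ := LocRat.beta_zero hW
  have hb2v : A.valuation (b2' W 0) = 1 := by
    rw [LocRat.b2'_zero hW]
    exact LocRat.val_b h2 ha₂
  have hβv : A.valuation (beta W 0) ≤ 1 := by
    rw [hβeq]
    exact ha₄.le
  have hodd : ¬ 2 ∣ p := by
    intro h
    have := (Nat.prime_dvd_prime_iff_eq Nat.prime_two hp).mp h
    omega
  have hp2 : p ≠ 2 := by omega
  -- no nonzero `p`-torsion point in the kernel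
  have hker : ∀ S : W.Point, S ≠ 0 → p • S = 0 → ¬ 1 < A.valuation (xi W 0 S) := by
    intro S hS0 hpS hgt
    exact hS0 (eq_zero_of_inK_of_two_small hx0 A hb2v.le hβv h2 hp hp2 (Or.inr hgt) hpS)
  by_contra hnot
  rw [not_lt] at hnot
  have hv1 : A.valuation (xi W 0 R) = 1 :=
    le_antisymm (not_lt.mp (hker R hR0 hpR)) hnot
  have hR2 : R + R ≠ 0 := SingDepth.add_self_ne_zero hodd hR0 hpR
  have hpR2 : p • (R + R) = 0 := by rw [smul_add, hpR, add_zero]
  have hdbl := xi_double hx0 hR0 hR2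
  rw [LocRat.fxi_zero hW hβeq, hβeq] at hdbl
  have hv2 : A.valuation (xi W 0 (R + R)) = 1 := LocRat.dbl_unit h2 ha₂ ha₄ hv1 hdbl
  have hr1 := hres1 hv1
  have hr2 := hres2 hR2 hv2
  have hdiff : A.valuation (xi W 0 (R + R) - xi W 0 R) < 1 := by
    have e : xi W 0 (R + R) - xi W 0 R = (xi W 0 (R + R) - 1) - (xi W 0 R - 1) := by ring
    rw [e]
    exact Valuation.map_sub_lt _ hr2 hr1
  by_cases hne : xi W 0 (R + R) = xi W 0 R
  · -- `2R = ± R`
    rcases eq_or_eq_neg_of_xi_eq hR2 hR0 hne with hRR | hRR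
    · exact hR0 (by simpa using hRR)
    · have h3 : 3 • R = 0 := by
        rw [show (3 : ℕ) = 2 + 1 from rfl, add_smul, two_nsmul, one_smul, hRR, neg_add_cancel]
      have hd3 : addOrderOf R ∣ 3 := addOrderOf_dvd_of_nsmul_eq_zero h3
      have hdp : addOrderOf R ∣ p := addOrderOf_dvd_of_nsmul_eq_zero hpR
      have hcop : Nat.Coprime 3 p := (Nat.coprime_primes Nat.prime_three hp).mpr (by omega)
      have h1 : addOrderOf R = 1 := Nat.eq_one_of_dvd_coprimes hcop hd3 hdp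
      exact hR0 (AddMonoid.addOrderOf_eq_one_iff.mp h1)
  · obtain ⟨hadd, -⟩ := add_ne_zero_of_xi_ne (x0 := (0 : L)) hR2 hR0 hne
    have hF1 := xi_add_mul_xi_sub hx0 hR2 hR0 hne
    rw [add_sub_cancel_right, hβeq] at hF1
    have hpR3 : p • (R + R + R) = 0 := by rw [smul_add, hpR2, hpR, add_zero]
    exact hker _ hadd hpR3 (LocRat.add_kernel ha₄ hv1 hv2 hdiff hF1)

/-- Residue characteristic `2`, curve `y² + xy = x³ + a₂x² + a₄x` with `p ∤ 2·ord(a₄)`: there is
no point of prime order `p ≥ 5` all of whose multiples have "rational" `x`-coordinates (integer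
order, and congruent to `1` when a unit). -/
theorem no_rational_torsion_two (hW : W.a₁ = 1 ∧ W.a₃ = 0 ∧ W.a₆ = 0) (A : ValuationSubring L)
    (O : OrdFun A)
    (h2 : A.valuation (2 : L) < 1) (ha₂ : A.valuation W.a₂ ≤ 1) (ha₄ : A.valuation W.a₄ < 1)
    (ha₄0 : W.a₄ ≠ 0)
    {p : ℕ} (hp : p.Prime) (hp5 : 5 ≤ p)
    (hh : ∃ h : ℤ, O.ord W.a₄ = h ∧ ¬ (p : ℤ) ∣ 2 * h)
    {Q : W.Point} (hQ0 : Q ≠ 0) (hpQ : p • Q = 0)
    (hord : ∀ n : ℕ, n • Q ≠ 0 → ∃ k : ℤ, O.ord (xi W 0 (n • Q)) = k)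
    (hres : ∀ n : ℕ, n • Q ≠ 0 → A.valuation (xi W 0 (n • Q)) = 1 →
      A.valuation (xi W 0 (n • Q) - 1) < 1) : False := by
  have hx0 : twoTors W 0 = 0 := LocRat.twoTors_zero hW
  have hβeq : beta W 0 = W.a₄ := LocRat.beta_zero hW
  have hb2v : A.valuation (b2' W 0) = 1 := by
    rw [LocRat.b2'_zero hW]
    exact LocRat.val_b h2 ha₂
  have hodd : ¬ 2 ∣ p := by
    intro h
    have := (Nat.prime_dvd_prime_iff_eq Nat.prime_two hp).mp h
    omega
  -- Step A for all nonzero multiples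
  have stepA : ∀ n : ℕ, n • Q ≠ 0 → A.valuation (xi W 0 (n • Q)) < 1 := by
    intro n hn
    have hpR : p • (n • Q) = 0 := by rw [smul_comm, hpQ, smul_zero]
    have e2 : n • Q + n • Q = (n + n) • Q := (add_smul n n Q).symm
    refine LocRat.stepA hW A h2 ha₂ ha₄ hp hp5 hn hpR (hres n hn) ?_
    rw [e2]
    exact hres (n + n)
  have hQ1 : (1 : ℕ) • Q ≠ 0 := by rwa [one_smul]
  have hvQ : A.valuation (xi W 0 Q) < 1 := by
    have := stepA 1 hQ1
    rwa [one_smul] at this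
  have hxQ0 : xi W 0 Q ≠ 0 := SingDepth.xi_ne_zero hx0 hodd hQ0 hpQ
  have hQQ : Q + Q ≠ 0 := SingDepth.add_self_ne_zero hodd hQ0 hpQ
  have hvQQ : A.valuation (xi W 0 (Q + Q)) < 1 := by
    have h := stepA 2 (by rwa [two_nsmul])
    rwa [two_nsmul] at h
  rcases le_or_gt (A.valuation (xi W 0 Q)) (A.valuation W.a₄) with hdeep | hshallow
  · -- deep case
    have hdbl := xi_double hx0 hQ0 hQQ
    rw [LocRat.fxi_zero hW hβeq, hβeq] at hdbl
    exact absurd hvQQ (not_lt.mpr (LocRat.dbl_deep h2 ha₂ ha₄0 hxQ0 hvQ hdeep hdbl))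
  · -- shallow case
    have hc0 : 0 < O.ord (xi W 0 Q) := (O.ord_pos_iff hxQ0).mpr hvQ
    have hch : O.ord (xi W 0 Q) < O.ord (beta W 0) := by
      rw [hβeq]
      exact (O.ord_lt_iff hxQ0 ha₄0).mpr hshallow
    have hβ0 : beta W 0 ≠ 0 := by
      rw [hβeq]
      exact ha₄0
    obtain ⟨k, hk⟩ := exists_int_mul_ord_gen hx0 A O hb2v hβ0 hp hp5 hQ0 hpQ hc0 hch
    obtain ⟨h, hh1, hh2⟩ := hh
    obtain ⟨d, hd⟩ := hord 1 hQ1
    rw [one_smul] at hd
    rw [hβeq, hh1, hd] at hk hch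
    rw [hd] at hc0
    have hk' : (p : ℤ) * d = 2 * h * k := by exact_mod_cast hk
    have hc0' : 0 < d := by exact_mod_cast hc0
    have hch' : d < h := by exact_mod_cast hch
    have hdvd : (p : ℤ) ∣ 2 * h * k := ⟨d, hk'.symm⟩
    have hpk : (p : ℤ) ∣ k :=
      ((Nat.prime_iff_prime_int.mp hp).dvd_or_dvd hdvd).resolve_left hh2
    obtain ⟨k', rfl⟩ := hpk
    have hp0 : (p : ℤ) ≠ 0 := by exact_mod_cast hp.ne_zero
    have hd2 : d = 2 * h * k' := by
      apply mul_left_cancel₀ hp0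
      rw [hk']
      ring
    have hhpos : 0 < h := by linarith
    rcases le_or_gt k' 0 with hk0 | hk0
    · have : 2 * h * k' ≤ 0 := mul_nonpos_of_nonneg_of_nonpos (by linarith) hk0
      linarith
    · have : 2 * h * 1 ≤ 2 * h * k' := mul_le_mul_of_nonneg_left (by linarith) (by linarith)
      linarith

end Fermat.Agent.S13
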