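import Fermat.Agent.S13.LocTwoSing

set_option autoImplicit false

namespace Fermat.Agent.S13

open WeierstrassCurve Fermat.Agent.S05

variable {L : Type*} [Field L] [DecidableEq L] [CharZero L] {W : Affine L}

/-- Residue characteristic `2`, curve `y² + xy = x³ + a₂x² + a₄x` with multiplicative reduction:
`(τ - 1)^2` kills every point of odd prime order `p`. -/
theorem sq_eq_zero_two (hW : W.a₁ = 1 ∧ W.a₃ = 0 ∧ W.a₆ = 0) (A : ValuationSubring L)
    (h2 : A.valuation (2 : L) < 1) (ha₂ : A.valuation W.a₂ ≤ 1) (ha₄ : A.valuation W.a₄ < 1)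
    {p : ℕ} (hp : p.Prime) (hp2 : p ≠ 2)
    (σ : L →+* L) (τ : W.Point →+ W.Point)
    (hσ : ∀ a : L, A.valuation a ≤ 1 → A.valuation (σ a - a) < 1)
    (hσv : ∀ a : L, A.valuation (σ a) = A.valuation a)
    (hτ : ∀ P : W.Point, P ≠ 0 →
      τ P ≠ 0 ∧ xi W 0 (τ P) = σ (xi W 0 P) ∧ ycoord W (τ P) = σ (ycoord W P))
    {P : W.Point} (hP : p • P = 0) :
    τ (τ P - P) - (τ P - P) = 0 := by
  have hx0 : twoTors W 0 = 0 := LocTwoSing.twoTors_zero hW
  have hb2 : A.valuation (b2' W 0) ≤ 1 := LocTwoSing.val_b2' hW A ha₂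
  have hβ : A.valuation (beta W 0) ≤ 1 := by
    rw [LocTwoSing.beta_zero hW]
    exact ha₄.le
  have hodd : Odd p := hp.odd_of_ne_two hp2
  -- the kernel of reduction is mapped into itself by `τ - 1`
  have hstep : ∀ X : W.Point, InK A W 0 X → InK A W 0 (τ X - X) :=
    fun X h => LocTwoSing.inK_tau_sub hW A ha₂ ha₄.le σ τ hσv hτ h
  have hin : InK A W 0 (τ (τ P - P) - (τ P - P)) := by
    by_cases hP0 : P = 0
    · rw [hP0, map_zero, sub_self, map_zero, sub_self]
      exact inK_zero A W 0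
    · rcases lt_trichotomy (A.valuation (xi W 0 P)) 1 with hlt | heq | hgt
      · exact inK_sq_of_sing_two hW A h2 ha₂ ha₄ hodd σ τ hσ hσv hτ hP0 hP hlt
      · exact hstep _ (inK_sub_of_unit_two hW A h2 ha₂ ha₄ σ τ hσ hτ hP0 heq)
      · exact hstep _ (hstep _ ((inK_iff hP0).mpr hgt))
  have hpX : p • (τ (τ P - P) - (τ P - P)) = 0 := by
    rw [smul_sub, ← map_nsmul, smul_sub, ← map_nsmul, hP, map_zero, sub_self, map_zero,
      sub_self]
  exact eq_zero_of_inK_of_two_small hx0 A hb2 hβ h2 hp hp2 hin hpX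

end Fermat.Agent.S13
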