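import Fermat.Agent.S13.LocOdd
import Fermat.Agent.S13.LocTwo
import Fermat.Agent.S13.LocRat
import Fermat.Agent.S13.LocCount
import Fermat.Agent.S13.LocFrey2

set_option autoImplicit false

namespace Fermat.Agent.S13

open WeierstrassCurve WeierstrassCurve.Affine WeierstrassCurve.Affine.Point Fermat.Agent.S05

local notation "K" => AlgebraicClosure ℚ

namespace LocMain

theorem mul_lt_one_aux {Γ : Type*} [LinearOrderedCommGroupWithZero Γ] {a b : Γ}
    (ha : a ≤ 1) (hb : b < 1) : a * b < 1 :=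
  lt_of_le_of_lt (by simpa using mul_le_mul_left ha b) hb

/-- The points of `E[p]` are killed by `p`. -/
theorem nsmul_eq_zero (P : FreyPackage)
    (x : Submodule.torsionBy ℤ (P.freyCurve⁄K).Point P.p) : P.p • x.1 = 0 := by
  have h := x.2
  rw [Submodule.mem_torsionBy_iff] at h
  rwa [natCast_zsmul] at h

/-- The map `x ↦ σ • x - x` on `E[p]`. -/
noncomputable def dmap (P : FreyPackage) (σ : K ≃ₐ[ℚ] K) :
    Submodule.torsionBy ℤ (P.freyCurve⁄K).Point P.p →+
      Submodule.torsionBy ℤ (P.freyCurve⁄K).Point P.p :=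
  DistribSMul.toAddMonoidHom _ σ - AddMonoidHom.id _

theorem dmap_apply (P : FreyPackage) (σ : K ≃ₐ[ℚ] K)
    (x : Submodule.torsionBy ℤ (P.freyCurve⁄K).Point P.p) : dmap P σ x = σ • x - x := rfl

theorem dmap_coe (P : FreyPackage) (σ : K ≃ₐ[ℚ] K)
    (x : Submodule.torsionBy ℤ (P.freyCurve⁄K).Point P.p) :
    (dmap P σ x).1 = smulAddHom P.freyCurve σ x.1 - x.1 := rfl

theorem dmap_dmap_coe (P : FreyPackage) (σ : K ≃ₐ[ℚ] K)
    (x : Submodule.torsionBy ℤ (P.freyCurve⁄K).Point P.p) :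
    (dmap P σ (dmap P σ x)).1 =
      smulAddHom P.freyCurve σ (smulAddHom P.freyCurve σ x.1 - x.1) -
        (smulAddHom P.freyCurve σ x.1 - x.1) := rfl

theorem dmap_mem (P : FreyPackage) (σ : K ≃ₐ[ℚ] K)
    (N : Submodule (ZMod P.p) (Submodule.torsionBy ℤ (P.freyCurve⁄K).Point P.p))
    (hN : IsGaloisStable ℚ N) : ∀ x ∈ N, dmap P σ x ∈ N :=
  fun x hx => N.sub_mem (hN σ x hx) hx

/-- The base-changed Frey curve has the shape `y² + xy = x³ + a₂x² + a₄x`. -/
theorem shape (P : FreyPackage) :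
    (P.freyCurve⁄K).a₁ = 1 ∧ (P.freyCurve⁄K).a₃ = 0 ∧ (P.freyCurve⁄K).a₆ = 0 := by
  have h1 : (P.freyCurve⁄K).a₁ = algebraMap ℚ K P.freyCurve.a₁ := rfl
  have h3 : (P.freyCurve⁄K).a₃ = algebraMap ℚ K P.freyCurve.a₃ := rfl
  have h6 : (P.freyCurve⁄K).a₆ = algebraMap ℚ K P.freyCurve.a₆ := rfl
  refine ⟨?_, ?_, ?_⟩
  · rw [h1]; simp [FreyPackage.freyCurve]
  · rw [h3]; simp [FreyPackage.freyCurve]
  · rw [h6]; simp [FreyPackage.freyCurve]

/-- Valuation data of the Frey curve at a place above `2`. -/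
theorem data_two (P : FreyPackage) (A : ValuationSubring K) (hA : A.LiesOverPrime 2) :
    A.valuation (2 : K) < 1 ∧ A.valuation (P.freyCurve⁄K).a₂ ≤ 1 ∧
      A.valuation (P.freyCurve⁄K).a₄ < 1 ∧
      ∃ (m : ℤ) (e : ℕ), 0 < e ∧ ¬ (2 : ℤ) ∣ m ∧
        (P.freyCurve⁄K).a₄ = ((2 : ℕ) : K) ^ (P.p * e - 4) * (m : K) := by
  obtain ⟨n₂, m, e, -, -, -, ha₂, he, hm, ha₄⟩ := frey_local_data_two P
  have h2 : A.valuation (2 : K) < 1 := by
    have := valuation_prime_lt_one (A := A) hA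
    simpa using this
  have h2' : (P.freyCurve⁄K).a₂ = algebraMap ℚ K P.freyCurve.a₂ := rfl
  have h4' : (P.freyCurve⁄K).a₄ = algebraMap ℚ K P.freyCurve.a₄ := rfl
  have e4 : (P.freyCurve⁄K).a₄ = ((2 : ℕ) : K) ^ (P.p * e - 4) * (m : K) := by
    rw [h4', ha₄]
    simp
  have hpe : 1 ≤ P.p * e - 4 := by
    have := P.hp5
    have : 5 * 1 ≤ P.p * e := Nat.mul_le_mul this he
    omega
  refine ⟨h2, ?_, ?_, m, e, he, hm, e4⟩
  · rw [h2', ha₂]
    have : algebraMap ℚ K (n₂ : ℚ) = ((n₂ : ℤ) : K) := by simp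
    rw [this]
    exact valuation_intCast_le_one n₂
  · rw [e4, map_mul, map_pow]
    have h2n : A.valuation ((2 : ℕ) : K) < 1 := valuation_prime_lt_one hA
    have hm1 : A.valuation ((m : ℤ) : K) ≤ 1 := valuation_intCast_le_one m
    have hpow : A.valuation ((2 : ℕ) : K) ^ (P.p * e - 4) < 1 :=
      pow_lt_one₀ zero_le h2n (by omega)
    rw [mul_comm]
    exact mul_lt_one_aux hm1 hpow

end LocMain

open LocMain

/-- (L1) The Frey curve has no nonzero Galois-fixed point of order `p`. -/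
theorem no_fixed_torsion (P : FreyPackage)
    (x : Submodule.torsionBy ℤ (P.freyCurve⁄K).Point P.p)
    (hx : ∀ σ : K ≃ₐ[ℚ] K, σ • x = x) : x = 0 := by
  by_contra hx0
  have hQ0 : x.1 ≠ 0 := fun h => hx0 (Subtype.ext h)
  have hpQ : P.p • x.1 = 0 := nsmul_eq_zero P x
  have hfix : ∀ σ : K ≃ₐ[ℚ] K, σ • x.1 = x.1 := fun σ => congrArg Subtype.val (hx σ)
  obtain ⟨A, hA'⟩ := Fermat.Agent.S54.exists_valuationSubring_liesOver 2 Nat.prime_two
  have hA : A.LiesOverPrime 2 := hA'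
  obtain ⟨O, -, hrat, -, hpow⟩ := exists_ordFun_rat A Nat.prime_two hA
  obtain ⟨h2, ha₂, ha₄, m, e, he, hm, e4⟩ := data_two P A hA
  have hodd : ¬ 2 ∣ P.p := by
    intro h
    have := (Nat.prime_dvd_prime_iff_eq Nat.prime_two P.pp).mp h
    have := P.hp5
    omega
  have hx0' : twoTors (P.freyCurve⁄K) 0 = 0 := by
    have h := twoTors_baseChange P.freyCurve 0
    rw [_root_.map_zero] at h
    rw [h, twoTors, Frey.b₆_eq]
    simp
  have hm0 : (m : K) ≠ 0 := by
    have : m ≠ 0 := by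
      rintro rfl
      exact hm (dvd_zero _)
    exact_mod_cast this
  have ha₄0 : (P.freyCurve⁄K).a₄ ≠ 0 := by
    rw [e4]
    exact mul_ne_zero (pow_ne_zero _ (by norm_num)) hm0
  have hpe : 4 ≤ P.p * e := by
    have := P.hp5
    have : 5 * 1 ≤ P.p * e := Nat.mul_le_mul this he
    omega
  have hh : ∃ h : ℤ, O.ord (P.freyCurve⁄K).a₄ = h ∧ ¬ ((P.p : ℕ) : ℤ) ∣ 2 * h := by
    refine ⟨((P.p * e - 4 : ℕ) : ℤ), ?_, ?_⟩
    · rw [e4, hpow m (P.p * e - 4) hm]
      simp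
    · intro hdvd
      have e1 : ((P.p * e - 4 : ℕ) : ℤ) = (P.p : ℤ) * e - 4 := by
        rw [Nat.cast_sub hpe]; push_cast; ring
      rw [e1] at hdvd
      have h8 : ((P.p : ℕ) : ℤ) ∣ 8 := by
        have h1 : ((P.p : ℕ) : ℤ) ∣ 2 * ((P.p : ℤ) * e) := ⟨2 * e, by ring⟩
        have h2' : (8 : ℤ) = 2 * ((P.p : ℤ) * e) - 2 * ((P.p : ℤ) * e - 4) := by ring
        rw [h2']
        exact dvd_sub h1 hdvd
      have h8' : P.p ∣ 8 := by exact_mod_cast h8
      have hle : P.p ≤ 8 := Nat.le_of_dvd (by norm_num) h8'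
      have := P.hp5
      have hpp := P.pp
      interval_cases h : P.p <;> omega
  -- multiples of the point are Galois-fixed, hence have rational x-coordinate
  have hmul : ∀ n : ℕ, n • x.1 ≠ 0 →
      ∃ r : ℚ, r ≠ 0 ∧ algebraMap ℚ K r = xi (P.freyCurve⁄K) 0 (n • x.1) := by
    intro n hn
    have hfixn : ∀ σ : K ≃ₐ[ℚ] K, σ • (n • x.1) = n • x.1 := by
      intro σ
      have h1 : σ • (n • x.1) = n • (σ • x.1) :=
        map_nsmul (smulAddHom P.freyCurve σ) n x.1
      rw [h1, hfix σ]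
    have hfx : ∀ σ : K ≃ₐ[ℚ] K,
        σ (xi (P.freyCurve⁄K) 0 (n • x.1)) = xi (P.freyCurve⁄K) 0 (n • x.1) := by
      intro σ
      rw [← xi_zero_smul, hfixn σ]
    obtain ⟨r, hr⟩ := exists_rat_of_fixed _ hfx
    refine ⟨r, ?_, hr⟩
    rintro rfl
    have hpn : P.p • (n • x.1) = 0 := by rw [smul_comm, hpQ, nsmul_zero]
    have := SingDepth.xi_ne_zero hx0' hodd hn hpn
    rw [← hr] at this
    simp at this
  refine no_rational_torsion_two (shape P) A O h2 ha₂ ha₄ ha₄0 P.pp P.hp5 hh hQ0 hpQ ?_ ?_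
  · intro n hn
    obtain ⟨r, hr0, hr⟩ := hmul n hn
    rw [← hr]
    exact hrat r hr0
  · intro n hn hv
    obtain ⟨r, hr0, hr⟩ := hmul n hn
    rw [← hr] at hv ⊢
    exact valuation_rat_sub_one_lt A hA r hv

/-- (L2) Inertia at `2` acts trivially on a Galois-stable line and on the quotient by it. -/
theorem inertia_two (P : FreyPackage)
    (N : Submodule (ZMod P.p) (Submodule.torsionBy ℤ (P.freyCurve⁄K).Point P.p))
    (hN : IsGaloisStable ℚ N) (hbot : N ≠ ⊥) (htop : N ≠ ⊤)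
    (hcard : Nat.card (Submodule.torsionBy ℤ (P.freyCurve⁄K).Point P.p) = P.p ^ 2)
    (A : ValuationSubring K) (hA : A.LiesOverPrime 2)
    (τ : K ≃ₐ[ℚ] K) (hτ : τ ∈ A.inertiaSubgroupIn ℚ) :
    (∀ x ∈ N, τ • x = x) ∧
      (∀ x : Submodule.torsionBy ℤ (P.freyCurve⁄K).Point P.p, τ • x - x ∈ N) := by
  have : Fact P.p.Prime := ⟨P.pp⟩
  obtain ⟨h2, ha₂, ha₄, -⟩ := data_two P A hA
  have hp2 : P.p ≠ 2 := by
    have := P.hp5
    omega
  have hσA : ∀ a : K, A.valuation a ≤ 1 → A.valuation ((τ : K →+* K) a - a) < 1 :=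
    fun a ha => inertia_valuation_sub_lt hτ ha
  have hσv : ∀ a : K, A.valuation ((τ : K →+* K) a) = A.valuation a :=
    fun a => inertia_valuation_apply hτ a
  have hτ' : ∀ Q : (P.freyCurve⁄K).Point, Q ≠ 0 →
      smulAddHom P.freyCurve τ Q ≠ 0 ∧
        xi (P.freyCurve⁄K) 0 (smulAddHom P.freyCurve τ Q) =
          (τ : K →+* K) (xi (P.freyCurve⁄K) 0 Q) ∧
        ycoord (P.freyCurve⁄K) (smulAddHom P.freyCurve τ Q) =
          (τ : K →+* K) (ycoord (P.freyCurve⁄K) Q) := by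
    intro Q hQ
    exact ⟨smul_ne_zero_of_ne_zero _ τ hQ, xi_zero_smul _ τ Q, ycoord_smul _ τ Q⟩
  have hsq : ∀ x : Submodule.torsionBy ℤ (P.freyCurve⁄K).Point P.p,
      dmap P τ (dmap P τ x) = 0 := by
    intro x
    apply Subtype.ext
    rw [dmap_dmap_coe]
    exact sq_eq_zero_two (shape P) A h2 ha₂ ha₄ P.pp hp2 (τ : K →+* K)
      (smulAddHom P.freyCurve τ) hσA hσv hτ' (nsmul_eq_zero P x)
  have hDN := dmap_mem P τ N hN
  constructor
  · intro x hx
    have h0 := lin_zero_on hcard N ⊥ hbot htop (dmap P τ) hDN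
      (fun y _ => by rw [hsq y]; exact Submodule.zero_mem _) (by simp) x hx
    rw [dmap_apply, sub_eq_zero] at h0
    exact h0
  · intro x
    have := lin_mem hcard N hbot htop (dmap P τ) hDN
      (fun y => by rw [hsq y]; exact Submodule.zero_mem _) x
    rwa [dmap_apply] at this


/-- Valuation data of the Frey curve at a place above an odd prime `q`. -/
theorem LocMain.data_odd (P : FreyPackage) {q : ℕ} (hq : q.Prime) (hq2 : q ≠ 2)
    (A : ValuationSubring K) (hA : A.LiesOverPrime q) :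
    ∃ r0 : ℚ, twoTors (P.freyCurve⁄K) (algebraMap ℚ K r0) = 0 ∧
      A.valuation (algebraMap ℚ K r0) ≤ 1 ∧
      A.valuation (b2' (P.freyCurve⁄K) (algebraMap ℚ K r0)) ≤ 1 ∧
      A.valuation (beta (P.freyCurve⁄K) (algebraMap ℚ K r0)) ≤ 1 ∧
      A.valuation (2 : K) = 1 ∧
      ((∀ t : K, A.valuation t ≤ 1 →
        ¬ (A.valuation (t ^ 2 - beta (P.freyCurve⁄K) (algebraMap ℚ K r0)) < 1 ∧
          A.valuation (fxi (P.freyCurve⁄K) (algebraMap ℚ K r0) t) < 1)) ∨
      (A.valuation (beta (P.freyCurve⁄K) (algebraMap ℚ K r0)) < 1 ∧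
        A.valuation (b2' (P.freyCurve⁄K) (algebraMap ℚ K r0)) = 1)) := by
  obtain ⟨r0, nβ, nb, n0, hr0, hr0', hβ, hb, hcase⟩ := frey_local_data P hq hq2
  have hq2' : ¬ q ∣ 2 := fun h => hq2 ((Nat.prime_dvd_prime_iff_eq hq Nat.prime_two).mp h)
  have h2 : A.valuation (2 : K) = 1 := by
    have := valuation_natCast_eq_one (A := A) hq hA hq2'
    simpa using this
  have h4 : A.valuation (4 : K) = 1 := by
    have : (4 : K) = 2 ^ 2 := by norm_num
    rw [this, map_pow, h2, one_pow]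
  have h16 : A.valuation (16 : K) = 1 := by
    have : (16 : K) = 2 ^ 4 := by norm_num
    rw [this, map_pow, h2, one_pow]
  have h256 : A.valuation (256 : K) = 1 := by
    have : (256 : K) = 2 ^ 8 := by norm_num
    rw [this, map_pow, h2, one_pow]
  have hx0 : twoTors (P.freyCurve⁄K) (algebraMap ℚ K r0) = 0 := by
    rw [twoTors_baseChange, hr0, _root_.map_zero]
  have hr0K : algebraMap ℚ K r0 = (n0 : K) / 4 := by
    rw [hr0']; simp
  have hβK : beta (P.freyCurve⁄K) (algebraMap ℚ K r0) = (nβ : K) / 16 := by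
    rw [beta_baseChange, hβ]; simp
  have hbK : b2' (P.freyCurve⁄K) (algebraMap ℚ K r0) = (nb : K) := by
    rw [b2'_baseChange, hb]; simp
  have hb2v : A.valuation (b2' (P.freyCurve⁄K) (algebraMap ℚ K r0)) ≤ 1 := by
    rw [hbK]; exact valuation_intCast_le_one nb
  have hβv : A.valuation (beta (P.freyCurve⁄K) (algebraMap ℚ K r0)) ≤ 1 := by
    rw [hβK, map_div₀, h16, div_one]; exact valuation_intCast_le_one nβ
  have hr0v : A.valuation (algebraMap ℚ K r0) ≤ 1 := by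
    rw [hr0K, map_div₀, h4, div_one]; exact valuation_intCast_le_one n0
  refine ⟨r0, hx0, hr0v, hb2v, hβv, h2, ?_⟩
  rcases hcase with ⟨nΔ, hΔ, hnΔ⟩ | ⟨hnb, e, m, he, hm, hnβ⟩
  · left
    have hΔK : (P.freyCurve⁄K).Δ = (nΔ : K) / 256 := by
      rw [delta_baseChange, hΔ]; simp
    have hΔv : A.valuation ((P.freyCurve⁄K).Δ) = 1 := by
      rw [hΔK, map_div₀, h256, div_one]
      exact valuation_intCast_eq_one hq hA hnΔ
    intro t ht ⟨h1, h2'⟩
    have hd := delta_eq' (W := P.freyCurve⁄K) hx0 t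
    set β := beta (P.freyCurve⁄K) (algebraMap ℚ K r0) with hβdef
    set b := b2' (P.freyCurve⁄K) (algebraMap ℚ K r0) with hbdef
    set f := fxi (P.freyCurve⁄K) (algebraMap ℚ K r0) t with hfdef
    have h8 : A.valuation (8 : K) ≤ 1 := by
      have : (8 : K) = ((8 : ℤ) : K) := by norm_num
      rw [this]; exact valuation_intCast_le_one 8
    have h4' : A.valuation (4 : K) ≤ 1 := h4.le
    have h64 : A.valuation (64 : K) ≤ 1 := by
      have : (64 : K) = ((64 : ℤ) : K) := by norm_num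
      rw [this]; exact valuation_intCast_le_one 64
    have e1 : A.valuation (b - 8 * t) ≤ 1 := by
      refine (A.valuation.map_sub _ _).trans (max_le hb2v ?_)
      rw [map_mul]; exact mul_le_one' h8 ht
    have e2 : A.valuation ((4 * t + b) * (t ^ 2 - β)) < 1 := by
      rw [map_mul]
      have : A.valuation (4 * t + b) ≤ 1 := by
        refine (A.valuation.map_add _ _).trans (max_le ?_ hb2v)
        rw [map_mul]; exact mul_le_one' h4' ht
      exact LocMain.mul_lt_one_aux this h1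
    have e3 : A.valuation (f - (4 * t + b) * (t ^ 2 - β)) < 1 :=
      (A.valuation.map_sub _ _).trans_lt (max_lt h2' e2)
    have e4 : A.valuation (β * (b - 8 * t) * (f - (4 * t + b) * (t ^ 2 - β))) < 1 := by
      rw [map_mul, map_mul]
      exact LocMain.mul_lt_one_aux (mul_le_one' hβv e1) e3
    have e5 : A.valuation (64 * β ^ 2 * (t ^ 2 - β)) < 1 := by
      rw [map_mul, map_mul, map_pow]
      exact LocMain.mul_lt_one_aux (mul_le_one' h64 (pow_le_one' hβv 2)) h1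
    have : A.valuation ((P.freyCurve⁄K).Δ) < 1 := by
      rw [hd]; exact (A.valuation.map_add _ _).trans_lt (max_lt e4 e5)
    rw [hΔv] at this
    exact lt_irrefl _ this
  · right
    have hqv : A.valuation ((q : ℕ) : K) < 1 := valuation_prime_lt_one hA
    have hmv : A.valuation ((m : ℤ) : K) = 1 := valuation_intCast_eq_one hq hA hm
    have hβK' : beta (P.freyCurve⁄K) (algebraMap ℚ K r0) =
        ((q : ℕ) : K) ^ (P.p * e) * ((m : K) / 16) := by
      rw [hβK, hnβ]; push_cast; ring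
    refine ⟨?_, ?_⟩
    · rw [hβK', map_mul, map_pow, map_div₀, hmv, h16, div_one, mul_one]
      exact pow_lt_one₀ zero_le hqv (Nat.mul_ne_zero P.hp0 he.ne')
    · rw [hbK]; exact valuation_intCast_eq_one hq hA hnb

/-- (L3) At a place above `p`, inertia acts trivially on a Galois-stable line or on the quotient
by it. -/
theorem inertia_p (P : FreyPackage)
    (N : Submodule (ZMod P.p) (Submodule.torsionBy ℤ (P.freyCurve⁄K).Point P.p))
    (hN : IsGaloisStable ℚ N) (hbot : N ≠ ⊥) (htop : N ≠ ⊤)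
    (hcard : Nat.card (Submodule.torsionBy ℤ (P.freyCurve⁄K).Point P.p) = P.p ^ 2)
    (hprod : ∃ c : ℤ, ((P.p : ℕ) : K) ^ 2 *
      ∏ᶠ v : {v : Submodule.torsionBy ℤ (P.freyCurve⁄K).Point P.p // v ≠ 0},
        xi (P.freyCurve⁄K) 0 (v : Submodule.torsionBy ℤ (P.freyCurve⁄K).Point P.p).1 = (c : K))
    (A : ValuationSubring K) (hA : A.LiesOverPrime P.p) :
    (∀ τ ∈ A.inertiaSubgroupIn ℚ, ∀ x ∈ N, τ • x = x) ∨
      (∀ τ ∈ A.inertiaSubgroupIn ℚ,
        ∀ x : Submodule.torsionBy ℤ (P.freyCurve⁄K).Point P.p, τ • x - x ∈ N) := by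
  have : Fact P.p.Prime := ⟨P.pp⟩
  have hp2 : P.p ≠ 2 := by
    have := P.hp5
    omega
  obtain ⟨r0, hx0, hr0v, hb2v, hβv, h2, hcase⟩ := LocMain.data_odd P P.pp hp2 A hA
  -- the part of `E[p]` in the kernel of reduction, as a submodule
  let T₀ : AddSubgroup (Submodule.torsionBy ℤ (P.freyCurve⁄K).Point P.p) :=
    { carrier := {x | InK A (P.freyCurve⁄K) (algebraMap ℚ K r0) x.1}
      zero_mem' := inK_zero _ _ _
      add_mem' := fun {a b} ha hb => inK_add hx0 A hb2v hβv ha hb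
      neg_mem' := fun {a} ha => inK_neg A ha }
  let T : Submodule (ZMod P.p) (Submodule.torsionBy ℤ (P.freyCurve⁄K).Point P.p) :=
    AddSubgroup.toZModSubmodule P.p T₀
  have hTmem : ∀ x : Submodule.torsionBy ℤ (P.freyCurve⁄K).Point P.p,
      x ∈ T ↔ InK A (P.freyCurve⁄K) (algebraMap ℚ K r0) x.1 := fun x => Iff.rfl
  -- `(τ - 1)²` maps into `T`
  have hsq : ∀ τ ∈ A.inertiaSubgroupIn ℚ,
      ∀ x : Submodule.torsionBy ℤ (P.freyCurve⁄K).Point P.p,
        LocMain.dmap P τ (LocMain.dmap P τ x) ∈ T := by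
    intro τ hτ x
    rw [hTmem, LocMain.dmap_dmap_coe]
    have hσA : ∀ a : K, A.valuation a ≤ 1 → A.valuation ((τ : K →+* K) a - a) < 1 :=
      fun a ha => inertia_valuation_sub_lt hτ ha
    have hσv : ∀ a : K, A.valuation ((τ : K →+* K) a) = A.valuation a :=
      fun a => inertia_valuation_apply hτ a
    have hτ' : ∀ Q : (P.freyCurve⁄K).Point, Q ≠ 0 →
        smulAddHom P.freyCurve τ Q ≠ 0 ∧
          xi (P.freyCurve⁄K) (algebraMap ℚ K r0) (smulAddHom P.freyCurve τ Q) =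
            (τ : K →+* K) (xi (P.freyCurve⁄K) (algebraMap ℚ K r0) Q) ∧
          eta (P.freyCurve⁄K) (smulAddHom P.freyCurve τ Q) =
            (τ : K →+* K) (eta (P.freyCurve⁄K) Q) := by
      intro Q hQ
      exact ⟨smul_ne_zero_of_ne_zero _ τ hQ, xi_smul _ τ r0 Q, eta_smul _ τ Q⟩
    exact inK_sq_odd hx0 A hb2v hβv h2 P.hp_odd (τ : K →+* K) (smulAddHom P.freyCurve τ)
      hσA hσv hτ' hcase (LocMain.nsmul_eq_zero P x)
  by_cases hNT : N ⊓ T = ⊥
  · left
    intro τ hτ x hx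
    have h0 := lin_zero_on hcard N T hbot htop (LocMain.dmap P τ) (LocMain.dmap_mem P τ N hN)
      (fun y _ => hsq τ hτ y) hNT x hx
    rw [LocMain.dmap_apply, sub_eq_zero] at h0
    exact h0
  · right
    have hTtop : T ≠ ⊤ := by
      obtain ⟨Q, hQ⟩ := exists_not_inK_at_p P N hN hbot htop hcard hprod A hA
      intro hT
      apply hQ
      have hQT : Q ∈ T := by rw [hT]; exact Submodule.mem_top
      rw [hTmem] at hQT
      exact (inK_shift hr0v).mp hQT
    have hTN : T = N := lin_eq_of_inf_ne_bot hcard N T hbot htop hNT hTtop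
    intro τ hτ x
    have := lin_mem hcard N hbot htop (LocMain.dmap P τ) (LocMain.dmap_mem P τ N hN)
      (fun y => by rw [← hTN]; exact hsq τ hτ y) x
    rwa [LocMain.dmap_apply] at this

end Fermat.Agent.S13
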