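import Mathlib

set_option autoImplicit false

/-!
# S13, torsion part: the multiplication polynomials `A_n`, `B_n`

For a curve in the form `η² = 4ξ³ + bξ² + 4βξ` (coordinate `ξ = x - x0` centred at a two-torsion
point), `torAB b β n = (A_n, B_n)` are polynomials in `ξ` with `ξ(nP) = A_n(ξ(P)) / B_n(ξ(P))`.
They are defined by the doubling / "add one" recursion, so that no division-polynomial identity
is needed.
-/

namespace Fermat.Agent.S13

open Polynomial

variable {R : Type*} [CommRing R]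

/-- Doubling step: `(A_n, B_n) ↦ (A_{2n}, B_{2n})`. -/
noncomputable def torDbl (b β : R) (p : R[X] × R[X]) : R[X] × R[X] :=
  ((p.1 ^ 2 - C β * p.2 ^ 2) ^ 2,
    p.2 * (4 * p.1 ^ 3 + C b * p.1 ^ 2 * p.2 + 4 * C β * p.1 * p.2 ^ 2))

/-- "Add one" step: `((A_{n+1}, B_{n+1}), (A_n, B_n)) ↦ (A_{2n+1}, B_{2n+1})`. -/
noncomputable def torAdd (b β : R) (p' p : R[X] × R[X]) : R[X] × R[X] :=
  (2 * (p'.1 * p.2 + p.1 * p'.2) * (p'.1 * p.1 + C β * p'.2 * p.2) +
      C b * p'.1 * p.1 * p'.2 * p.2 - X * (p'.1 * p.2 - p.1 * p'.2) ^ 2,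
    (p'.1 * p.2 - p.1 * p'.2) ^ 2)

/-- The multiplication polynomials `(A_n, B_n)`. -/
noncomputable def torAB (b β : R) : ℕ → R[X] × R[X]
  | 0 => (1, 0)
  | 1 => (X, 1)
  | (n + 2) =>
    if h : Even n then torDbl b β (torAB b β (n / 2 + 1))
    else torAdd b β (torAB b β (n / 2 + 2)) (torAB b β (n / 2 + 1))
termination_by n => n
decreasing_by
  all_goals simp_wf
  · omega
  · have : n ≠ 0 := fun h0 => h (h0 ▸ Even.zero)
    omega
  · omega

theorem torAB_zero (b β : R) : torAB b β 0 = (1, 0) := by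
  rw [torAB]

theorem torAB_one (b β : R) : torAB b β 1 = (X, 1) := by
  rw [torAB]

theorem torAB_even (b β : R) {k : ℕ} (hk : 1 ≤ k) :
    torAB b β (2 * k) = torDbl b β (torAB b β k) := by
  obtain ⟨m, rfl⟩ : ∃ m, k = m + 1 := ⟨k - 1, by omega⟩
  have h2 : 2 * (m + 1) = 2 * m + 2 := by ring
  rw [h2, torAB, dif_pos (even_two_mul m)]
  congr 2
  omega

theorem torAB_odd (b β : R) {k : ℕ} (hk : 1 ≤ k) :
    torAB b β (2 * k + 1) = torAdd b β (torAB b β (k + 1)) (torAB b β k) := by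
  obtain ⟨m, rfl⟩ : ∃ m, k = m + 1 := ⟨k - 1, by omega⟩
  have h2 : 2 * (m + 1) + 1 = (2 * m + 1) + 2 := by ring
  have hodd : ¬ Even (2 * m + 1) := by
    rw [Nat.not_even_iff_odd]; exact odd_two_mul_add_one m
  rw [h2, torAB, dif_neg hodd]
  have e1 : (2 * m + 1) / 2 + 2 = m + 1 + 1 := by omega
  have e2 : (2 * m + 1) / 2 + 1 = m + 1 := by omega
  rw [e1, e2]

/-- The polynomial `C_k = A_{k+1} B_k - A_k B_{k+1}`, a square root of `B_{2k+1}`. -/
noncomputable def torC (b β : R) (k : ℕ) : R[X] :=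
  (torAB b β (k + 1)).1 * (torAB b β k).2 - (torAB b β k).1 * (torAB b β (k + 1)).2

theorem torAB_odd_snd (b β : R) {k : ℕ} (hk : 1 ≤ k) :
    (torAB b β (2 * k + 1)).2 = torC b β k ^ 2 := by
  rw [torAB_odd b β hk]
  rfl

section Map

variable {S : Type*} [CommRing S] (f : R →+* S)

theorem torDbl_map (b β : R) (p : R[X] × R[X]) :
    torDbl (f b) (f β) (p.1.map f, p.2.map f) =
      ((torDbl b β p).1.map f, (torDbl b β p).2.map f) := by
  simp [torDbl]

theorem torAdd_map (b β : R) (p' p : R[X] × R[X]) :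
    torAdd (f b) (f β) (p'.1.map f, p'.2.map f) (p.1.map f, p.2.map f) =
      ((torAdd b β p' p).1.map f, (torAdd b β p' p).2.map f) := by
  simp [torAdd]

theorem torAB_map (b β : R) (n : ℕ) :
    torAB (f b) (f β) n = ((torAB b β n).1.map f, (torAB b β n).2.map f) := by
  induction n using Nat.strong_induction_on with
  | _ n ih =>
    rcases n with _ | _ | n
    · simp [torAB_zero]
    · simp [torAB_one]
    · rcases Nat.even_or_odd' (n + 2) with ⟨k, hk | hk⟩
      · have hk1 : 1 ≤ k := by omega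
        rw [hk, torAB_even _ _ hk1, torAB_even _ _ hk1, ih k (by omega), torDbl_map]
      · have hk1 : 1 ≤ k := by omega
        rw [hk, torAB_odd _ _ hk1, torAB_odd _ _ hk1, ih k (by omega), ih (k + 1) (by omega),
          torAdd_map]

theorem torC_map (b β : R) (k : ℕ) : torC (f b) (f β) k = (torC b β k).map f := by
  simp [torC, torAB_map f b β]

end Map

end Fermat.Agent.S13
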