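import Mathlib
import Fermat.Agent.S13.TorPoly

set_option autoImplicit false

/-!
# S13, torsion part: degrees and leading coefficients of `A_n`, `B_n`, `C_k`
-/

namespace Fermat.Agent.S13

open Polynomial

variable {R : Type*} [CommRing R]

namespace TorDeg

/-- `p` has degree at most `d` and its coefficient of degree `d` is `c`. -/
def IsLead (p : R[X]) (d : ℕ) (c : R) : Prop := p.natDegree ≤ d ∧ p.coeff d = c

theorem IsLead.congr {p : R[X]} {d d' : ℕ} {c c' : R} (h : IsLead p d c) (hd : d = d')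
    (hc : c = c') : IsLead p d' c' := by
  subst hd; subst hc; exact h

theorem IsLead.mul {p q : R[X]} {d e : ℕ} {c c' : R} (hp : IsLead p d c) (hq : IsLead q e c') :
    IsLead (p * q) (d + e) (c * c') :=
  ⟨natDegree_mul_le.trans (add_le_add hp.1 hq.1), by
    rw [coeff_mul_add_eq_of_natDegree_le hp.1 hq.1, hp.2, hq.2]⟩

theorem IsLead.pow {p : R[X]} {d : ℕ} {c : R} (hp : IsLead p d c) (n : ℕ) :
    IsLead (p ^ n) (n * d) (c ^ n) :=
  ⟨natDegree_pow_le_of_le n hp.1, by rw [coeff_pow_of_natDegree_le hp.1, hp.2]⟩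

theorem IsLead.add {p q : R[X]} {d : ℕ} {c c' : R} (hp : IsLead p d c) (hq : IsLead q d c') :
    IsLead (p + q) d (c + c') :=
  ⟨natDegree_add_le_of_degree_le hp.1 hq.1, by rw [coeff_add, hp.2, hq.2]⟩

theorem IsLead.sub {p q : R[X]} {d : ℕ} {c c' : R} (hp : IsLead p d c) (hq : IsLead q d c') :
    IsLead (p - q) d (c - c') :=
  ⟨(natDegree_sub_le_of_le hp.1 hq.1).trans (max_self d).le, by rw [coeff_sub, hp.2, hq.2]⟩

theorem IsLead.lower {p : R[X]} {d d' : ℕ} {c : R} (hp : IsLead p d c) (h : d < d') :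
    IsLead p d' 0 :=
  ⟨hp.1.trans h.le, coeff_eq_zero_of_natDegree_lt (lt_of_le_of_lt hp.1 h)⟩

theorem isLead_C (a : R) : IsLead (C a) 0 a :=
  ⟨(natDegree_C a).le, coeff_C_zero⟩

theorem isLead_X : IsLead (X : R[X]) 1 1 :=
  ⟨natDegree_X_le, coeff_X_one⟩

theorem isLead_one : IsLead (1 : R[X]) 0 1 := by
  simpa using isLead_C (1 : R)

theorem isLead_two : IsLead (2 : R[X]) 0 2 := by
  have h := isLead_C (2 : R)
  rwa [show (C (2 : R) : R[X]) = 2 from rfl] at h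

theorem isLead_four : IsLead (4 : R[X]) 0 4 := by
  have h := isLead_C (4 : R)
  rwa [show (C (4 : R) : R[X]) = 4 from rfl] at h

/-- Doubling step. -/
theorem dbl (b β : R) {A B : R[X]} {n M : ℕ} (hN : n ^ 2 = M + 1)
    (hA : IsLead A (n ^ 2) 1) (hB : IsLead B (n ^ 2 - 1) ((n : R) ^ 2)) :
    IsLead (torDbl b β (A, B)).1 ((2 * n) ^ 2) 1 ∧
      IsLead (torDbl b β (A, B)).2 ((2 * n) ^ 2 - 1) (((2 * n : ℕ) : R) ^ 2) := by
  have h2 : (2 * n) ^ 2 = 4 * (M + 1) := by rw [mul_pow, hN]; norm_num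
  have hA' : IsLead A (M + 1) 1 := hA.congr hN rfl
  have hB' : IsLead B M ((n : R) ^ 2) := hB.congr (by omega) rfl
  constructor
  · have h1 : IsLead (C β * B ^ 2) (2 * (M + 1)) 0 :=
      ((isLead_C β).mul (hB'.pow 2)).lower (by omega)
    exact (((hA'.pow 2).sub h1).pow 2).congr (by omega) (by ring)
  · have h1 : IsLead (4 * A ^ 3) (3 * (M + 1)) 4 :=
      (isLead_four.mul (hA'.pow 3)).congr (by omega) (by ring)
    have h3 : IsLead (C b * A ^ 2 * B) (3 * (M + 1)) 0 :=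
      (((isLead_C b).mul (hA'.pow 2)).mul hB').lower (by omega)
    have h4 : IsLead (4 * C β * A * B ^ 2) (3 * (M + 1)) 0 :=
      (((isLead_four.mul (isLead_C β)).mul hA').mul (hB'.pow 2)).lower (by omega)
    exact (hB'.mul ((h1.add h3).add h4)).congr (by omega) (by push_cast; ring)

/-- The difference `A'B - AB'`. -/
theorem diff {A B A' B' : R[X]} {k M : ℕ} (hN : k ^ 2 = M + 1)
    (hA : IsLead A (k ^ 2) 1) (hB : IsLead B (k ^ 2 - 1) ((k : R) ^ 2))
    (hA' : IsLead A' ((k + 1) ^ 2) 1)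
    (hB' : IsLead B' ((k + 1) ^ 2 - 1) (((k + 1 : ℕ) : R) ^ 2)) :
    IsLead (A' * B - A * B') (2 * k ^ 2 + 2 * k) (-((2 * k + 1 : ℕ) : R)) := by
  have h2 : (k + 1) ^ 2 = M + 2 * k + 1 + 1 := by rw [add_sq, hN]; ring
  have hA1 : IsLead A (M + 1) 1 := hA.congr hN rfl
  have hB1 : IsLead B M ((k : R) ^ 2) := hB.congr (by omega) rfl
  have hA2 : IsLead A' (M + 2 * k + 1 + 1) 1 := hA'.congr h2 rfl
  have hB2 : IsLead B' (M + 2 * k + 1) (((k + 1 : ℕ) : R) ^ 2) := hB'.congr (by omega) rfl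
  have e1 : IsLead (A' * B) (2 * k ^ 2 + 2 * k) ((k : R) ^ 2) :=
    (hA2.mul hB1).congr (by omega) (by ring)
  have e2 : IsLead (A * B') (2 * k ^ 2 + 2 * k) (((k + 1 : ℕ) : R) ^ 2) :=
    (hA1.mul hB2).congr (by omega) (by ring)
  exact (e1.sub e2).congr rfl (by push_cast; ring)

/-- Add-one step. -/
theorem addOne (b β : R) {A B A' B' : R[X]} {k M : ℕ} (hN : k ^ 2 = M + 1)
    (hA : IsLead A (k ^ 2) 1) (hB : IsLead B (k ^ 2 - 1) ((k : R) ^ 2))
    (hA' : IsLead A' ((k + 1) ^ 2) 1)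
    (hB' : IsLead B' ((k + 1) ^ 2 - 1) (((k + 1 : ℕ) : R) ^ 2)) :
    IsLead (torAdd b β (A', B') (A, B)).1 ((2 * k + 1) ^ 2) 1 ∧
      IsLead (torAdd b β (A', B') (A, B)).2 ((2 * k + 1) ^ 2 - 1)
        (((2 * k + 1 : ℕ) : R) ^ 2) := by
  have hd := diff hN hA hB hA' hB'
  have h2 : (k + 1) ^ 2 = M + 2 * k + 1 + 1 := by rw [add_sq, hN]; ring
  have h3 : (2 * k + 1) ^ 2 = 4 * (M + 1) + 4 * k + 1 := by rw [add_sq, mul_pow, hN]; ring
  have hA1 : IsLead A (M + 1) 1 := hA.congr hN rfl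
  have hB1 : IsLead B M ((k : R) ^ 2) := hB.congr (by omega) rfl
  have hA2 : IsLead A' (M + 2 * k + 1 + 1) 1 := hA'.congr h2 rfl
  have hB2 : IsLead B' (M + 2 * k + 1) (((k + 1 : ℕ) : R) ^ 2) := hB'.congr (by omega) rfl
  have hd' : IsLead (A' * B - A * B') (2 * M + 2 * k + 2) (-((2 * k + 1 : ℕ) : R)) :=
    hd.congr (by omega) rfl
  have e1 : IsLead (A' * B) (2 * M + 2 * k + 2) ((k : R) ^ 2) :=
    (hA2.mul hB1).congr (by omega) (by ring)
  have e2 : IsLead (A * B') (2 * M + 2 * k + 2) (((k + 1 : ℕ) : R) ^ 2) :=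
    (hA1.mul hB2).congr (by omega) (by ring)
  have e3 : IsLead (A' * A) (2 * M + 2 * k + 3) 1 :=
    (hA2.mul hA1).congr (by omega) (by ring)
  have e4 : IsLead (C β * B' * B) (2 * M + 2 * k + 3) 0 :=
    (((isLead_C β).mul hB2).mul hB1).lower (by omega)
  have e5 : IsLead (C b * A' * A * B' * B) (4 * M + 4 * k + 5) 0 :=
    (((((isLead_C b).mul hA2).mul hA1).mul hB2).mul hB1).lower (by omega)
  have e6 : IsLead (2 * (A' * B + A * B') * (A' * A + C β * B' * B)) (4 * M + 4 * k + 5)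
      (2 * ((k : R) ^ 2 + ((k + 1 : ℕ) : R) ^ 2)) :=
    ((isLead_two.mul (e1.add e2)).mul (e3.add e4)).congr (by omega) (by ring)
  have e7 : IsLead (X * (A' * B - A * B') ^ 2) (4 * M + 4 * k + 5)
      ((-((2 * k + 1 : ℕ) : R)) ^ 2) :=
    (isLead_X.mul (hd'.pow 2)).congr (by omega) (by ring)
  constructor
  · exact ((e6.add e5).sub e7).congr (by omega) (by push_cast; ring)
  · exact (hd'.pow 2).congr (by omega) (by ring)

theorem main (b β : R) (n : ℕ) (hn : 1 ≤ n) :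
    IsLead (torAB b β n).1 (n ^ 2) 1 ∧ IsLead (torAB b β n).2 (n ^ 2 - 1) ((n : R) ^ 2) := by
  induction n using Nat.strong_induction_on with
  | _ n ih =>
    rcases Nat.even_or_odd' n with ⟨k, hk | hk⟩
    · have hk1 : 1 ≤ k := by omega
      obtain ⟨M, hM⟩ : ∃ M, k ^ 2 = M + 1 :=
        ⟨k ^ 2 - 1, by have := Nat.one_le_pow 2 k hk1; omega⟩
      obtain ⟨h1, h2⟩ := ih k (by omega) hk1
      subst hk
      rw [torAB_even b β hk1]
      exact dbl b β hM h1 h2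
    · subst hk
      rcases Nat.eq_zero_or_pos k with rfl | hk1
      · rw [torAB_one]
        exact ⟨isLead_X.congr (by norm_num) rfl, isLead_one.congr (by norm_num) (by simp)⟩
      · obtain ⟨M, hM⟩ : ∃ M, k ^ 2 = M + 1 :=
          ⟨k ^ 2 - 1, by have := Nat.one_le_pow 2 k hk1; omega⟩
        obtain ⟨h1, h2⟩ := ih k (by omega) hk1
        obtain ⟨h3, h4⟩ := ih (k + 1) (by omega) (by omega)
        rw [torAB_odd b β hk1]
        exact addOne b β hM h1 h2 h3 h4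

end TorDeg

open TorDeg

theorem torAB_fst_monic (b β : R) (n : ℕ) : (torAB b β n).1.Monic := by
  rcases Nat.eq_zero_or_pos n with rfl | hn
  · rw [torAB_zero]; exact monic_one
  · nontriviality R
    obtain ⟨h1, h2⟩ := (TorDeg.main b β n hn).1
    have hd : (torAB b β n).1.natDegree = n ^ 2 :=
      natDegree_eq_of_le_of_coeff_ne_zero h1 (by rw [h2]; exact one_ne_zero)
    rw [Monic, leadingCoeff, hd, h2]

theorem torAB_fst_natDegree [Nontrivial R] (b β : R) (n : ℕ) :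
    (torAB b β n).1.natDegree = n ^ 2 := by
  rcases Nat.eq_zero_or_pos n with rfl | hn
  · rw [torAB_zero]; simp
  · obtain ⟨h1, h2⟩ := (TorDeg.main b β n hn).1
    exact natDegree_eq_of_le_of_coeff_ne_zero h1 (by rw [h2]; exact one_ne_zero)

theorem torAB_snd_natDegree_le (b β : R) (n : ℕ) : (torAB b β n).2.natDegree ≤ n ^ 2 - 1 := by
  rcases Nat.eq_zero_or_pos n with rfl | hn
  · rw [torAB_zero]; simp
  · exact (TorDeg.main b β n hn).2.1

theorem torAB_snd_coeff (b β : R) (n : ℕ) (hn : 1 ≤ n) :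
    (torAB b β n).2.coeff (n ^ 2 - 1) = (n : R) ^ 2 :=
  (TorDeg.main b β n hn).2.2

theorem TorDeg.torC_isLead (b β : R) (k : ℕ) :
    IsLead (torC b β k) (2 * k ^ 2 + 2 * k) (-((2 * k + 1 : ℕ) : R)) := by
  rcases Nat.eq_zero_or_pos k with rfl | hk1
  · have h : torC b β 0 = C (-1 : R) := by
      simp [torC, torAB_zero, torAB_one]
    rw [h]
    exact (isLead_C (-1 : R)).congr (by norm_num) (by simp)
  · obtain ⟨M, hM⟩ : ∃ M, k ^ 2 = M + 1 :=
      ⟨k ^ 2 - 1, by have := Nat.one_le_pow 2 k hk1; omega⟩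
    obtain ⟨h1, h2⟩ := TorDeg.main b β k hk1
    obtain ⟨h3, h4⟩ := TorDeg.main b β (k + 1) (by omega)
    exact TorDeg.diff hM h1 h2 h3 h4

theorem torC_natDegree_le (b β : R) (k : ℕ) : (torC b β k).natDegree ≤ 2 * k ^ 2 + 2 * k :=
  (TorDeg.torC_isLead b β k).1

theorem torC_coeff (b β : R) (k : ℕ) :
    (torC b β k).coeff (2 * k ^ 2 + 2 * k) = -((2 * k + 1 : ℕ) : R) :=
  (TorDeg.torC_isLead b β k).2

end Fermat.Agent.S13
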