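import Mathlib
import Fermat.Agent.S05.Formulas
import Fermat.Agent.S13.TorPoly

set_option autoImplicit false

/-!
# S13, torsion part: `A_n`, `B_n` compute the `ξ`-coordinate of `n • P`
-/

namespace Fermat.Agent.S13

open WeierstrassCurve Polynomial
open Fermat.Agent.S05

variable {L : Type*} [Field L] [DecidableEq L] [CharZero L] {W : Affine L} {x0 : L}

set_option linter.unusedSectionVars false

theorem TorInv.torDbl_eval_fst (b β : L) (p : L[X] × L[X]) (t : L) :
    (torDbl b β p).1.eval t = (p.1.eval t ^ 2 - β * p.2.eval t ^ 2) ^ 2 := by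
  simp [torDbl]

theorem TorInv.torDbl_eval_snd (b β : L) (p : L[X] × L[X]) (t : L) :
    (torDbl b β p).2.eval t =
      p.2.eval t * (4 * p.1.eval t ^ 3 + b * p.1.eval t ^ 2 * p.2.eval t +
        4 * β * p.1.eval t * p.2.eval t ^ 2) := by
  simp [torDbl]

theorem TorInv.torAdd_eval_fst (b β : L) (p' p : L[X] × L[X]) (t : L) :
    (torAdd b β p' p).1.eval t =
      2 * (p'.1.eval t * p.2.eval t + p.1.eval t * p'.2.eval t) *
          (p'.1.eval t * p.1.eval t + β * p'.2.eval t * p.2.eval t) +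
        b * p'.1.eval t * p.1.eval t * p'.2.eval t * p.2.eval t -
        t * (p'.1.eval t * p.2.eval t - p.1.eval t * p'.2.eval t) ^ 2 := by
  simp [torAdd]

theorem TorInv.torAdd_eval_snd (b β : L) (p' p : L[X] × L[X]) (t : L) :
    (torAdd b β p' p).2.eval t =
      (p'.1.eval t * p.2.eval t - p.1.eval t * p'.2.eval t) ^ 2 := by
  simp [torAdd]

/-- Key fact: the two-torsion cubic and `t ^ 2 - β` have no common zero. -/
theorem TorInv.sq_sub_beta_ne (hx0 : twoTors W x0 = 0) (hΔ : W.Δ ≠ 0) {t : L}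
    (ht : fxi W x0 t = 0) : t ^ 2 - beta W x0 ≠ 0 := by
  intro h
  apply hΔ
  rw [delta_eq' hx0 t, ht, h]
  ring

/-- `(a, b)` represents the projective `ξ`-coordinate of `Q`. -/
def TorInv.Rep (W : Affine L) (x0 : L) (Q : W.Point) (a b : L) : Prop :=
  (Q = 0 → b = 0 ∧ a ≠ 0) ∧ (Q ≠ 0 → b ≠ 0 ∧ a = xi W x0 Q * b)

theorem TorInv.rep_zero {Q : W.Point} (hQ : Q = 0) {a b : L} (hb : b = 0) (ha : a ≠ 0) :
    TorInv.Rep W x0 Q a b :=
  ⟨fun _ => ⟨hb, ha⟩, fun h => absurd hQ h⟩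

theorem TorInv.rep_ne {Q : W.Point} (hQ : Q ≠ 0) {a b : L} (hb : b ≠ 0)
    (ha : a = xi W x0 Q * b) : TorInv.Rep W x0 Q a b :=
  ⟨fun h => absurd h hQ, fun _ => ⟨hb, ha⟩⟩

/-- Doubling step. -/
theorem TorInv.rep_dbl (hx0 : twoTors W x0 = 0) (hΔ : W.Δ ≠ 0) {Q : W.Point} {u v : L}
    (h : TorInv.Rep W x0 Q u v) :
    TorInv.Rep W x0 (Q + Q) ((u ^ 2 - beta W x0 * v ^ 2) ^ 2)
      (v * (4 * u ^ 3 + b2' W x0 * u ^ 2 * v + 4 * beta W x0 * u * v ^ 2)) := by
  by_cases hQ : Q = 0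
  · obtain ⟨hv, hu⟩ := h.1 hQ
    refine TorInv.rep_zero (by rw [hQ, add_zero]) (by rw [hv, zero_mul]) ?_
    rw [hv]
    simpa using hu
  · obtain ⟨hv, hu⟩ := h.2 hQ
    have hsq := eta_sq hx0 hQ
    have hb : v * (4 * u ^ 3 + b2' W x0 * u ^ 2 * v + 4 * beta W x0 * u * v ^ 2) =
        v ^ 4 * fxi W x0 (xi W x0 Q) := by
      rw [hu]
      unfold fxi
      ring
    have ha : (u ^ 2 - beta W x0 * v ^ 2) ^ 2 =
        v ^ 4 * (xi W x0 Q ^ 2 - beta W x0) ^ 2 := by
      rw [hu]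
      ring
    by_cases h2 : Q + Q = 0
    · have he := (add_self_eq_zero_iff_eta hQ).mp h2
      have hf : fxi W x0 (xi W x0 Q) = 0 := by
        rw [← hsq, he]
        ring
      refine TorInv.rep_zero h2 (by rw [hb, hf, mul_zero]) ?_
      rw [ha]
      exact mul_ne_zero (pow_ne_zero _ hv) (pow_ne_zero _ (TorInv.sq_sub_beta_ne hx0 hΔ hf))
    · have he : eta W Q ≠ 0 := fun he => h2 ((add_self_eq_zero_iff_eta hQ).mpr he)
      have hf : fxi W x0 (xi W x0 Q) ≠ 0 := by
        rw [← hsq]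
        exact pow_ne_zero _ he
      refine TorInv.rep_ne h2 (by rw [hb]; exact mul_ne_zero (pow_ne_zero _ hv) hf) ?_
      rw [ha, hb]
      linear_combination (-(v ^ 4)) * xi_double hx0 hQ h2

/-- Addition step, for two points with difference `P`. -/
theorem TorInv.rep_add (hx0 : twoTors W x0 = 0) {P Q' Q : W.Point} (hP : P ≠ 0)
    (hPQ : Q' - Q = P) {u' v' u v : L} (h' : TorInv.Rep W x0 Q' u' v')
    (h : TorInv.Rep W x0 Q u v) :
    TorInv.Rep W x0 (Q' + Q)
      (2 * (u' * v + u * v') * (u' * u + beta W x0 * v' * v) + b2' W x0 * u' * u * v' * v -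
        xi W x0 P * (u' * v - u * v') ^ 2)
      ((u' * v - u * v') ^ 2) := by
  by_cases hQ : Q = 0
  · have hQ' : Q' = P := by rw [← hPQ, hQ, sub_zero]
    obtain ⟨hv, hu⟩ := h.1 hQ
    have hQ'0 : Q' ≠ 0 := by rw [hQ']; exact hP
    obtain ⟨hv', hu'⟩ := h'.2 hQ'0
    have hsum : Q' + Q = P := by rw [hQ, add_zero, hQ']
    rw [hsum]
    rw [hQ'] at hu'
    refine TorInv.rep_ne hP ?_ ?_
    · rw [hv, mul_zero, zero_sub]
      exact pow_ne_zero _ (neg_ne_zero.mpr (mul_ne_zero hu hv'))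
    · rw [hv, hu']
      ring
  · obtain ⟨hv, hu⟩ := h.2 hQ
    by_cases hQ' : Q' = 0
    · obtain ⟨hv', hu'⟩ := h'.1 hQ'
      have hQP : Q = -P := by rw [← hPQ, hQ', zero_sub, neg_neg]
      have hxi : xi W x0 Q = xi W x0 P := by rw [hQP, xi_neg]
      rw [hQ', zero_add]
      refine TorInv.rep_ne hQ ?_ ?_
      · rw [hv', mul_zero, sub_zero]
        exact pow_ne_zero _ (mul_ne_zero hu' hv)
      · rw [hv', hu, hxi]
        ring
    · obtain ⟨hv', hu'⟩ := h'.2 hQ'
      have hb : (u' * v - u * v') ^ 2 =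
          v' ^ 2 * v ^ 2 * (xi W x0 Q' - xi W x0 Q) ^ 2 := by
        rw [hu, hu']
        ring
      by_cases hxi : xi W x0 Q' = xi W x0 Q
      · rcases eq_or_eq_neg_of_xi_eq hQ' hQ hxi with heq | heq
        · exact absurd (by rw [← hPQ, heq, sub_self]) hP
        · have hsum : Q' + Q = 0 := by rw [heq, neg_add_cancel]
          have h2 : Q + Q ≠ 0 := by
            intro h2
            apply hP
            rw [← hPQ, heq, ← neg_add', h2, neg_zero]
          have he : eta W Q ≠ 0 := fun he => h2 ((add_self_eq_zero_iff_eta hQ).mpr he)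
          have hf : fxi W x0 (xi W x0 Q) ≠ 0 := by
            rw [← eta_sq hx0 hQ]
            exact pow_ne_zero _ he
          have ha : 2 * (u' * v + u * v') * (u' * u + beta W x0 * v' * v) +
              b2' W x0 * u' * u * v' * v - xi W x0 P * (u' * v - u * v') ^ 2 =
              v' ^ 2 * v ^ 2 * fxi W x0 (xi W x0 Q) := by
            rw [hu, hu', hxi]
            unfold fxi
            ring
          refine TorInv.rep_zero hsum (by rw [hb, hxi, sub_self]; ring) ?_
          rw [ha]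
          exact mul_ne_zero (mul_ne_zero (pow_ne_zero _ hv') (pow_ne_zero _ hv)) hf
      · have hne := (add_ne_zero_of_xi_ne hQ' hQ hxi).1
        have hF2 := xi_add_add_xi_sub hx0 hQ' hQ hxi
        rw [hPQ] at hF2
        refine TorInv.rep_ne hne ?_ ?_
        · rw [hb]
          exact mul_ne_zero (mul_ne_zero (pow_ne_zero _ hv') (pow_ne_zero _ hv))
            (pow_ne_zero _ (sub_ne_zero.mpr hxi))
        · rw [hu, hu']
          linear_combination (-(v' ^ 2 * v ^ 2)) * hF2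

theorem TorInv.rep_torAB (hx0 : twoTors W x0 = 0) (hΔ : W.Δ ≠ 0) {P : W.Point} (hP : P ≠ 0)
    (n : ℕ) :
    TorInv.Rep W x0 (n • P) ((torAB (b2' W x0) (beta W x0) n).1.eval (xi W x0 P))
      ((torAB (b2' W x0) (beta W x0) n).2.eval (xi W x0 P)) := by
  induction n using Nat.strong_induction_on with
  | _ n ih =>
    rcases n with _ | _ | n
    · rw [torAB_zero]
      exact TorInv.rep_zero (zero_nsmul P) (by simp) (by simp)
    · rw [torAB_one]
      exact TorInv.rep_ne (by rw [zero_add, one_nsmul]; exact hP) (by simp) (by simp)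
    · rcases Nat.even_or_odd' (n + 2) with ⟨k, hk | hk⟩
      · have hk1 : 1 ≤ k := by omega
        have hsum : (2 * k) • P = k • P + k • P := by rw [two_mul, add_nsmul]
        rw [hk, torAB_even _ _ hk1, TorInv.torDbl_eval_fst, TorInv.torDbl_eval_snd, hsum]
        exact TorInv.rep_dbl hx0 hΔ (ih k (by omega))
      · have hk1 : 1 ≤ k := by omega
        have hsum : (2 * k + 1) • P = (k + 1) • P + k • P := by
          rw [← add_nsmul]
          congr 1
          omega
        have hdiff : (k + 1) • P - k • P = P := by rw [succ_nsmul, add_sub_cancel_left]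
        rw [hk, torAB_odd _ _ hk1, TorInv.torAdd_eval_fst, TorInv.torAdd_eval_snd, hsum]
        exact TorInv.rep_add hx0 hP hdiff (ih (k + 1) (by omega)) (ih k (by omega))

/-- The invariant: `(A_n(ξ), B_n(ξ))` is a nonzero multiple of the projective `ξ`-coordinate of
`n • P`. -/
theorem torAB_eval (hx0 : twoTors W x0 = 0) (hΔ : W.Δ ≠ 0) {P : W.Point} (hP : P ≠ 0) (n : ℕ) :
    (n • P = 0 →
      (torAB (b2' W x0) (beta W x0) n).2.eval (xi W x0 P) = 0 ∧
        (torAB (b2' W x0) (beta W x0) n).1.eval (xi W x0 P) ≠ 0) ∧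
    (n • P ≠ 0 →
      (torAB (b2' W x0) (beta W x0) n).2.eval (xi W x0 P) ≠ 0 ∧
        (torAB (b2' W x0) (beta W x0) n).1.eval (xi W x0 P) =
          xi W x0 (n • P) * (torAB (b2' W x0) (beta W x0) n).2.eval (xi W x0 P)) :=
  TorInv.rep_torAB hx0 hΔ hP n

theorem nsmul_eq_zero_iff_eval (hx0 : twoTors W x0 = 0) (hΔ : W.Δ ≠ 0) {P : W.Point} (hP : P ≠ 0)
    (n : ℕ) :
    n • P = 0 ↔ (torAB (b2' W x0) (beta W x0) n).2.eval (xi W x0 P) = 0 :=
  ⟨fun h => ((torAB_eval hx0 hΔ hP n).1 h).1,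
    fun h => by_contra fun hn => ((torAB_eval hx0 hΔ hP n).2 hn).1 h⟩

end Fermat.Agent.S13
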