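import Mathlib
import Fermat.Agent.S05.Formulas
import Fermat.Agent.S13.TorPoly
import Fermat.Agent.S13.TorDeg
import Fermat.Agent.S13.TorInv

set_option autoImplicit false

/-!
# S13, torsion part: existence of `p`-torsion and the bound `#E[p] ≤ p²`
-/

namespace Fermat.Agent.S13

open WeierstrassCurve Polynomial
open Fermat.Agent.S05

variable {L : Type*} [Field L] [DecidableEq L] [CharZero L] {W : Affine L} {x0 : L}

set_option linter.unusedSectionVars false

/-- Torsion points of odd order `2k+1` have `ξ`-coordinate a root of `C_k`. -/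
theorem torC_eval_eq_zero (hx0 : twoTors W x0 = 0) (hΔ : W.Δ ≠ 0) {k : ℕ} (hk : 1 ≤ k)
    {P : W.Point} (hP : P ≠ 0) (h : (2 * k + 1) • P = 0) :
    (torC (b2' W x0) (beta W x0) k).eval (xi W x0 P) = 0 := by
  have h1 := (nsmul_eq_zero_iff_eval hx0 hΔ hP (2 * k + 1)).mp h
  rw [torAB_odd_snd _ _ hk, eval_pow] at h1
  exact pow_eq_zero_iff (two_ne_zero) |>.mp h1

/-- Conversely a root of `C_k` is the `ξ`-coordinate of torsion points only. -/
theorem nsmul_eq_zero_of_torC_eval (hx0 : twoTors W x0 = 0) (hΔ : W.Δ ≠ 0) {k : ℕ} (hk : 1 ≤ k)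
    {P : W.Point} (hP : P ≠ 0)
    (h : (torC (b2' W x0) (beta W x0) k).eval (xi W x0 P) = 0) : (2 * k + 1) • P = 0 := by
  rw [nsmul_eq_zero_iff_eval hx0 hΔ hP (2 * k + 1), torAB_odd_snd _ _ hk, eval_pow, h]
  exact zero_pow two_ne_zero

theorem TorMain.torC_coeff_ne_zero (b β : L) (k : ℕ) :
    (torC b β k).coeff (2 * k ^ 2 + 2 * k) ≠ 0 := by
  rw [torC_coeff, neg_ne_zero]
  exact Nat.cast_ne_zero.mpr (by omega)

theorem torC_natDegree (b β : L) (k : ℕ) : (torC b β k).natDegree = 2 * k ^ 2 + 2 * k :=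
  natDegree_eq_of_le_of_coeff_ne_zero (torC_natDegree_le b β k) (TorMain.torC_coeff_ne_zero b β k)

theorem torC_ne_zero (b β : L) (k : ℕ) : torC b β k ≠ 0 := by
  intro h
  have := TorMain.torC_coeff_ne_zero b β k
  rw [h, coeff_zero] at this
  exact this rfl

/-- Over an algebraically closed field every `ξ` is the `ξ`-coordinate of a point. -/
theorem exists_point_of_xi [IsAlgClosed L] (hΔ : W.Δ ≠ 0) (x0 t : L) :
    ∃ P : W.Point, P ≠ 0 ∧ xi W x0 P = t := by
  set x : L := t + x0 with hx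
  have hdeg : (X ^ 2 + C (W.a₁ * x + W.a₃) * X +
      C (-(x ^ 3 + W.a₂ * x ^ 2 + W.a₄ * x + W.a₆)) : L[X]).degree ≠ 0 := by
    have h2 : (C (1 : L) * X ^ 2 + C (W.a₁ * x + W.a₃) * X +
        C (-(x ^ 3 + W.a₂ * x ^ 2 + W.a₄ * x + W.a₆)) : L[X]).degree = 2 :=
      degree_quadratic one_ne_zero
    rw [C_1, one_mul] at h2
    rw [h2]
    exact two_ne_zero
  obtain ⟨y, hy⟩ := IsAlgClosed.exists_root _ hdeg
  have heq : W.Equation x y := by
    rw [Affine.equation_iff]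
    simp only [IsRoot.def, eval_add, eval_pow, eval_X, eval_mul, eval_C] at hy
    linear_combination hy
  have hns : W.Nonsingular x y := (Affine.equation_iff_nonsingular_of_Δ_ne_zero hΔ).mp heq
  refine ⟨Affine.Point.some x y hns, Affine.Point.some_ne_zero hns, ?_⟩
  show x - x0 = t
  rw [hx]
  ring

theorem TorMain.odd_prime_eq {p : ℕ} (hp : p.Prime) (hp2 : p ≠ 2) :
    ∃ k : ℕ, 1 ≤ k ∧ p = 2 * k + 1 := by
  rcases hp.eq_two_or_odd' with h | h
  · exact absurd h hp2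
  · obtain ⟨k, hk⟩ := h
    refine ⟨k, ?_, hk⟩
    have := hp.one_lt
    omega

/-- Existence of a point of odd prime order. -/
theorem exists_torsion_point [IsAlgClosed L] (hx0 : twoTors W x0 = 0) (hΔ : W.Δ ≠ 0) {p : ℕ}
    (hp : p.Prime) (hp2 : p ≠ 2) : ∃ P : W.Point, P ≠ 0 ∧ p • P = 0 := by
  obtain ⟨k, hk, rfl⟩ := TorMain.odd_prime_eq hp hp2
  have hdeg : (torC (b2' W x0) (beta W x0) k).degree ≠ 0 := by
    rw [degree_eq_natDegree (torC_ne_zero _ _ k), torC_natDegree]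
    have : 2 * k ^ 2 + 2 * k ≠ 0 := by positivity
    exact_mod_cast this
  obtain ⟨t, ht⟩ := IsAlgClosed.exists_root _ hdeg
  obtain ⟨P, hP, hPt⟩ := exists_point_of_xi (W := W) hΔ x0 t
  refine ⟨P, hP, nsmul_eq_zero_of_torC_eval hx0 hΔ hk hP ?_⟩
  rw [hPt]
  exact ht

/-- The torsion points lie in a finite set of size at most `p ^ 2`. -/
theorem TorMain.exists_finset (hx0 : twoTors W x0 = 0) (hΔ : W.Δ ≠ 0) {p : ℕ} (hp : p.Prime)
    (hp2 : p ≠ 2) :
    ∃ S : Finset W.Point, S.card ≤ p ^ 2 ∧ ∀ P : W.Point, p • P = 0 → P ∈ S := by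
  classical
  obtain ⟨k, hk, rfl⟩ := TorMain.odd_prime_eq hp hp2
  set R : Finset L := (torC (b2' W x0) (beta W x0) k).roots.toFinset with hR
  have hRcard : R.card ≤ 2 * k ^ 2 + 2 * k := by
    calc R.card ≤ Multiset.card (torC (b2' W x0) (beta W x0) k).roots :=
          Multiset.toFinset_card_le _
      _ ≤ (torC (b2' W x0) (beta W x0) k).natDegree := card_roots' _
      _ = 2 * k ^ 2 + 2 * k := torC_natDegree _ _ k
  let g : L → W.Point := fun t =>
    if h : ∃ P : W.Point, P ≠ 0 ∧ xi W x0 P = t then h.choose else 0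
  refine ⟨insert 0 (R.image g ∪ R.image (fun t => -g t)), ?_, ?_⟩
  · calc (insert 0 (R.image g ∪ R.image (fun t => -g t))).card
        ≤ (R.image g ∪ R.image (fun t => -g t)).card + 1 := Finset.card_insert_le _ _
      _ ≤ (R.image g).card + (R.image (fun t => -g t)).card + 1 :=
          Nat.add_le_add_right (Finset.card_union_le _ _) 1
      _ ≤ R.card + R.card + 1 :=
          Nat.add_le_add_right (Nat.add_le_add Finset.card_image_le Finset.card_image_le) 1
      _ ≤ (2 * k ^ 2 + 2 * k) + (2 * k ^ 2 + 2 * k) + 1 := by omega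
      _ = (2 * k + 1) ^ 2 := by ring
  · intro P hP
    by_cases hP0 : P = 0
    · rw [hP0]
      exact Finset.mem_insert_self _ _
    · have hroot := torC_eval_eq_zero hx0 hΔ hk hP0 hP
      have hmem : xi W x0 P ∈ R := by
        rw [hR, Multiset.mem_toFinset, mem_roots (torC_ne_zero _ _ k)]
        exact hroot
      have hex : ∃ Q : W.Point, Q ≠ 0 ∧ xi W x0 Q = xi W x0 P := ⟨P, hP0, rfl⟩
      have hg : g (xi W x0 P) = hex.choose := dif_pos hex
      obtain ⟨hQ0, hQ⟩ := hex.choose_spec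
      rw [← hg] at hQ0 hQ
      apply Finset.mem_insert_of_mem
      rw [Finset.mem_union, Finset.mem_image, Finset.mem_image]
      rcases eq_or_eq_neg_of_xi_eq hP0 hQ0 hQ.symm with h | h
      · exact Or.inl ⟨_, hmem, h.symm⟩
      · exact Or.inr ⟨_, hmem, h.symm⟩

theorem TorMain.mem_torsionBy {p : ℕ} {P : W.Point}
    (h : P ∈ Submodule.torsionBy ℤ W.Point ((p : ℕ) : ℤ)) : p • P = 0 := by
  rw [Submodule.mem_torsionBy_iff, natCast_zsmul] at h
  exact h

theorem finite_torsion (hx0 : twoTors W x0 = 0) (hΔ : W.Δ ≠ 0) {p : ℕ} (hp : p.Prime)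
    (hp2 : p ≠ 2) : Finite (Submodule.torsionBy ℤ W.Point ((p : ℕ) : ℤ)) := by
  obtain ⟨S, -, hS⟩ := TorMain.exists_finset hx0 hΔ hp hp2
  exact Finite.of_injective
    (fun v : Submodule.torsionBy ℤ W.Point ((p : ℕ) : ℤ) =>
      (⟨v.1, hS v.1 (TorMain.mem_torsionBy v.2)⟩ : S))
    (fun v w h => Subtype.ext (congrArg (fun u : S => u.1) h))

theorem card_torsion_le (hx0 : twoTors W x0 = 0) (hΔ : W.Δ ≠ 0) {p : ℕ} (hp : p.Prime)
    (hp2 : p ≠ 2) : Nat.card (Submodule.torsionBy ℤ W.Point ((p : ℕ) : ℤ)) ≤ p ^ 2 := by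
  obtain ⟨S, hcard, hS⟩ := TorMain.exists_finset hx0 hΔ hp hp2
  have h1 : Nat.card (Submodule.torsionBy ℤ W.Point ((p : ℕ) : ℤ)) ≤ Nat.card S :=
    Nat.card_le_card_of_injective
      (fun v : Submodule.torsionBy ℤ W.Point ((p : ℕ) : ℤ) =>
        (⟨v.1, hS v.1 (TorMain.mem_torsionBy v.2)⟩ : S))
      (fun v w h => Subtype.ext (congrArg (fun u : S => u.1) h))
  have h2 : Nat.card S = S.card := by
    rw [Nat.card_eq_fintype_card, Fintype.card_coe]
  rw [h2] at h1
  exact h1.trans hcard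

end Fermat.Agent.S13
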