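import Mathlib
import Fermat.Prelude.Def_FLTPrelim_FreyPackage
import Fermat.Prelude.Def_FLTPrelim_GaloisRep
import Fermat.Agent.S05.Formulas
import Fermat.Agent.S05.Action
import Fermat.Agent.S05.Frey
import Fermat.Agent.S13.TorPoly
import Fermat.Agent.S13.TorDeg
import Fermat.Agent.S13.TorInv
import Fermat.Agent.S13.TorMain

set_option autoImplicit false

/-!
# S13, torsion part for the Frey curve: `E[p] ≠ 0`, `#E[p] ≤ p²`, and the product of the
`x`-coordinates of the nonzero `p`-torsion points (when `#E[p] = p²`).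
-/

namespace Fermat.Agent.S13

open WeierstrassCurve WeierstrassCurve.Affine WeierstrassCurve.Affine.Point

local notation "K" => AlgebraicClosure ℚ

theorem frey_twoTors_zero (P : FreyPackage) :
    Fermat.Agent.S05.twoTors (P.freyCurve⁄K) 0 = 0 := by
  have h := Fermat.Agent.S05.twoTors_baseChange P.freyCurve 0
  rw [_root_.map_zero] at h
  rw [h]
  simp [Fermat.Agent.S05.twoTors, Fermat.Agent.S05.Frey.b₆_eq]

theorem frey_Δ_ne_zero (P : FreyPackage) : (P.freyCurve⁄K).Δ ≠ 0 := by
  rw [Fermat.Agent.S05.delta_baseChange, Fermat.Agent.S05.Frey.Δ_eq]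
  intro h
  rw [map_eq_zero] at h
  have h0 : ((P.a ^ P.p * P.b ^ P.p * P.c ^ P.p) ^ 2 : ℤ) ≠ 0 :=
    pow_ne_zero _ (mul_ne_zero (mul_ne_zero (pow_ne_zero _ P.ha0) (pow_ne_zero _ P.hb0))
      (pow_ne_zero _ P.hc0))
  rw [div_eq_zero_iff] at h
  rcases h with h | h
  · exact h0 (by exact_mod_cast h)
  · norm_num at h

theorem TorProd.p_ne_two (P : FreyPackage) : P.p ≠ 2 := by
  have := P.hp5
  omega

theorem frey_nontrivial (P : FreyPackage) :
    Nontrivial (Submodule.torsionBy ℤ (P.freyCurve⁄K).Point P.p) := by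
  obtain ⟨Q, hQ, hpQ⟩ := exists_torsion_point (frey_twoTors_zero P) (frey_Δ_ne_zero P) P.pp
    (TorProd.p_ne_two P)
  have hmem : Q ∈ Submodule.torsionBy ℤ (P.freyCurve⁄K).Point P.p := by
    rw [Submodule.mem_torsionBy_iff, natCast_zsmul]
    exact hpQ
  exact ⟨⟨⟨Q, hmem⟩, 0, fun h => hQ (congrArg Subtype.val h)⟩⟩

theorem frey_finite (P : FreyPackage) :
    Finite (Submodule.torsionBy ℤ (P.freyCurve⁄K).Point P.p) :=
  finite_torsion (frey_twoTors_zero P) (frey_Δ_ne_zero P) P.pp (TorProd.p_ne_two P)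

theorem frey_card_le (P : FreyPackage) :
    Nat.card (Submodule.torsionBy ℤ (P.freyCurve⁄K).Point P.p) ≤ P.p ^ 2 :=
  card_torsion_le (frey_twoTors_zero P) (frey_Δ_ne_zero P) P.pp (TorProd.p_ne_two P)

/-- The parameters `b`, `β` of the Frey curve at `x0 = 0` are integers. -/
theorem TorProd.exists_int_params (P : FreyPackage) :
    ∃ bZ βZ : ℤ, Fermat.Agent.S05.b2' (P.freyCurve⁄K) 0 = Int.castRingHom K bZ ∧
      Fermat.Agent.S05.beta (P.freyCurve⁄K) 0 = Int.castRingHom K βZ := by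
  have h16 : (16 : ℤ) ∣ P.b ^ P.p := by
    have h2 : (2 : ℤ) ∣ P.b := (ZMod.intCast_zmod_eq_zero_iff_dvd P.b 2).1 P.hb2
    have h4 : (2 : ℤ) ^ 4 ∣ P.b ^ P.p :=
      (pow_dvd_pow_of_dvd h2 4).trans (pow_dvd_pow _ (by have := P.hp5; omega))
    norm_num at h4
    exact h4
  obtain ⟨m, hm⟩ := h16
  have hm' : (P.b : ℚ) ^ P.p = 16 * (m : ℚ) := by exact_mod_cast hm
  refine ⟨P.b ^ P.p - P.a ^ P.p, -(P.a ^ P.p * m), ?_, ?_⟩
  · have h := Fermat.Agent.S05.b2'_baseChange P.freyCurve 0
    rw [_root_.map_zero] at h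
    have hq : Fermat.Agent.S05.b2' P.freyCurve 0 = ((P.b ^ P.p - P.a ^ P.p : ℤ) : ℚ) := by
      rw [Fermat.Agent.S05.b2', Fermat.Agent.S05.Frey.b₂_eq]
      push_cast
      ring
    rw [h, hq, map_intCast, eq_intCast]
  · have h := Fermat.Agent.S05.beta_baseChange P.freyCurve 0
    rw [_root_.map_zero] at h
    have hq : Fermat.Agent.S05.beta P.freyCurve 0 = ((-(P.a ^ P.p * m) : ℤ) : ℚ) := by
      rw [Fermat.Agent.S05.beta, Fermat.Agent.S05.Frey.b₂_eq, Fermat.Agent.S05.Frey.b₄_eq, hm']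
      push_cast
      ring
    rw [h, hq, map_intCast, eq_intCast]

open Polynomial in
/-- If the values `f v` are roots of `C`, the fibres of `f` are the orbits of a fixed-point-free
involution-like map and `#T = 2 deg C`, then `lc(C)² ∏ f v = C(0)²`. -/
theorem TorProd.prod_sq_aux {T : Type*} [Fintype T] [DecidableEq T] {F : Type*} [Field F]
    [DecidableEq F] (f : T → F) (neg : T → T) (hneg : ∀ v, neg v ≠ v)
    (hf : ∀ v, f (neg v) = f v) (hfib : ∀ v w, f v = f w → v = w ∨ v = neg w)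
    (C : F[X]) (hC0 : C ≠ 0) (hC : ∀ v, C.eval (f v) = 0)
    (hcard : Fintype.card T = 2 * C.natDegree) :
    C.leadingCoeff ^ 2 * ∏ v, f v = (C.eval 0) ^ 2 := by
  set X : Finset F := Finset.univ.image f with hX
  have hfibcard : ∀ r ∈ X, (Finset.univ.filter fun v => f v = r).card = 2 := by
    intro r hr
    obtain ⟨w, -, rfl⟩ := Finset.mem_image.mp hr
    have : (Finset.univ.filter fun v => f v = f w) = {w, neg w} := by
      ext v
      simp only [Finset.mem_filter, Finset.mem_univ, true_and, Finset.mem_insert,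
        Finset.mem_singleton]
      constructor
      · exact hfib v w
      · rintro (rfl | rfl)
        · rfl
        · exact hf _
    rw [this, Finset.card_pair (hneg w).symm]
  have hXcard : X.card = C.natDegree := by
    have h1 := Finset.card_eq_sum_card_image f Finset.univ
    rw [Finset.card_univ, hcard, ← hX, Finset.sum_congr rfl hfibcard, Finset.sum_const,
      smul_eq_mul] at h1
    omega
  have hle : X.val ≤ C.roots := by
    rw [Multiset.le_iff_subset X.nodup]
    intro r hr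
    obtain ⟨w, -, rfl⟩ := Finset.mem_image.mp (Finset.mem_val.mp hr)
    exact (mem_roots hC0).mpr (hC w)
  have hroots : X.val = C.roots :=
    Multiset.eq_of_le_of_card_le hle ((card_roots' C).trans (le_of_eq hXcard.symm))
  have hcr : Multiset.card C.roots = C.natDegree := by
    rw [← hroots]
    exact hXcard
  have hfac := C_leadingCoeff_mul_prod_multiset_X_sub_C hcr
  have heval : C.eval 0 = C.leadingCoeff * ∏ r ∈ X, (-r) := by
    conv_lhs => rw [← hfac]
    rw [eval_mul, eval_C, eval_multiset_prod, ← hroots, Multiset.map_map,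
      Finset.prod_eq_multiset_prod]
    congr 2
    exact Multiset.map_congr rfl fun r _ => by simp
  have hprod : ∏ v, f v = ∏ r ∈ X, r ^ 2 := by
    have h1 := Finset.prod_comp (s := (Finset.univ : Finset T)) (fun r : F => r) f
    rw [h1]
    exact Finset.prod_congr rfl fun r hr => by rw [hfibcard r hr]
  rw [heval, hprod, mul_pow, ← Finset.prod_pow]
  congr 1
  exact Finset.prod_congr rfl fun r _ => by ring

/-- `p² · ∏_{v ≠ 0} x(v)` is an integer when `#E[p] = p²`. -/
theorem prod_xi_torsion (P : FreyPackage)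
    (hcard : Nat.card (Submodule.torsionBy ℤ (P.freyCurve⁄K).Point P.p) = P.p ^ 2) :
    ∃ c : ℤ, ((P.p : ℕ) : K) ^ 2 *
      ∏ᶠ v : {v : Submodule.torsionBy ℤ (P.freyCurve⁄K).Point P.p // v ≠ 0},
        Fermat.Agent.S05.xi (P.freyCurve⁄K) 0
          (v : Submodule.torsionBy ℤ (P.freyCurve⁄K).Point P.p).1 = (c : K) := by
  classical
  obtain ⟨k, hk⟩ := P.hp_odd
  have hk1 : 1 ≤ k := by
    have := P.hp5
    omega
  obtain ⟨bZ, βZ, hb, hβ⟩ := TorProd.exists_int_params P
  have hx0 := frey_twoTors_zero P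
  have hΔ := frey_Δ_ne_zero P
  have := frey_finite P
  have : Fintype (Submodule.torsionBy ℤ (P.freyCurve⁄K).Point P.p) := Fintype.ofFinite _
  set V := Submodule.torsionBy ℤ (P.freyCurve⁄K).Point P.p with hV
  set C : Polynomial K := torC (Fermat.Agent.S05.b2' (P.freyCurve⁄K) 0)
    (Fermat.Agent.S05.beta (P.freyCurve⁄K) 0) k with hCdef
  have hCmap : C = (torC bZ βZ k).map (Int.castRingHom K) := by
    rw [hCdef, hb, hβ, torC_map]
  have hCdeg : C.natDegree = 2 * k ^ 2 + 2 * k := torC_natDegree _ _ k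
  have hC0 : C ≠ 0 := torC_ne_zero _ _ k
  have hlc : C.leadingCoeff = -((P.p : ℕ) : K) := by
    rw [Polynomial.leadingCoeff, hCdeg, hCdef, torC_coeff, hk]
  -- torsion facts
  have htor : ∀ v : V, (2 * k + 1) • (v : (P.freyCurve⁄K).Point) = 0 := by
    intro v
    have h := v.2
    rw [Submodule.mem_torsionBy_iff, natCast_zsmul, hk] at h
    exact h
  have hne : ∀ v : {v : V // v ≠ 0}, ((v : V) : (P.freyCurve⁄K).Point) ≠ 0 := by
    intro v h
    exact v.2 (Subtype.ext h)
  let f : {v : V // v ≠ 0} → K := fun v =>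
    Fermat.Agent.S05.xi (P.freyCurve⁄K) 0 ((v : V) : (P.freyCurve⁄K).Point)
  let ng : {v : V // v ≠ 0} → {v : V // v ≠ 0} := fun v => ⟨-(v : V), neg_ne_zero.mpr v.2⟩
  have hng : ∀ v, ng v ≠ v := by
    intro v h
    have h1 : -((v : V) : (P.freyCurve⁄K).Point) = ((v : V) : (P.freyCurve⁄K).Point) :=
      congrArg (fun w : {v : V // v ≠ 0} => ((w : V) : (P.freyCurve⁄K).Point)) h
    have h2 : 2 • ((v : V) : (P.freyCurve⁄K).Point) = 0 := by
      rw [two_nsmul]
      nth_rewrite 1 [← h1]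
      exact neg_add_cancel _
    have h3 := htor v.1
    rw [add_smul, mul_smul, one_smul] at h3
    rw [smul_comm, h2, nsmul_zero, zero_add] at h3
    exact hne v h3
  have hf : ∀ v, f (ng v) = f v := fun v => Fermat.Agent.S05.xi_neg _
  have hfib : ∀ v w, f v = f w → v = w ∨ v = ng w := by
    intro v w h
    rcases Fermat.Agent.S05.eq_or_eq_neg_of_xi_eq (hne v) (hne w) h with h1 | h1
    · exact Or.inl (Subtype.ext (Subtype.ext h1))
    · exact Or.inr (Subtype.ext (Subtype.ext h1))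
  have hroot : ∀ v, C.eval (f v) = 0 := fun v =>
    torC_eval_eq_zero hx0 hΔ hk1 (hne v) (htor v.1)
  have hcardT : Fintype.card {v : V // v ≠ 0} = 2 * C.natDegree := by
    have h1 : Fintype.card V = P.p ^ 2 := by rw [← Nat.card_eq_fintype_card, hcard]
    rw [Fintype.card_subtype, Finset.filter_ne', Finset.card_erase_of_mem (Finset.mem_univ _),
      Finset.card_univ, h1, hCdeg, hk]
    have : (2 * k + 1) ^ 2 = 2 * (2 * k ^ 2 + 2 * k) + 1 := by ring
    omega
  have hmain := TorProd.prod_sq_aux f ng hng hf hfib C hC0 hroot hcardT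
  refine ⟨((torC bZ βZ k).eval 0) ^ 2, ?_⟩
  rw [finprod_eq_prod_of_fintype]
  rw [hlc, neg_sq] at hmain
  rw [hmain, hCmap, Polynomial.eval_zero_map]
  simp

end Fermat.Agent.S13
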