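import Mathlib
import Fermat.Prelude.Def_FLTPrelim_FreyPackage
import Fermat.Prelude.Def_FLTPrelim_GaloisRep
import Fermat.Prelude.Def_FLTPrelim_Ramification
import Fermat.Prelude.Def_FLTPrelim_CofixedLine
import Fermat.Agent.S05
import Fermat.Agent.S54.Frobenius
import Fermat.Agent.S13.Asm
import Fermat.Agent.S13.TorProd
import Fermat.Agent.S13.GlobMain
import Fermat.Agent.S13.LocMain

set_option autoImplicit false
open WeierstrassCurve WeierstrassCurve.Affine WeierstrassCurve.Affine.Point

/-!
# S13, assembly: a reducible Frey representation has a Galois-stable cofixed line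
-/

namespace Fermat.Agent.S13

/-- If the `p`-torsion of the Frey curve has a proper nonzero submodule, it has exactly `p²`
elements. -/
theorem frey_card_eq (P : FreyPackage)
    (N : Submodule (ZMod P.p) (Submodule.torsionBy ℤ (P.freyCurve⁄(AlgebraicClosure ℚ)).Point P.p))
    (hbot : N ≠ ⊥) (htop : N ≠ ⊤) :
    Nat.card (Submodule.torsionBy ℤ (P.freyCurve⁄(AlgebraicClosure ℚ)).Point P.p) = P.p ^ 2 := by
  have : Fact P.p.Prime := ⟨P.pp⟩
  have := frey_finite P
  have : Module.Finite (ZMod P.p)
      (Submodule.torsionBy ℤ (P.freyCurve⁄(AlgebraicClosure ℚ)).Point P.p) :=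
    Module.Finite.of_finite
  have h1 : 0 < Module.finrank (ZMod P.p) N := by
    rw [Module.finrank_pos_iff_exists_ne_zero]
    obtain ⟨x, hx, hx0⟩ := (Submodule.ne_bot_iff N).mp hbot
    exact ⟨⟨x, hx⟩, fun h => hx0 (congrArg Subtype.val h)⟩
  have h2 : Module.finrank (ZMod P.p) N <
      Module.finrank (ZMod P.p)
        (Submodule.torsionBy ℤ (P.freyCurve⁄(AlgebraicClosure ℚ)).Point P.p) :=
    Submodule.finrank_lt htop
  have h3 : Nat.card (Submodule.torsionBy ℤ (P.freyCurve⁄(AlgebraicClosure ℚ)).Point P.p) =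
      P.p ^ Module.finrank (ZMod P.p)
        (Submodule.torsionBy ℤ (P.freyCurve⁄(AlgebraicClosure ℚ)).Point P.p) := by
    rw [Module.natCard_eq_pow_finrank (K := ZMod P.p), Nat.card_zmod]
  refine le_antisymm (frey_card_le P) ?_
  rw [h3]
  exact Nat.pow_le_pow_right P.pp.pos (by omega)

theorem cofixed_of_reducible (P : FreyPackage) (hred : ¬ GaloisRepIsIrreducible (K := AlgebraicClosure ℚ) ℚ P.freyCurve P.p) : HasGaloisStableCofixedLine (K := AlgebraicClosure ℚ) ℚ P.freyCurve P.p := by
  -- a Galois-stable line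
  have hex : ∃ N : Submodule (ZMod P.p)
      (Submodule.torsionBy ℤ (P.freyCurve⁄(AlgebraicClosure ℚ)).Point P.p),
      IsGaloisStable ℚ N ∧ N ≠ ⊥ ∧ N ≠ ⊤ := by
    by_contra hno
    apply hred
    refine ⟨frey_nontrivial P, fun N hN => ?_⟩
    by_contra h
    rw [not_or] at h
    exact hno ⟨N, hN, h.1, h.2⟩
  obtain ⟨N, hN, hbot, htop⟩ := hex
  have hcard := frey_card_eq P N hbot htop
  have hprod := prod_xi_torsion P hcard
  have := frey_finite P
  -- the place above `p`
  obtain ⟨Ap, hAp⟩ := Fermat.Agent.S54.exists_valuationSubring_liesOver P.p P.pp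
  -- a normal subgroup containing enough inertia is everything
  have key : ∀ (H : Subgroup (AlgebraicClosure ℚ ≃ₐ[ℚ] AlgebraicClosure ℚ)), H.Normal →
      (∀ σ : AlgebraicClosure ℚ ≃ₐ[ℚ] AlgebraicClosure ℚ,
        (∀ x : Submodule.torsionBy ℤ (P.freyCurve⁄(AlgebraicClosure ℚ)).Point P.p, σ • x = x) →
          σ ∈ H) →
      (∀ (A : ValuationSubring (AlgebraicClosure ℚ)), A.LiesOverPrime 2 →
        A.inertiaSubgroupIn ℚ ≤ H) →
      Ap.inertiaSubgroupIn ℚ ≤ H → H = ⊤ := by
    intro H hHn hfix h2 hp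
    have := hHn
    refine eq_top_of_inertia_le H (coordSet P.freyCurve P.p)
      (fun σ hσ => hfix σ (smul_eq_self_of_coordSet σ hσ)) ?_
    intro ℓ hℓ
    by_cases hℓp : ℓ = P.p
    · subst hℓp
      exact ⟨Ap, hAp, hp⟩
    · obtain ⟨A, hA⟩ := Fermat.Agent.S54.exists_valuationSubring_liesOver ℓ hℓ
      refine ⟨A, hA, ?_⟩
      by_cases hℓ2 : ℓ = 2
      · subst hℓ2
        exact h2 A hA
      · intro σ hσ
        exact hfix σ (Fermat.Agent.S05.result P hℓ hℓ2 hℓp A hA σ hσ)
  rcases inertia_p P N hN hbot htop hcard hprod Ap hAp with hfixp | hquotp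
  · -- inertia at `p` fixes `N`: then everything fixes `N`, impossible
    exfalso
    have htop' : fixSub N = ⊤ := by
      refine key (fixSub N) (fixSub_normal hN) (fun σ hσ x _ => hσ x) ?_ ?_
      · intro A hA τ hτ
        exact (inertia_two P N hN hbot htop hcard A hA τ hτ).1
      · intro τ hτ
        exact hfixp τ hτ
    apply hbot
    rw [Submodule.eq_bot_iff]
    intro x hx
    apply no_fixed_torsion P x
    intro σ
    have hσ : σ ∈ fixSub N := by rw [htop']; exact Subgroup.mem_top σ
    exact hσ x hx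
  · -- inertia at `p` acts trivially on the quotient: then everything does
    have htop' : quotSub N hN = ⊤ := by
      refine key (quotSub N hN) (quotSub_normal hN) (fun σ hσ x => ?_) ?_ ?_
      · rw [hσ x, sub_self]
        exact N.zero_mem
      · intro A hA τ hτ
        exact (inertia_two P N hN hbot htop hcard A hA τ hτ).2
      · intro τ hτ
        exact hquotp τ hτ
    refine ⟨N, hN, hbot, htop, ?_⟩
    intro σ
    have hσ : σ ∈ quotSub N hN := by rw [htop']; exact Subgroup.mem_top σ
    exact hσ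

end Fermat.Agent.S13
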