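import Fermat.Agent.S05.Formulas

set_option autoImplicit false

namespace Fermat.Agent.S13

open WeierstrassCurve Fermat.Agent.S05

variable {L : Type*} [Field L]

/-- Kernel of reduction, in the shifted coordinate `ξ = x - x0`: the point at infinity or a point
whose `ξ` is not integral. -/
def InK (A : ValuationSubring L) (W : Affine L) (x0 : L) (P : W.Point) : Prop :=
  P = 0 ∨ 1 < A.valuation (xi W x0 P)

/-- The `y`-coordinate of a point (junk value `0` at the point at infinity). -/
def ycoord (W : Affine L) : W.Point → L
  | .zero => 0
  | .some _ y _ => y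

theorem inK_zero (A : ValuationSubring L) (W : Affine L) (x0 : L) : InK A W x0 (0 : W.Point) :=
  Or.inl rfl

theorem inK_iff {A : ValuationSubring L} {W : Affine L} {x0 : L} {P : W.Point} (hP : P ≠ 0) :
    InK A W x0 P ↔ 1 < A.valuation (xi W x0 P) := by
  unfold InK
  constructor
  · rintro (h | h)
    · exact absurd h hP
    · exact h
  · exact fun h => Or.inr h

/-- The kernel of reduction does not depend on an integral shift of the `x`-coordinate. -/
theorem inK_shift {A : ValuationSubring L} {W : Affine L} {x0 : L} (hx0 : A.valuation x0 ≤ 1)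
    {P : W.Point} : InK A W x0 P ↔ InK A W 0 P := by
  rcases P with _ | ⟨x, y, h⟩
  · exact ⟨fun _ => Or.inl rfl, fun _ => Or.inl rfl⟩
  · have hne : (Affine.Point.some x y h : W.Point) ≠ 0 := by
      intro h0
      cases h0
    rw [inK_iff hne, inK_iff hne]
    show 1 < A.valuation (x - x0) ↔ 1 < A.valuation (x - 0)
    rw [sub_zero]
    constructor
    · intro h1
      by_contra h2
      rw [not_lt] at h2
      exact absurd h1 (not_lt.mpr ((A.valuation.map_sub x x0).trans (max_le h2 hx0)))
    · intro h1
      have hlt : A.valuation x0 < A.valuation x := lt_of_le_of_lt hx0 h1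
      rw [Valuation.map_sub_eq_of_lt_left _ hlt]
      exact h1

end Fermat.Agent.S13
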