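import Fermat.Agent.S13.LocDefs

set_option autoImplicit false
set_option linter.unusedSectionVars false

namespace Fermat.Agent.S13

open WeierstrassCurve Fermat.Agent.S05

variable {L : Type*} [Field L] [DecidableEq L] [CharZero L] {W : Affine L} {x0 : L}

/-- (F5) sign-resolved subtraction formula in the shifted coordinate. -/
theorem four_xi_sub {P Q : W.Point} (hP : P ≠ 0) (hQ : Q ≠ 0) (h : xi W x0 P ≠ xi W x0 Q) :
    4 * xi W x0 (P - Q) * (xi W x0 P - xi W x0 Q) ^ 2 =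
      (eta W P + eta W Q) ^ 2 -
        (b2' W x0 + 4 * xi W x0 P + 4 * xi W x0 Q) * (xi W x0 P - xi W x0 Q) ^ 2 := by
  rcases P with _ | ⟨x₁, y₁, h₁⟩
  · exact absurd rfl hP
  rcases Q with _ | ⟨x₂, y₂, h₂⟩
  · exact absurd rfl hQ
  have hx : x₁ ≠ x₂ := fun e => h (by rw [xi, xi, e])
  rw [FormulasAdd.xi_sub_some h₁ h₂ hx]
  exact FormulasAdd.aux_sub y₁ y₂ hx

omit [DecidableEq L] [CharZero L] in
/-- The chord formula for `P - Q` in terms of the `y`-coordinates. -/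
theorem LocF5.aux_sub_y {x₁ x₂ : L} (y₁ y₂ : L) (hx : x₁ ≠ x₂) :
    (W.addX x₁ x₂ ((y₁ - W.negY x₂ y₂) / (x₁ - x₂)) - 0) * ((x₁ - 0) - (x₂ - 0)) ^ 2 =
      (y₁ + y₂ + W.a₁ * (x₂ - 0) + W.a₃) ^ 2 +
        W.a₁ * (y₁ + y₂ + W.a₁ * (x₂ - 0) + W.a₃) * ((x₁ - 0) - (x₂ - 0)) -
        (W.a₂ + (x₁ - 0) + (x₂ - 0)) * ((x₁ - 0) - (x₂ - 0)) ^ 2 := by
  have hne : x₁ - x₂ ≠ 0 := sub_ne_zero.mpr hx
  simp only [Affine.addX, Affine.negY, sub_zero]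
  field_simp
  ring

/-- (F5y) subtraction formula in terms of the `y`-coordinates (unshifted `x`). -/
theorem xi_sub_y {P Q : W.Point} (hP : P ≠ 0) (hQ : Q ≠ 0) (h : xi W 0 P ≠ xi W 0 Q) :
    xi W 0 (P - Q) * (xi W 0 P - xi W 0 Q) ^ 2 =
      (ycoord W P + ycoord W Q + W.a₁ * xi W 0 Q + W.a₃) ^ 2 +
        W.a₁ * (ycoord W P + ycoord W Q + W.a₁ * xi W 0 Q + W.a₃) * (xi W 0 P - xi W 0 Q) -
        (W.a₂ + xi W 0 P + xi W 0 Q) * (xi W 0 P - xi W 0 Q) ^ 2 := by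
  rcases P with _ | ⟨x₁, y₁, h₁⟩
  · exact absurd rfl hP
  rcases Q with _ | ⟨x₂, y₂, h₂⟩
  · exact absurd rfl hQ
  have hx : x₁ ≠ x₂ := fun e => h (by rw [xi, xi, e])
  rw [FormulasAdd.xi_sub_some h₁ h₂ hx]
  exact LocF5.aux_sub_y y₁ y₂ hx

theorem eta_eq_y {P : W.Point} (hP : P ≠ 0) :
    eta W P = 2 * ycoord W P + W.a₁ * xi W 0 P + W.a₃ := by
  rcases P with _ | ⟨x, y, hxy⟩
  · exact absurd rfl hP
  show 2 * y + W.a₁ * x + W.a₃ = 2 * y + W.a₁ * (x - 0) + W.a₃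
  rw [sub_zero]

theorem equation_y {P : W.Point} (hP : P ≠ 0) :
    ycoord W P ^ 2 + W.a₁ * xi W 0 P * ycoord W P + W.a₃ * ycoord W P =
      xi W 0 P ^ 3 + W.a₂ * xi W 0 P ^ 2 + W.a₄ * xi W 0 P + W.a₆ := by
  rcases P with _ | ⟨x, y, hxy⟩
  · exact absurd rfl hP
  show y ^ 2 + W.a₁ * (x - 0) * y + W.a₃ * y =
    (x - 0) ^ 3 + W.a₂ * (x - 0) ^ 2 + W.a₄ * (x - 0) + W.a₆
  rw [sub_zero]
  exact (Affine.equation_iff x y).mp hxy.1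

theorem ycoord_neg {P : W.Point} (hP : P ≠ 0) :
    ycoord W (-P) = -ycoord W P - W.a₁ * xi W 0 P - W.a₃ := by
  rcases P with _ | ⟨x, y, hxy⟩
  · exact absurd rfl hP
  rw [Affine.Point.neg_some]
  show W.negY x y = -y - W.a₁ * (x - 0) - W.a₃
  rw [sub_zero]
  rfl

end Fermat.Agent.S13
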