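import Mathlib
import Fermat.Prelude.Def_FLTPrelim_Ramification
import Fermat.Prelude.Def_FLTPrelim_GaloisRep
import Fermat.Agent.S05.Ord
import Fermat.Agent.S05.OrdLemmas
import Fermat.Agent.S05.Inertia
import Fermat.Agent.S05.Action
import Fermat.Agent.S13.LocDefs

set_option autoImplicit false

namespace Fermat.Agent.S13

open WeierstrassCurve WeierstrassCurve.Affine WeierstrassCurve.Affine.Point Fermat.Agent.S05

local notation "K" => AlgebraicClosure ℚ

theorem ycoord_smul (E : WeierstrassCurve ℚ) (σ : K ≃ₐ[ℚ] K) (Q : (E⁄K).Point) :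
    ycoord (E⁄K) (σ • Q) = σ (ycoord (E⁄K) Q) := by
  rcases Q with _ | ⟨x, y, h⟩
  · change ycoord (E⁄K) (Point.zero) = σ (ycoord (E⁄K) Point.zero)
    simp only [ycoord, _root_.map_zero]
  · rfl

theorem xi_zero_smul (E : WeierstrassCurve ℚ) (σ : K ≃ₐ[ℚ] K) (Q : (E⁄K).Point) :
    xi (E⁄K) 0 (σ • Q) = σ (xi (E⁄K) 0 Q) := by
  have h := xi_smul E σ 0 Q
  rwa [_root_.map_zero] at h

/-- Inertia elements preserve the valuation. -/
theorem inertia_valuation_apply {A : ValuationSubring K} {σ : K ≃ₐ[ℚ] K}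
    (hσ : σ ∈ A.inertiaSubgroupIn ℚ) (a : K) : A.valuation (σ a) = A.valuation a :=
  Inertia.valuation_apply_of_mem_decomposition A σ (Inertia.inertia_mem_decomposition hσ) a

/-- An element of `ℚ̄` fixed by the whole Galois group is rational. -/
theorem exists_rat_of_fixed (x : K) (h : ∀ σ : K ≃ₐ[ℚ] K, σ x = x) :
    ∃ r : ℚ, algebraMap ℚ K r = x := by
  have hG : IsGalois ℚ K := inferInstance
  exact (InfiniteGalois.mem_range_algebraMap_iff_fixed x).mpr h

/-- A rational number in `ℚ̄` as a quotient of integers. -/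
theorem LocGal.algebraMap_rat (r : ℚ) :
    algebraMap ℚ K r = ((r.num : ℤ) : K) / ((r.den : ℕ) : K) := by
  conv_lhs => rw [← Rat.num_div_den r]
  rw [map_div₀, map_intCast, map_natCast]

/-- Integers divisible by the residue characteristic are non-units. -/
theorem LocGal.valuation_intCast_lt_one_of_dvd {A : ValuationSubring K} {q : ℕ}
    (hA : A.LiesOverPrime q) {n : ℤ} (hn : (q : ℤ) ∣ n) : A.valuation ((n : ℤ) : K) < 1 := by
  obtain ⟨k, rfl⟩ := hn
  rw [Int.cast_mul, map_mul, Int.cast_natCast]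
  exact lt_of_le_of_lt (mul_le_of_le_one_right' (valuation_intCast_le_one k))
    (valuation_prime_lt_one hA)

/-- An order function normalised at `q`, with integer values on nonzero rationals and nonnegative
values on nonzero integers. -/
theorem exists_ordFun_rat (A : ValuationSubring K) {q : ℕ} (hq : q.Prime)
    (hA : A.LiesOverPrime q) :
    ∃ O : OrdFun A, O.ord ((q : ℕ) : K) = 1 ∧
      (∀ r : ℚ, r ≠ 0 → ∃ k : ℤ, O.ord (algebraMap ℚ K r) = k) ∧
      (∀ n : ℤ, n ≠ 0 → 0 ≤ O.ord ((n : ℤ) : K)) ∧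
      (∀ (m : ℤ) (e : ℕ), ¬ (q : ℤ) ∣ m → O.ord (((q : ℕ) : K) ^ e * (m : K)) = e) := by
  obtain ⟨O, hq1, hIs⟩ := exists_ordFun_strong A hq hA
  have hA' : ((q : ℕ) : K) ∈ A.nonunits := hA
  have hq0 : ((q : ℕ) : K) ≠ 0 := Nat.cast_ne_zero.mpr hq.ne_zero
  have hD : ∀ (m : ℤ) (e : ℕ), ¬ (q : ℤ) ∣ m →
      O.ord (((q : ℕ) : K) ^ e * (m : K)) = e := by
    intro m e hm
    have hm0 : ((m : ℤ) : K) ≠ 0 := by
      intro h0
      apply hm
      have h1 : m = 0 := by exact_mod_cast h0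
      rw [h1]
      exact dvd_zero _
    have hx : ((q : ℕ) : K) ^ e * (m : K) ≠ 0 := mul_ne_zero (pow_ne_zero _ hq0) hm0
    refine OrdAux.isOrd_unique A hq hA' (hIs _ hx) ⟨1, one_pos, (e : ℤ), ?_, ?_⟩
    · rw [pow_one, map_mul, map_pow, valuation_intCast_eq_one hq hA hm, mul_one, zpow_natCast]
    · simp
  have hint : ∀ n : ℤ, n ≠ 0 → ∃ e : ℕ, O.ord ((n : ℤ) : K) = e := by
    intro n hn
    have hfin : FiniteMultiplicity (q : ℤ) n :=
      Int.finiteMultiplicity_iff.mpr ⟨by simpa using hq.ne_one, hn⟩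
    obtain ⟨m, hnm, hm⟩ := hfin.exists_eq_pow_mul_and_not_dvd
    refine ⟨multiplicity (q : ℤ) n, ?_⟩
    have h1 := hD m (multiplicity (q : ℤ) n) hm
    rw [← h1]
    conv_lhs => rw [hnm]
    push_cast
    rfl
  refine ⟨O, hq1, ?_, ?_, hD⟩
  · intro r hr
    have hnum0 : r.num ≠ 0 := Rat.num_ne_zero.mpr hr
    have hden0 : (r.den : ℤ) ≠ 0 := by exact_mod_cast r.den_ne_zero
    obtain ⟨e1, he1⟩ := hint r.num hnum0
    obtain ⟨e2, he2⟩ := hint (r.den : ℤ) hden0
    rw [Int.cast_natCast] at he2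
    refine ⟨(e1 : ℤ) - e2, ?_⟩
    rw [LocGal.algebraMap_rat, O.ord_div (Int.cast_ne_zero.mpr hnum0)
      (Nat.cast_ne_zero.mpr r.den_ne_zero), he1, he2]
    push_cast
    rfl
  · intro n hn
    exact (O.ord_nonneg_iff (Int.cast_ne_zero.mpr hn)).mpr (valuation_intCast_le_one n)

/-- A rational number which is a `2`-adic unit is congruent to `1`. -/
theorem valuation_rat_sub_one_lt (A : ValuationSubring K) (hA : A.LiesOverPrime 2) (r : ℚ)
    (h : A.valuation (algebraMap ℚ K r) = 1) : A.valuation (algebraMap ℚ K r - 1) < 1 := by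
  have h2 : Nat.Prime 2 := Nat.prime_two
  have hden0 : ((r.den : ℕ) : K) ≠ 0 := Nat.cast_ne_zero.mpr r.den_ne_zero
  have hvden0 : A.valuation ((r.den : ℕ) : K) ≠ 0 := (map_ne_zero _).mpr hden0
  rw [LocGal.algebraMap_rat] at h ⊢
  rw [map_div₀] at h
  have hveq : A.valuation ((r.num : ℤ) : K) = A.valuation ((r.den : ℕ) : K) := by
    rwa [div_eq_one_iff_eq hvden0] at h
  have hden : ¬ (2 : ℕ) ∣ r.den := by
    intro hd
    have hnum : ¬ ((2 : ℕ) : ℤ) ∣ r.num := by
      intro hn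
      have h1 : (2 : ℕ) ∣ r.num.natAbs := Int.natCast_dvd.mp hn
      have h3 := Nat.dvd_gcd h1 hd
      rw [r.reduced] at h3
      exact absurd h3 (by norm_num)
    have hv1 := valuation_intCast_eq_one (A := A) h2 hA hnum
    have hv2 : A.valuation ((r.den : ℕ) : K) < 1 := by
      have h4 := LocGal.valuation_intCast_lt_one_of_dvd hA (n := (r.den : ℤ))
        (Int.natCast_dvd_natCast.mpr hd)
      simpa using h4
    rw [hveq] at hv1
    exact absurd hv1 hv2.ne
  have hvden : A.valuation ((r.den : ℕ) : K) = 1 := valuation_natCast_eq_one h2 hA hden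
  have hnum : ¬ ((2 : ℕ) : ℤ) ∣ r.num := by
    intro hn
    have h4 := LocGal.valuation_intCast_lt_one_of_dvd hA hn
    rw [hveq, hvden] at h4
    exact lt_irrefl _ h4
  have hsub : ((2 : ℕ) : ℤ) ∣ r.num - (r.den : ℤ) := by
    push_cast at hnum ⊢
    omega
  have hx : ((r.num : ℤ) : K) / ((r.den : ℕ) : K) - 1 =
      (((r.num - (r.den : ℤ)) : ℤ) : K) / ((r.den : ℕ) : K) := by
    push_cast
    field_simp
  rw [hx, map_div₀, hvden, div_one]
  exact LocGal.valuation_intCast_lt_one_of_dvd hA hsub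

end Fermat.Agent.S13
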