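import Fermat.Agent.S13.LocDefs
import Mathlib.FieldTheory.Finite.Basic

set_option autoImplicit false

namespace Fermat.Agent.S13

open WeierstrassCurve Fermat.Agent.S05

section LocKerAux

variable {L : Type*} [Field L] (A : ValuationSubring L)

theorem LocKer.aux_two_le : A.valuation (2 : L) ≤ 1 :=
  (A.valuation_le_one_iff _).mpr (ofNat_mem A 2)

theorem LocKer.aux_four_le : A.valuation (4 : L) ≤ 1 :=
  (A.valuation_le_one_iff _).mpr (ofNat_mem A 4)

theorem LocKer.aux_ne_zero {x : L} (hx : 1 < A.valuation x) : x ≠ 0 := by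
  rintro rfl
  simp at hx

theorem LocKer.aux_inv_small {x : L} (hx : 1 < A.valuation x) : A.valuation x⁻¹ < 1 := by
  rw [map_inv₀]
  exact inv_lt_one_of_one_lt₀ hx

/-- Duplication formula, normalised by the leading power of `x`. -/
theorem LocKer.aux_double_eq {β b x X2 : L} (hβ : A.valuation β ≤ 1)
    (hx : 1 < A.valuation x)
    (h : X2 * (4 * x ^ 3 + b * x ^ 2 + 4 * β * x) = (x ^ 2 - β) ^ 2) :
    A.valuation X2 * A.valuation (4 + b * x⁻¹ + 4 * β * x⁻¹ ^ 2) = A.valuation x := by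
  have hx0 : x ≠ 0 := LocKer.aux_ne_zero A hx
  have hz : A.valuation x⁻¹ < 1 := LocKer.aux_inv_small A hx
  have hw : A.valuation (β * x⁻¹ ^ 2) < 1 := by
    rw [map_mul, map_pow]
    calc A.valuation β * A.valuation x⁻¹ ^ 2 ≤ 1 * A.valuation x⁻¹ ^ 2 :=
          mul_le_mul' hβ le_rfl
      _ = A.valuation x⁻¹ ^ 2 := one_mul _
      _ < 1 := pow_lt_one₀ zero_le hz two_ne_zero
  have hD : A.valuation (1 - β * x⁻¹ ^ 2) = 1 := Valuation.map_one_sub_of_lt _ hw
  have key : X2 * (4 + b * x⁻¹ + 4 * β * x⁻¹ ^ 2) = x * (1 - β * x⁻¹ ^ 2) ^ 2 := by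
    have hx3 : x ^ 3 ≠ 0 := pow_ne_zero 3 hx0
    apply mul_right_cancel₀ hx3
    have e1 : X2 * (4 + b * x⁻¹ + 4 * β * x⁻¹ ^ 2) * x ^ 3 =
        X2 * (4 * x ^ 3 + b * x ^ 2 + 4 * β * x) := by
      field_simp
    have e2 : x * (1 - β * x⁻¹ ^ 2) ^ 2 * x ^ 3 = (x ^ 2 - β) ^ 2 := by
      field_simp
    rw [e1, e2, h]
  rw [← map_mul, key, map_mul, map_pow, hD, one_pow, mul_one]

/-- Doubling does not decrease `v` on the kernel of reduction. -/
theorem LocKer.aux_double_le {β b x X2 : L} (hβ : A.valuation β ≤ 1) (hb : A.valuation b ≤ 1)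
    (hx : 1 < A.valuation x)
    (h : X2 * (4 * x ^ 3 + b * x ^ 2 + 4 * β * x) = (x ^ 2 - β) ^ 2) :
    A.valuation x ≤ A.valuation X2 := by
  have hz : A.valuation x⁻¹ ≤ 1 := (LocKer.aux_inv_small A hx).le
  have hzA : x⁻¹ ∈ A := (A.valuation_le_one_iff _).mp hz
  have hβA : β ∈ A := (A.valuation_le_one_iff _).mp hβ
  have hbA : b ∈ A := (A.valuation_le_one_iff _).mp hb
  have hmem : 4 + b * x⁻¹ + 4 * β * x⁻¹ ^ 2 ∈ A :=
    add_mem (add_mem (ofNat_mem A 4) (mul_mem hbA hzA))
      (mul_mem (mul_mem (ofNat_mem A 4) hβA) (pow_mem hzA 2))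
  have hle : A.valuation (4 + b * x⁻¹ + 4 * β * x⁻¹ ^ 2) ≤ 1 :=
    (A.valuation_le_one_iff _).mpr hmem
  rw [← LocKer.aux_double_eq A hβ hx h]
  exact mul_le_of_le_one_right' hle

/-- Doubling strictly increases `v` on the kernel of reduction when `v 2 < 1`. -/
theorem LocKer.aux_double_lt {β b x X2 : L} (hβ : A.valuation β ≤ 1) (hb : A.valuation b ≤ 1)
    (h2 : A.valuation (2 : L) < 1) (hx : 1 < A.valuation x)
    (h : X2 * (4 * x ^ 3 + b * x ^ 2 + 4 * β * x) = (x ^ 2 - β) ^ 2) :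
    A.valuation x < A.valuation X2 := by
  have hz : A.valuation x⁻¹ < 1 := LocKer.aux_inv_small A hx
  have h4 : A.valuation (4 : L) < 1 := by
    have e : (4 : L) = 2 * 2 := by norm_num
    rw [e, map_mul]
    exact mul_lt_one_of_nonneg_of_lt_one_left zero_le h2 h2.le
  have hbz : A.valuation (b * x⁻¹) < 1 := by
    rw [mul_comm, map_mul]
    exact mul_lt_one_of_nonneg_of_lt_one_left zero_le hz hb
  have hβz : A.valuation (4 * β * x⁻¹ ^ 2) < 1 := by
    rw [mul_assoc, map_mul]
    refine mul_lt_one_of_nonneg_of_lt_one_left zero_le h4 ?_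
    rw [map_mul, map_pow]
    exact mul_le_one' hβ (pow_le_one₀ zero_le hz.le)
  have hlt : A.valuation (4 + b * x⁻¹ + 4 * β * x⁻¹ ^ 2) < 1 :=
    Valuation.map_add_lt _ (Valuation.map_add_lt _ h4 hbz) hβz
  have heq := LocKer.aux_double_eq A hβ hx h
  have hX2 : 0 < A.valuation X2 := by
    rw [zero_lt_iff]
    intro h0
    rw [h0, zero_mul] at heq
    rw [← heq] at hx
    exact absurd hx (not_lt.mpr zero_le)
  calc A.valuation x = A.valuation X2 * A.valuation (4 + b * x⁻¹ + 4 * β * x⁻¹ ^ 2) := heq.symm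
    _ < A.valuation X2 * 1 := mul_lt_mul_of_pos_left hlt hX2
    _ = A.valuation X2 := mul_one _

/-- Value group computation behind the closure of the kernel of reduction under addition. -/
theorem LocKer.aux_grp {Γ : Type*} [LinearOrderedCommGroupWithZero Γ] {a c d u w σ : Γ}
    (hc : 1 < c) (hca : c ≤ a) (hd : d ≤ a) (h1 : u * w * d ^ 2 = (a * c) ^ 2)
    (h2 : σ * d ^ 2 ≤ a * (a * c)) (hσ : u < w → σ = w) : 1 < u := by
  by_contra hu
  rw [not_lt] at hu
  have ha : 1 < a := lt_of_lt_of_le hc hca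
  have ha0 : 0 < a := lt_trans zero_lt_one ha
  have hc0 : 0 < c := lt_trans zero_lt_one hc
  have e1 : (a * c) ^ 2 ≤ w * d ^ 2 := by
    rw [← h1, mul_assoc]
    exact mul_le_of_le_one_left' hu
  have e2 : c ^ 2 * a ^ 2 ≤ w * a ^ 2 := by
    calc c ^ 2 * a ^ 2 = (a * c) ^ 2 := by rw [mul_pow, mul_comm]
      _ ≤ w * d ^ 2 := e1
      _ ≤ w * a ^ 2 := mul_le_mul' le_rfl (pow_le_pow_left' hd 2)
  have e3 : c ^ 2 ≤ w := le_of_mul_le_mul_right e2 (pow_pos ha0 2)
  have hw : 1 < w := lt_of_lt_of_le (one_lt_pow₀ hc two_ne_zero) e3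
  rw [hσ (lt_of_le_of_lt hu hw)] at h2
  have e4 : (a * c) * (a * c) ≤ a * (a * c) := by
    rw [← pow_two]
    exact e1.trans h2
  have e5 : a * c ≤ a * 1 := by
    rw [mul_one]
    exact le_of_mul_le_mul_right e4 (mul_pos ha0 hc0)
  have e6 : c ≤ 1 := le_of_mul_le_mul_left e5 ha0
  exact absurd hc (not_lt.mpr e6)

theorem LocKer.aux_add_of_le {β b s t U V : L} (hβ : A.valuation β ≤ 1)
    (hb : A.valuation b ≤ 1) (ht : 1 < A.valuation t) (hts : A.valuation t ≤ A.valuation s)
    (h1 : U * V * (s - t) ^ 2 = (s * t - β) ^ 2)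
    (h2 : (U + V) * (s - t) ^ 2 = 2 * (s + t) * (s * t + β) + b * (s * t)) :
    1 < A.valuation U := by
  have hs : 1 < A.valuation s := lt_of_lt_of_le ht hts
  have hst : 1 < A.valuation s * A.valuation t :=
    calc (1 : A.ValueGroup) < A.valuation t := ht
      _ = 1 * A.valuation t := (one_mul _).symm
      _ ≤ A.valuation s * A.valuation t := mul_le_mul' hs.le le_rfl
  have hβlt : A.valuation β < A.valuation (s * t) := by
    rw [map_mul]
    exact lt_of_le_of_lt hβ hst
  have e1 : A.valuation (s * t - β) = A.valuation s * A.valuation t := by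
    rw [Valuation.map_sub_eq_of_lt_left _ hβlt, map_mul]
  have e2 : A.valuation (s * t + β) = A.valuation s * A.valuation t := by
    rw [Valuation.map_add_eq_of_lt_left _ hβlt, map_mul]
  have hd : A.valuation (s - t) ≤ A.valuation s := Valuation.map_sub_le _ le_rfl hts
  have hsum : A.valuation (s + t) ≤ A.valuation s := Valuation.map_add_le _ le_rfl hts
  have h1' : A.valuation U * A.valuation V * A.valuation (s - t) ^ 2 =
      (A.valuation s * A.valuation t) ^ 2 := by
    have h := congrArg A.valuation h1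
    rw [map_mul, map_mul, map_pow, map_pow, e1] at h
    exact h
  have h2' : A.valuation (U + V) * A.valuation (s - t) ^ 2 ≤
      A.valuation s * (A.valuation s * A.valuation t) := by
    rw [← map_pow, ← map_mul, h2]
    apply Valuation.map_add_le
    · rw [map_mul, map_mul, e2]
      calc A.valuation 2 * A.valuation (s + t) * (A.valuation s * A.valuation t)
          ≤ 1 * A.valuation s * (A.valuation s * A.valuation t) :=
            mul_le_mul' (mul_le_mul' (LocKer.aux_two_le A) hsum) le_rfl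
        _ = A.valuation s * (A.valuation s * A.valuation t) := by rw [one_mul]
    · rw [map_mul, map_mul]
      exact mul_le_mul' (hb.trans hs.le) le_rfl
  exact LocKer.aux_grp ht hts hd h1' h2' (fun huv => Valuation.map_add_eq_of_lt_right _ huv)

/-- Abstract form of: the sum of two kernel points with distinct abscissas is in the kernel. -/
theorem LocKer.aux_add {β b s t U V : L} (hβ : A.valuation β ≤ 1) (hb : A.valuation b ≤ 1)
    (hs : 1 < A.valuation s) (ht : 1 < A.valuation t)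
    (h1 : U * V * (s - t) ^ 2 = (s * t - β) ^ 2)
    (h2 : (U + V) * (s - t) ^ 2 = 2 * (s + t) * (s * t + β) + b * (s * t)) :
    1 < A.valuation U := by
  rcases le_total (A.valuation t) (A.valuation s) with hle | hle
  · exact LocKer.aux_add_of_le A hβ hb ht hle h1 h2
  · refine LocKer.aux_add_of_le A hβ hb hs hle (s := t) (t := s) (U := U) (V := V) ?_ ?_
    · linear_combination h1
    · linear_combination h2

end LocKerAux

variable {L : Type*} [Field L] [DecidableEq L] [CharZero L] {W : Affine L} {x0 : L}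

set_option linter.unusedSectionVars false

/-- A nonzero point killed by an odd number is not `2`-torsion. -/
theorem LocKer.aux_add_self_ne_zero {p : ℕ} (hodd : ¬ 2 ∣ p) {Q : W.Point} (hQ0 : Q ≠ 0)
    (hQ : p • Q = 0) : Q + Q ≠ 0 := by
  intro h
  apply hQ0
  have h2 : 2 • Q = 0 := by rw [two_nsmul]; exact h
  have hd2 : addOrderOf Q ∣ 2 := addOrderOf_dvd_of_nsmul_eq_zero h2
  have hdp : addOrderOf Q ∣ p := addOrderOf_dvd_of_nsmul_eq_zero hQ
  have h1 : addOrderOf Q = 1 := by
    rcases (Nat.dvd_prime Nat.prime_two).mp hd2 with h1 | h1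
    · exact h1
    · exact absurd (h1 ▸ hdp) hodd
  exact AddMonoid.addOrderOf_eq_one_iff.mp h1

theorem inK_neg (A : ValuationSubring L) {P : W.Point} (h : InK A W x0 P) : InK A W x0 (-P) := by
  rcases h with h | h
  · left
    rw [h, neg_zero]
  · right
    rw [xi_neg]
    exact h

/-- The kernel of reduction is closed under addition (any residue characteristic). -/
theorem inK_add (hx0 : twoTors W x0 = 0) (A : ValuationSubring L)
    (hb2 : A.valuation (b2' W x0) ≤ 1) (hβ : A.valuation (beta W x0) ≤ 1)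
    {P Q : W.Point} (hP : InK A W x0 P) (hQ : InK A W x0 Q) : InK A W x0 (P + Q) := by
  by_cases hP0 : P = 0
  · rw [hP0, zero_add]
    exact hQ
  by_cases hQ0 : Q = 0
  · rw [hQ0, add_zero]
    exact hP
  have hvP : 1 < A.valuation (xi W x0 P) := (inK_iff hP0).mp hP
  have hvQ : 1 < A.valuation (xi W x0 Q) := (inK_iff hQ0).mp hQ
  by_cases hne : xi W x0 P = xi W x0 Q
  · rcases eq_or_eq_neg_of_xi_eq hP0 hQ0 hne with h | h
    · subst h
      by_cases h2 : P + P = 0
      · rw [h2]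
        exact inK_zero A W x0
      · have hF3 := xi_double hx0 hP0 h2
        unfold fxi at hF3
        exact Or.inr (lt_of_lt_of_le hvP (LocKer.aux_double_le A hβ hb2 hvP hF3))
    · rw [h, neg_add_cancel]
      exact inK_zero A W x0
  · have hF1 := xi_add_mul_xi_sub hx0 hP0 hQ0 hne
    have hF2 := xi_add_add_xi_sub hx0 hP0 hQ0 hne
    exact Or.inr (LocKer.aux_add A hβ hb2 hvP hvQ hF1 hF2)

theorem inK_sub (hx0 : twoTors W x0 = 0) (A : ValuationSubring L)
    (hb2 : A.valuation (b2' W x0) ≤ 1) (hβ : A.valuation (beta W x0) ≤ 1)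
    {P Q : W.Point} (hP : InK A W x0 P) (hQ : InK A W x0 Q) : InK A W x0 (P - Q) := by
  rw [sub_eq_add_neg]
  exact inK_add hx0 A hb2 hβ hP (inK_neg A hQ)

theorem inK_nsmul (hx0 : twoTors W x0 = 0) (A : ValuationSubring L)
    (hb2 : A.valuation (b2' W x0) ≤ 1) (hβ : A.valuation (beta W x0) ≤ 1)
    {P : W.Point} (hP : InK A W x0 P) (n : ℕ) : InK A W x0 (n • P) := by
  induction n with
  | zero =>
    rw [zero_nsmul]
    exact inK_zero A W x0
  | succ n ih =>
    rw [succ_nsmul]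
    exact inK_add hx0 A hb2 hβ ih hP

/-- For a point `R` of odd order dividing `p`: if `2R` is in the kernel of reduction, so is `R`. -/
theorem inK_of_two_nsmul (hx0 : twoTors W x0 = 0) (A : ValuationSubring L)
    (hb2 : A.valuation (b2' W x0) ≤ 1) (hβ : A.valuation (beta W x0) ≤ 1)
    {p : ℕ} (hodd : Odd p) {R : W.Point} (hR : p • R = 0) (h : InK A W x0 (2 • R)) :
    InK A W x0 R := by
  obtain ⟨k, rfl⟩ := hodd
  have e : (k + 1) • (2 • R) = R := by
    rw [smul_smul, show (k + 1) * 2 = (2 * k + 1) + 1 by ring, succ_nsmul, hR, zero_add]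
  rw [← e]
  exact inK_nsmul hx0 A hb2 hβ h (k + 1)

/-- No odd prime-order torsion in the kernel of reduction when the residue characteristic is `2`
(doubling strictly increases `v(ξ)` on the kernel, and `2^(p-1) • Q = Q`). -/
theorem eq_zero_of_inK_of_two_small (hx0 : twoTors W x0 = 0) (A : ValuationSubring L)
    (hb2 : A.valuation (b2' W x0) ≤ 1) (hβ : A.valuation (beta W x0) ≤ 1)
    (h2 : A.valuation (2 : L) < 1)
    {p : ℕ} (hp : p.Prime) (hp2 : p ≠ 2) {Q : W.Point} (hQ : InK A W x0 Q) (hpQ : p • Q = 0) :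
    Q = 0 := by
  by_contra hQ0
  have hvQ : 1 < A.valuation (xi W x0 Q) := (inK_iff hQ0).mp hQ
  have hodd : ¬ 2 ∣ p := by
    intro hdvd
    exact hp2 ((Nat.prime_dvd_prime_iff_eq Nat.prime_two hp).mp hdvd).symm
  -- doubling step
  have key : ∀ R : W.Point, R ≠ 0 → p • R = 0 → 1 < A.valuation (xi W x0 R) →
      R + R ≠ 0 ∧ p • (R + R) = 0 ∧
        A.valuation (xi W x0 R) < A.valuation (xi W x0 (R + R)) := by
    intro R hR0 hpR hvR
    have hRR : R + R ≠ 0 := LocKer.aux_add_self_ne_zero hodd hR0 hpR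
    refine ⟨hRR, by rw [smul_add, hpR, add_zero], ?_⟩
    have hF3 := xi_double hx0 hR0 hRR
    unfold fxi at hF3
    exact LocKer.aux_double_lt A hβ hb2 h2 hvR hF3
  -- iteration
  have iter : ∀ j : ℕ, (2 ^ (j + 1)) • Q ≠ 0 ∧ p • ((2 ^ (j + 1)) • Q) = 0 ∧
      A.valuation (xi W x0 Q) < A.valuation (xi W x0 ((2 ^ (j + 1)) • Q)) := by
    intro j
    induction j with
    | zero =>
      have e : (2 ^ (0 + 1)) • Q = Q + Q := by rw [zero_add, pow_one, two_nsmul]
      rw [e]
      exact key Q hQ0 hpQ hvQ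
    | succ j ih =>
      obtain ⟨h0, ht, hlt⟩ := ih
      have hk := key _ h0 ht (hvQ.trans hlt)
      have e : (2 ^ (j + 1 + 1)) • Q = (2 ^ (j + 1)) • Q + (2 ^ (j + 1)) • Q := by
        rw [pow_succ, mul_nsmul, two_nsmul]
      rw [e]
      exact ⟨hk.1, hk.2.1, hlt.trans hk.2.2⟩
  -- Fermat's little theorem
  have hcop : Nat.Coprime 2 p := (Nat.coprime_primes Nat.prime_two hp).mpr (Ne.symm hp2)
  have hfl : 2 ^ (p - 1) ≡ 1 [MOD p] := Nat.ModEq.pow_card_sub_one_eq_one hp hcop
  have h1le : 1 ≤ 2 ^ (p - 1) := Nat.one_le_two_pow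
  obtain ⟨k, hk⟩ : p ∣ 2 ^ (p - 1) - 1 := (Nat.modEq_iff_dvd' h1le).mp hfl.symm
  have hk' : 2 ^ (p - 1) = p * k + 1 := by omega
  have hfin := (iter (p - 2)).2.2
  have e : p - 2 + 1 = p - 1 := by
    have := hp.two_le
    omega
  have e' : (2 ^ (p - 1)) • Q = Q := by
    rw [hk', succ_nsmul, mul_nsmul, hpQ, smul_zero, zero_add]
  rw [e, e'] at hfin
  exact lt_irrefl _ hfin

end Fermat.Agent.S13
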