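import Fermat.Agent.S13.LocKer
import Fermat.Agent.S13.LocF5

set_option autoImplicit false

namespace Fermat.Agent.S13

open WeierstrassCurve Fermat.Agent.S05

variable {L : Type*} [Field L] [DecidableEq L] [CharZero L] {W : Affine L} {x0 : L}

omit [DecidableEq L] [CharZero L] in
theorem LocNonSing.le_mul_le (A : ValuationSubring L) {x y : L} (hx : A.valuation x ≤ 1)
    (hy : A.valuation y ≤ 1) : A.valuation (x * y) ≤ 1 := by
  rw [map_mul]
  exact mul_le_one' hx hy

omit [DecidableEq L] [CharZero L] in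
theorem LocNonSing.le_natCast (A : ValuationSubring L) (n : ℕ) : A.valuation (n : L) ≤ 1 := by
  rw [ValuationSubring.valuation_le_one_iff]
  exact natCast_mem A n

omit [DecidableEq L] [CharZero L] in
theorem LocNonSing.le_of_sq_le (A : ValuationSubring L) {x : L} (hx : A.valuation (x ^ 2) ≤ 1) :
    A.valuation x ≤ 1 := by
  rw [map_pow] at hx
  exact (pow_le_one_iff two_ne_zero).mp hx

omit [DecidableEq L] [CharZero L] in
theorem LocNonSing.le_fxi (A : ValuationSubring L) {b β t : L} (hb : A.valuation b ≤ 1)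
    (hβ : A.valuation β ≤ 1) (ht : A.valuation t ≤ 1) :
    A.valuation (4 * t ^ 3 + b * t ^ 2 + 4 * β * t) ≤ 1 := by
  have h4 : A.valuation (4 : L) ≤ 1 := by exact_mod_cast LocNonSing.le_natCast A 4
  have ht2 : A.valuation (t ^ 2) ≤ 1 := by rw [pow_two]; exact LocNonSing.le_mul_le A ht ht
  have ht3 : A.valuation (t ^ 3) ≤ 1 := by rw [pow_succ]; exact LocNonSing.le_mul_le A ht2 ht
  exact Valuation.map_add_le _
    (Valuation.map_add_le _ (LocNonSing.le_mul_le A h4 ht3) (LocNonSing.le_mul_le A hb ht2))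
    (LocNonSing.le_mul_le A (LocNonSing.le_mul_le A h4 hβ) ht)

omit [DecidableEq L] [CharZero L] in
/-- If `v (x * y) = 1` and `v y < 1` then `1 < v x`. -/
theorem LocNonSing.one_lt_of_mul_eq_one (A : ValuationSubring L) {x y : L}
    (h : A.valuation x * A.valuation y = 1) (hy : A.valuation y < 1) : 1 < A.valuation x := by
  by_contra hle
  rw [not_lt] at hle
  have hlt : A.valuation x * A.valuation y < 1 :=
    mul_lt_one_of_nonneg_of_lt_one_right hle zero_le hy
  rw [h] at hlt
  exact lt_irrefl _ hlt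

omit [CharZero L] in
/-- A nonzero point killed by an odd number is not `2`-torsion. -/
theorem LocNonSing.add_self_ne_zero {p : ℕ} (hodd : Odd p) {Q : W.Point} (hQ0 : Q ≠ 0)
    (hQ : p • Q = 0) : Q + Q ≠ 0 := by
  intro h
  apply hQ0
  obtain ⟨k, rfl⟩ := hodd
  have h2 : 2 • Q = 0 := by rw [two_nsmul]; exact h
  rw [add_nsmul, mul_nsmul, h2, smul_zero, zero_add, one_nsmul] at hQ
  exact hQ

/-- Odd residue characteristic, `P` a torsion point of odd order with integral `ξ` which does not
reduce to a singular point: an inertia-like `τ` moves `P` by an element of the kernel of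
reduction. -/
theorem inK_sub_of_nonsing (hx0 : twoTors W x0 = 0) (A : ValuationSubring L)
    (hb2 : A.valuation (b2' W x0) ≤ 1) (hβ : A.valuation (beta W x0) ≤ 1)
    (h2 : A.valuation (2 : L) = 1)
    {p : ℕ} (hodd : Odd p)
    (σ : L →+* L) (τ : W.Point →+ W.Point)
    (hσ : ∀ a : L, A.valuation a ≤ 1 → A.valuation (σ a - a) < 1)
    (hσv : ∀ a : L, A.valuation (σ a) = A.valuation a)
    (hτ : ∀ P : W.Point, P ≠ 0 →
      τ P ≠ 0 ∧ xi W x0 (τ P) = σ (xi W x0 P) ∧ eta W (τ P) = σ (eta W P))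
    {P : W.Point} (hP0 : P ≠ 0) (hP : p • P = 0)
    (hint : A.valuation (xi W x0 P) ≤ 1)
    (hns : ¬ (A.valuation (xi W x0 P ^ 2 - beta W x0) < 1 ∧
      A.valuation (fxi W x0 (xi W x0 P)) < 1)) :
    InK A W x0 (τ P - P) := by
  obtain ⟨hQ0, hξQ, hηQ⟩ := hτ P hP0
  have hηsq : eta W P ^ 2 = fxi W x0 (xi W x0 P) := eta_sq hx0 hP0
  have hfle : A.valuation (fxi W x0 (xi W x0 P)) ≤ 1 := LocNonSing.le_fxi A hb2 hβ hint
  have hηle : A.valuation (eta W P) ≤ 1 :=
    LocNonSing.le_of_sq_le A (by rw [hηsq]; exact hfle)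
  have hδ : A.valuation (xi W x0 (τ P) - xi W x0 P) < 1 := by rw [hξQ]; exact hσ _ hint
  have hε : A.valuation (eta W (τ P) - eta W P) < 1 := by rw [hηQ]; exact hσ _ hηle
  have hpR : p • (τ P - P) = 0 := by
    rw [smul_sub, ← map_nsmul, hP, map_zero, sub_zero]
  by_cases hf : A.valuation (fxi W x0 (xi W x0 P)) < 1
  · -- Case A: `2P` is in the kernel of reduction.
    have hunit : A.valuation (xi W x0 P ^ 2 - beta W x0) = 1 := by
      have hle : A.valuation (xi W x0 P ^ 2 - beta W x0) ≤ 1 :=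
        Valuation.map_sub_le _ (by rw [pow_two]; exact LocNonSing.le_mul_le A hint hint) hβ
      exact le_antisymm hle (not_lt.mp fun hlt => hns ⟨hlt, hf⟩)
    have h2P : P + P ≠ 0 := LocNonSing.add_self_ne_zero hodd hP0 hP
    have hF3 := xi_double hx0 hP0 h2P
    have hv : A.valuation (xi W x0 (P + P)) * A.valuation (fxi W x0 (xi W x0 P)) = 1 := by
      rw [← map_mul, hF3, map_pow, hunit, one_pow]
    have h2Pgt : 1 < A.valuation (xi W x0 (P + P)) := LocNonSing.one_lt_of_mul_eq_one A hv hf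
    have hK2P : InK A W x0 (P + P) := Or.inr h2Pgt
    obtain ⟨-, hξτ2P, -⟩ := hτ (P + P) h2P
    have hKτ2P : InK A W x0 (τ (P + P)) := Or.inr (by rw [hξτ2P, hσv]; exact h2Pgt)
    have hsub := inK_sub hx0 A hb2 hβ hKτ2P hK2P
    have heq : τ (P + P) - (P + P) = 2 • (τ P - P) := by
      rw [map_add, two_nsmul]
      abel
    rw [heq] at hsub
    exact inK_of_two_nsmul hx0 A hb2 hβ hodd hpR hsub
  · -- Case B: `η` is a unit.
    have hfunit : A.valuation (fxi W x0 (xi W x0 P)) = 1 := le_antisymm hfle (not_lt.mp hf)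
    have hηunit : A.valuation (eta W P) = 1 := by
      have hsq : A.valuation (eta W P) ^ 2 = 1 := by rw [← map_pow, hηsq, hfunit]
      exact (pow_eq_one_iff_of_nonneg zero_le two_ne_zero).mp hsq
    have h2η : A.valuation (2 * eta W P) = 1 := by rw [map_mul, h2, hηunit, one_mul]
    by_cases hne : xi W x0 (τ P) = xi W x0 P
    · rcases eq_or_eq_neg_of_xi_eq (W := W) (x0 := x0) hQ0 hP0 hne with h | h
      · rw [h, sub_self]
        exact inK_zero A W x0
      · exfalso
        have hτη : eta W (τ P) = -eta W P := by rw [h, eta_neg]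
        rw [hτη] at hε
        have h3 : -eta W P - eta W P = -(2 * eta W P) := by ring
        rw [h3, Valuation.map_neg, h2η] at hε
        exact lt_irrefl _ hε
    · have hF5 := four_xi_sub (W := W) (x0 := x0) hQ0 hP0 hne
      have h4 : A.valuation (4 : L) = 1 := by
        have h22 : (4 : L) = 2 * 2 := by norm_num
        rw [h22, map_mul, h2, one_mul]
      have hsum : A.valuation (eta W (τ P) + eta W P) = 1 := by
        have h3 : eta W (τ P) + eta W P = 2 * eta W P + (eta W (τ P) - eta W P) := by ring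
        rw [h3, Valuation.map_add_eq_of_lt_left _ (by rw [h2η]; exact hε), h2η]
      have hξQle : A.valuation (xi W x0 (τ P)) ≤ 1 := by rw [hξQ, hσv]; exact hint
      have hc : A.valuation (b2' W x0 + 4 * xi W x0 (τ P) + 4 * xi W x0 P) ≤ 1 :=
        Valuation.map_add_le _
          (Valuation.map_add_le _ hb2 (LocNonSing.le_mul_le A h4.le hξQle))
          (LocNonSing.le_mul_le A h4.le hint)
      have hδ2 : A.valuation ((xi W x0 (τ P) - xi W x0 P) ^ 2) < 1 := by
        rw [map_pow]
        exact pow_lt_one₀ zero_le hδ two_ne_zero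
      have hcδ : A.valuation ((b2' W x0 + 4 * xi W x0 (τ P) + 4 * xi W x0 P) *
          (xi W x0 (τ P) - xi W x0 P) ^ 2) < 1 := by
        rw [map_mul]
        exact mul_lt_one_of_nonneg_of_lt_one_right hc zero_le hδ2
      have hsq : A.valuation ((eta W (τ P) + eta W P) ^ 2) = 1 := by
        rw [map_pow, hsum, one_pow]
      have hrhs : A.valuation ((eta W (τ P) + eta W P) ^ 2 -
          (b2' W x0 + 4 * xi W x0 (τ P) + 4 * xi W x0 P) *
            (xi W x0 (τ P) - xi W x0 P) ^ 2) = 1 := by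
        rw [Valuation.map_sub_eq_of_lt_left _ (by rw [hsq]; exact hcδ), hsq]
      rw [← hF5, map_mul, map_mul, h4, one_mul] at hrhs
      exact Or.inr (LocNonSing.one_lt_of_mul_eq_one A hrhs hδ2)

end Fermat.Agent.S13
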