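import Fermat.Agent.S13.LocSing

set_option autoImplicit false

namespace Fermat.Agent.S13

open WeierstrassCurve Fermat.Agent.S05

variable {L : Type*} [Field L] [DecidableEq L] [CharZero L] {W : Affine L} {x0 : L}

/-- Odd residue characteristic (possibly equal to `p`), good or multiplicative reduction:
`(τ - 1)^2` maps every point of odd order `p` into the kernel of reduction. -/
theorem inK_sq_odd (hx0 : twoTors W x0 = 0) (A : ValuationSubring L)
    (hb2 : A.valuation (b2' W x0) ≤ 1) (hβ : A.valuation (beta W x0) ≤ 1)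
    (h2 : A.valuation (2 : L) = 1)
    {p : ℕ} (hodd : Odd p)
    (σ : L →+* L) (τ : W.Point →+ W.Point)
    (hσ : ∀ a : L, A.valuation a ≤ 1 → A.valuation (σ a - a) < 1)
    (hσv : ∀ a : L, A.valuation (σ a) = A.valuation a)
    (hτ : ∀ P : W.Point, P ≠ 0 →
      τ P ≠ 0 ∧ xi W x0 (τ P) = σ (xi W x0 P) ∧ eta W (τ P) = σ (eta W P))
    (hcase : (∀ t : L, A.valuation t ≤ 1 →
        ¬ (A.valuation (t ^ 2 - beta W x0) < 1 ∧ A.valuation (fxi W x0 t) < 1)) ∨
      (A.valuation (beta W x0) < 1 ∧ A.valuation (b2' W x0) = 1))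
    {P : W.Point} (hP : p • P = 0) :
    InK A W x0 (τ (τ P - P) - (τ P - P)) := by
  have hiii : ∀ X : W.Point, InK A W x0 X → InK A W x0 (τ X - X) :=
    fun X h => LocSing.inK_map_sub hx0 A hb2 hβ σ τ hσv hτ h
  by_cases hP0 : P = 0
  · rw [hP0, map_zero, sub_self, map_zero, sub_self]
    exact inK_zero A W x0
  by_cases hK : InK A W x0 P
  · exact hiii _ (hiii _ hK)
  have hle : A.valuation (xi W x0 P) ≤ 1 := by
    rw [inK_iff hP0, not_lt] at hK
    exact hK
  rcases hcase with hgood | ⟨hβ', hb2'⟩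
  · exact hiii _ (inK_sub_of_nonsing hx0 A hb2 hβ h2 hodd σ τ hσ hσv hτ hP0 hP hle
      (hgood _ hle))
  · rcases eq_or_lt_of_le hle with h1 | h1
    · exact hiii _ (LocSing.inK_sub_of_one_le hx0 A hb2 hβ' h2 hodd σ τ hσ hσv hτ hP0 hP h1.ge)
    · exact inK_sq_of_sing hx0 A hb2' hβ' h2 hodd σ τ hσ hσv hτ hP0 hP h1

end Fermat.Agent.S13
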