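import Fermat.Agent.S13.LocNonSing
import Fermat.Agent.S05.SingDepth

set_option autoImplicit false

namespace Fermat.Agent.S13

open WeierstrassCurve Fermat.Agent.S05

namespace LocSing

variable {L : Type*} [Field L] (A : ValuationSubring L)

theorem aux_le_four : A.valuation (4 : L) ≤ 1 := by
  have h : A.valuation ((4 : ℕ) : L) ≤ 1 := (A.valuation_le_one_iff _).mpr (natCast_mem A 4)
  exact_mod_cast h

theorem aux_lt_mul {x y : L} (hx : A.valuation x < 1) (hy : A.valuation y ≤ 1) :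
    A.valuation (x * y) < 1 := by
  rw [map_mul]
  exact mul_lt_one_of_lt_of_le hx hy

theorem aux_le_mul {x y : L} (hx : A.valuation x ≤ 1) (hy : A.valuation y ≤ 1) :
    A.valuation (x * y) ≤ 1 := by
  rw [map_mul]
  exact mul_le_one' hx hy

theorem aux_le_sq {x : L} (hx : A.valuation x ≤ 1) : A.valuation (x ^ 2) ≤ 1 := by
  rw [pow_two]
  exact aux_le_mul A hx hx

/-- Shallow case: the slope `s = η / ξ` is a unit with `s ^ 2 ≡ b`. -/
theorem aux_s {ξ η b β : L} (hξ0 : ξ ≠ 0) (hξ : A.valuation ξ < 1)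
    (hβξ : A.valuation β < A.valuation ξ) (hb : A.valuation b = 1)
    (hη : η ^ 2 = 4 * ξ ^ 3 + b * ξ ^ 2 + 4 * β * ξ) :
    A.valuation ((η / ξ) ^ 2 - b) < 1 ∧ A.valuation (η / ξ) = 1 := by
  have h4 := aux_le_four A
  have hξpos : 0 < A.valuation ξ := (Valuation.pos_iff _).mpr hξ0
  have e : (η / ξ) ^ 2 - b = 4 * ξ + 4 * (β / ξ) := by
    rw [div_pow, hη]
    field_simp
    ring
  have h1 : A.valuation (4 * ξ) < 1 := by
    rw [mul_comm]
    exact aux_lt_mul A hξ h4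
  have h2 : A.valuation (4 * (β / ξ)) < 1 := by
    rw [mul_comm]
    refine aux_lt_mul A ?_ h4
    rw [map_div₀]
    exact (div_lt_one₀ hξpos).mpr hβξ
  have h3 : A.valuation ((η / ξ) ^ 2 - b) < 1 := by
    rw [e]
    exact Valuation.map_add_lt _ h1 h2
  refine ⟨h3, ?_⟩
  have h5 : A.valuation ((η / ξ) ^ 2) = 1 := by
    have e2 : (η / ξ) ^ 2 = b + ((η / ξ) ^ 2 - b) := by ring
    rw [e2, Valuation.map_add_eq_of_lt_left _ (by rw [hb]; exact h3), hb]
  rw [map_pow] at h5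
  exact (pow_eq_one_iff_of_nonneg zero_le two_ne_zero).mp h5

/-- Shallow case: the difference `τ P - P` has `ξ` of valuation at least one. -/
theorem aux_shallow {ξ ξ' η η' b β U : L} (hξ0 : ξ ≠ 0) (hξ : A.valuation ξ < 1)
    (hβξ : A.valuation β < A.valuation ξ) (hb : A.valuation b = 1)
    (h2 : A.valuation (2 : L) = 1)
    (hη : η ^ 2 = 4 * ξ ^ 3 + b * ξ ^ 2 + 4 * β * ξ)
    (hξ' : A.valuation ξ' = A.valuation ξ)
    (hs : A.valuation (η' / ξ' - η / ξ) < 1)
    (hF : 4 * U * (ξ' - ξ) ^ 2 = (η' + η) ^ 2 - (b + 4 * ξ' + 4 * ξ) * (ξ' - ξ) ^ 2) :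
    1 ≤ A.valuation U := by
  obtain ⟨hsb, hs1⟩ := aux_s A hξ0 hξ hβξ hb hη
  have hvξ0 : A.valuation ξ ≠ 0 := (Valuation.ne_zero_iff _).mpr hξ0
  have hξ'0 : ξ' ≠ 0 := by
    rw [← Valuation.ne_zero_iff A.valuation, hξ']
    exact hvξ0
  have h4le := aux_le_four A
  have h4 : A.valuation (4 : L) = 1 := by
    have e : (4 : L) = 2 * 2 := by norm_num
    rw [e, map_mul, h2, one_mul]
  obtain ⟨s, hsdef⟩ : ∃ s, s = η / ξ := ⟨_, rfl⟩
  obtain ⟨s', hs'def⟩ : ∃ s', s' = η' / ξ' := ⟨_, rfl⟩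
  obtain ⟨ζ, hζdef⟩ : ∃ ζ, ζ = ξ' / ξ := ⟨_, rfl⟩
  rw [← hsdef] at hsb hs1 hs
  rw [← hs'def] at hs
  have hζ1 : A.valuation ζ = 1 := by rw [hζdef, map_div₀, hξ', div_self hvξ0]
  have hη_eq : η = s * ξ := by rw [hsdef, div_mul_cancel₀ _ hξ0]
  have hξ'_eq : ξ' = ζ * ξ := by rw [hζdef, div_mul_cancel₀ _ hξ0]
  have hη'_eq : η' = s' * ξ' := by rw [hs'def, div_mul_cancel₀ _ hξ'0]
  have key : 4 * U * (ζ - 1) ^ 2 = 4 * b * ζ + ((s' - s) * ζ * (s' * ζ + s * ζ + 2 * s) +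
      (s ^ 2 - b) * (ζ + 1) ^ 2 - (4 * ξ' + 4 * ξ) * (ζ - 1) ^ 2) := by
    have hξ2 : ξ ^ 2 ≠ 0 := pow_ne_zero 2 hξ0
    apply mul_right_cancel₀ hξ2
    rw [hη'_eq, hη_eq, hξ'_eq] at hF
    rw [hξ'_eq]
    linear_combination hF
  have hs'le : A.valuation s' ≤ 1 := by
    have e : s' = s + (s' - s) := by ring
    rw [e]
    exact Valuation.map_add_le _ hs1.le hs.le
  have h1le : A.valuation (1 : L) ≤ 1 := by rw [map_one]
  have hζm1 : A.valuation (ζ - 1) ≤ 1 := Valuation.map_sub_le _ hζ1.le h1le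
  have hζp1 : A.valuation (ζ + 1) ≤ 1 := Valuation.map_add_le _ hζ1.le h1le
  have hE : A.valuation ((s' - s) * ζ * (s' * ζ + s * ζ + 2 * s) +
      (s ^ 2 - b) * (ζ + 1) ^ 2 - (4 * ξ' + 4 * ξ) * (ζ - 1) ^ 2) < 1 := by
    refine Valuation.map_sub_lt _ (Valuation.map_add_lt _ ?_ ?_) ?_
    · refine aux_lt_mul A (aux_lt_mul A hs hζ1.le) ?_
      refine Valuation.map_add_le _ (Valuation.map_add_le _ ?_ ?_) ?_
      · exact aux_le_mul A hs'le hζ1.le
      · exact aux_le_mul A hs1.le hζ1.le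
      · exact aux_le_mul A h2.le hs1.le
    · exact aux_lt_mul A hsb (aux_le_sq A hζp1)
    · refine aux_lt_mul A ?_ (aux_le_sq A hζm1)
      refine Valuation.map_add_lt _ ?_ ?_
      · rw [mul_comm]
        exact aux_lt_mul A (by rw [hξ']; exact hξ) h4le
      · rw [mul_comm]
        exact aux_lt_mul A hξ h4le
  have hmain : A.valuation (4 * U * (ζ - 1) ^ 2) = 1 := by
    have h4bζ : A.valuation (4 * b * ζ) = 1 := by
      rw [map_mul, map_mul, h4, hb, hζ1, one_mul, one_mul]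
    rw [key, Valuation.map_add_eq_of_lt_left _ (by rw [h4bζ]; exact hE), h4bζ]
  by_contra hU
  rw [not_le] at hU
  have hlt : A.valuation (4 * U * (ζ - 1) ^ 2) < 1 := by
    rw [mul_assoc, map_mul, h4, one_mul]
    exact aux_lt_mul A hU (aux_le_sq A hζm1)
  rw [hmain] at hlt
  exact lt_irrefl _ hlt

/-- Deep case: the double `P + P` has `ξ` of valuation at least one. -/
theorem aux_deep {ξ b β U : L} (hξ0 : ξ ≠ 0) (hξβ : A.valuation ξ ≤ A.valuation β)
    (hβ : A.valuation β < 1) (hb : A.valuation b ≤ 1)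
    (h : U * (4 * ξ ^ 3 + b * ξ ^ 2 + 4 * β * ξ) = (ξ ^ 2 - β) ^ 2) :
    1 ≤ A.valuation U := by
  by_contra hU
  rw [not_le] at hU
  have h4 := aux_le_four A
  have hξpos : 0 < A.valuation ξ := (Valuation.pos_iff _).mpr hξ0
  have hβpos : 0 < A.valuation β := lt_of_lt_of_le hξpos hξβ
  have hξ1 : A.valuation ξ < 1 := lt_of_le_of_lt hξβ hβ
  have h1 : A.valuation (ξ ^ 2) < A.valuation β := by
    rw [pow_two, map_mul]
    calc A.valuation ξ * A.valuation ξ < 1 * A.valuation ξ :=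
          mul_lt_mul_of_pos_right hξ1 hξpos
      _ = A.valuation ξ := one_mul _
      _ ≤ A.valuation β := hξβ
  have h2 : A.valuation (ξ ^ 2 - β) = A.valuation β := Valuation.map_sub_eq_of_lt_right _ h1
  have h3 : A.valuation (4 * ξ ^ 2 + b * ξ + 4 * β) ≤ A.valuation β := by
    refine Valuation.map_add_le _ (Valuation.map_add_le _ ?_ ?_) ?_
    · rw [map_mul]
      exact (mul_le_of_le_one_left' h4).trans h1.le
    · rw [map_mul]
      exact (mul_le_of_le_one_left' hb).trans hξβ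
    · rw [map_mul]
      exact mul_le_of_le_one_left' h4
  have h5 : A.valuation (4 * ξ ^ 3 + b * ξ ^ 2 + 4 * β * ξ) ≤
      A.valuation β * A.valuation β := by
    have e : 4 * ξ ^ 3 + b * ξ ^ 2 + 4 * β * ξ = (4 * ξ ^ 2 + b * ξ + 4 * β) * ξ := by ring
    rw [e, map_mul]
    exact mul_le_mul' h3 hξβ
  have h6 : A.valuation (U * (4 * ξ ^ 3 + b * ξ ^ 2 + 4 * β * ξ)) <
      A.valuation β * A.valuation β := by
    rw [map_mul]
    calc A.valuation U * A.valuation (4 * ξ ^ 3 + b * ξ ^ 2 + 4 * β * ξ)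
        ≤ A.valuation U * (A.valuation β * A.valuation β) := mul_le_mul' le_rfl h5
      _ < 1 * (A.valuation β * A.valuation β) :=
          mul_lt_mul_of_pos_right hU (mul_pos hβpos hβpos)
      _ = A.valuation β * A.valuation β := one_mul _
  rw [h, map_pow, h2, pow_two] at h6
  exact lt_irrefl _ h6

end LocSing

variable {L : Type*} [Field L] [DecidableEq L] [CharZero L] {W : Affine L} {x0 : L}

omit [CharZero L] in
/-- The kernel of reduction is stable under `τ`. -/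
theorem LocSing.inK_map (A : ValuationSubring L) (σ : L →+* L) (τ : W.Point →+ W.Point)
    (hσv : ∀ a : L, A.valuation (σ a) = A.valuation a)
    (hτ : ∀ P : W.Point, P ≠ 0 →
      τ P ≠ 0 ∧ xi W x0 (τ P) = σ (xi W x0 P) ∧ eta W (τ P) = σ (eta W P))
    {X : W.Point} (h : InK A W x0 X) : InK A W x0 (τ X) := by
  by_cases hX : X = 0
  · rw [hX, map_zero]
    exact inK_zero A W x0
  · obtain ⟨-, h1, -⟩ := hτ X hX
    right
    rw [h1, hσv]
    exact (inK_iff hX).mp h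

/-- The kernel of reduction is stable under `τ - 1`. -/
theorem LocSing.inK_map_sub (hx0 : twoTors W x0 = 0) (A : ValuationSubring L)
    (hb2 : A.valuation (b2' W x0) ≤ 1) (hβ : A.valuation (beta W x0) ≤ 1)
    (σ : L →+* L) (τ : W.Point →+ W.Point)
    (hσv : ∀ a : L, A.valuation (σ a) = A.valuation a)
    (hτ : ∀ P : W.Point, P ≠ 0 →
      τ P ≠ 0 ∧ xi W x0 (τ P) = σ (xi W x0 P) ∧ eta W (τ P) = σ (eta W P))
    {X : W.Point} (h : InK A W x0 X) : InK A W x0 (τ X - X) :=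
  inK_sub hx0 A hb2 hβ (LocSing.inK_map A σ τ hσv hτ h) h

/-- Multiplicative reduction: a torsion point of odd order with `1 ≤ v(ξ)` is moved by `τ` by an
element of the kernel of reduction. -/
theorem LocSing.inK_sub_of_one_le (hx0 : twoTors W x0 = 0) (A : ValuationSubring L)
    (hb2 : A.valuation (b2' W x0) ≤ 1) (hβ : A.valuation (beta W x0) < 1)
    (h2 : A.valuation (2 : L) = 1)
    {p : ℕ} (hodd : Odd p)
    (σ : L →+* L) (τ : W.Point →+ W.Point)
    (hσ : ∀ a : L, A.valuation a ≤ 1 → A.valuation (σ a - a) < 1)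
    (hσv : ∀ a : L, A.valuation (σ a) = A.valuation a)
    (hτ : ∀ P : W.Point, P ≠ 0 →
      τ P ≠ 0 ∧ xi W x0 (τ P) = σ (xi W x0 P) ∧ eta W (τ P) = σ (eta W P))
    {X : W.Point} (hX0 : X ≠ 0) (hX : p • X = 0) (hle : 1 ≤ A.valuation (xi W x0 X)) :
    InK A W x0 (τ X - X) := by
  rcases eq_or_lt_of_le hle with h1 | h1
  · refine inK_sub_of_nonsing hx0 A hb2 hβ.le h2 hodd σ τ hσ hσv hτ hX0 hX h1.symm.le ?_
    rintro ⟨h, -⟩
    have hsq : A.valuation (xi W x0 X ^ 2) = 1 := by rw [map_pow, ← h1, one_pow]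
    have h3 : A.valuation (xi W x0 X ^ 2 - beta W x0) = 1 := by
      rw [Valuation.map_sub_eq_of_lt_left _ (by rw [hsq]; exact hβ), hsq]
    rw [h3] at h
    exact lt_irrefl _ h
  · exact LocSing.inK_map_sub hx0 A hb2 hβ.le σ τ hσv hτ ((inK_iff hX0).mpr h1)

/-- Odd residue characteristic, multiplicative reduction, `P` a torsion point of odd order
reducing to the node: `(τ - 1)^2 P` lies in the kernel of reduction. -/
theorem inK_sq_of_sing (hx0 : twoTors W x0 = 0) (A : ValuationSubring L)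
    (hb2 : A.valuation (b2' W x0) = 1) (hβ : A.valuation (beta W x0) < 1)
    (h2 : A.valuation (2 : L) = 1)
    {p : ℕ} (hodd : Odd p)
    (σ : L →+* L) (τ : W.Point →+ W.Point)
    (hσ : ∀ a : L, A.valuation a ≤ 1 → A.valuation (σ a - a) < 1)
    (hσv : ∀ a : L, A.valuation (σ a) = A.valuation a)
    (hτ : ∀ P : W.Point, P ≠ 0 →
      τ P ≠ 0 ∧ xi W x0 (τ P) = σ (xi W x0 P) ∧ eta W (τ P) = σ (eta W P))
    {P : W.Point} (hP0 : P ≠ 0) (hP : p • P = 0) (hsing : A.valuation (xi W x0 P) < 1) :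
    InK A W x0 (τ (τ P - P) - (τ P - P)) := by
  have hodd' : ¬ 2 ∣ p := by
    rw [← even_iff_two_dvd, Nat.not_even_iff_odd]
    exact hodd
  have hiii : ∀ X : W.Point, InK A W x0 X → InK A W x0 (τ X - X) :=
    fun X h => LocSing.inK_map_sub hx0 A hb2.le hβ.le σ τ hσv hτ h
  have hge : ∀ X : W.Point, X ≠ 0 → p • X = 0 → 1 ≤ A.valuation (xi W x0 X) →
      InK A W x0 (τ X - X) :=
    fun X hX0 hX hle =>
      LocSing.inK_sub_of_one_le hx0 A hb2.le hβ h2 hodd σ τ hσ hσv hτ hX0 hX hle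
  have hξ0 : xi W x0 P ≠ 0 := SingDepth.xi_ne_zero hx0 hodd' hP0 hP
  have hPP : P + P ≠ 0 := SingDepth.add_self_ne_zero hodd' hP0 hP
  obtain ⟨hQ0, hξQ, hηQ⟩ := hτ P hP0
  have hηsq : eta W P ^ 2 =
      4 * xi W x0 P ^ 3 + b2' W x0 * xi W x0 P ^ 2 + 4 * beta W x0 * xi W x0 P :=
    eta_sq hx0 hP0
  have hRtors : p • (τ P - P) = 0 := by
    rw [smul_sub, ← map_nsmul, hP, map_zero, sub_zero]
  by_cases hcase : A.valuation (beta W x0) < A.valuation (xi W x0 P)
  · -- shallow case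
    obtain ⟨hsb, hs1⟩ := LocSing.aux_s A hξ0 hsing hcase hb2 hηsq
    have hξ'v : A.valuation (xi W x0 (τ P)) = A.valuation (xi W x0 P) := by rw [hξQ, hσv]
    have hss : A.valuation (eta W (τ P) / xi W x0 (τ P) - eta W P / xi W x0 P) < 1 := by
      rw [hξQ, hηQ, ← map_div₀ σ]
      exact hσ _ hs1.le
    by_cases hne : xi W x0 (τ P) = xi W x0 P
    · rcases eq_or_eq_neg_of_xi_eq hQ0 hP0 hne with hQP | hQP
      · rw [hQP, sub_self, map_zero, sub_self]
        exact inK_zero A W x0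
      · exfalso
        rw [hne, hQP, eta_neg] at hss
        have e : -eta W P / xi W x0 P - eta W P / xi W x0 P =
            -(2 * (eta W P / xi W x0 P)) := by ring
        rw [e, Valuation.map_neg, map_mul, h2, one_mul, hs1] at hss
        exact lt_irrefl _ hss
    · have hR0 : τ P - P ≠ 0 := (add_ne_zero_of_xi_ne hQ0 hP0 hne).2
      have hF := four_xi_sub hQ0 hP0 hne
      have hU : 1 ≤ A.valuation (xi W x0 (τ P - P)) :=
        LocSing.aux_shallow A hξ0 hsing hcase hb2 h2 hηsq hξ'v hss hF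
      exact hge _ hR0 hRtors hU
  · -- deep case
    rw [not_lt] at hcase
    have hF3 := xi_double hx0 hP0 hPP
    have hU : 1 ≤ A.valuation (xi W x0 (P + P)) :=
      LocSing.aux_deep A hξ0 hcase hβ hb2.le hF3
    have hPPtors : p • (P + P) = 0 := by rw [smul_add, hP, add_zero]
    have h2R : InK A W x0 (τ (P + P) - (P + P)) := hge _ hPP hPPtors hU
    have e : τ (P + P) - (P + P) = 2 • (τ P - P) := by
      rw [map_add, two_nsmul]
      abel
    rw [e] at h2R
    exact hiii _ (inK_of_two_nsmul hx0 A hb2.le hβ.le hodd hRtors h2R)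

end Fermat.Agent.S13
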