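import Fermat.Agent.S13.LocKer
import Fermat.Agent.S13.LocF5

set_option autoImplicit false

namespace Fermat.Agent.S13

open WeierstrassCurve Fermat.Agent.S05

variable {L : Type*} [Field L] [DecidableEq L] [CharZero L] {W : Affine L}

/-- Residue characteristic `2`, curve `y² + xy = x³ + a₂x² + a₄x` with `a₂` integral, `a₄` in the
maximal ideal: a point with unit `x`-coordinate is moved by an inertia-like `τ` by an element of
the kernel of reduction. -/
theorem inK_sub_of_unit_two (hW : W.a₁ = 1 ∧ W.a₃ = 0 ∧ W.a₆ = 0) (A : ValuationSubring L)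
    (h2 : A.valuation (2 : L) < 1) (ha₂ : A.valuation W.a₂ ≤ 1) (ha₄ : A.valuation W.a₄ < 1)
    (σ : L →+* L) (τ : W.Point →+ W.Point)
    (hσ : ∀ a : L, A.valuation a ≤ 1 → A.valuation (σ a - a) < 1)
    (hτ : ∀ P : W.Point, P ≠ 0 →
      τ P ≠ 0 ∧ xi W 0 (τ P) = σ (xi W 0 P) ∧ ycoord W (τ P) = σ (ycoord W P))
    {P : W.Point} (hP0 : P ≠ 0) (hunit : A.valuation (xi W 0 P) = 1) :
    InK A W 0 (τ P - P) := by
  obtain ⟨ha1, ha3, ha6⟩ := hW
  obtain ⟨hQ0, hξQ, hyQ⟩ := hτ P hP0
  -- the Weierstrass equation, factored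
  have heq : ycoord W P * (ycoord W P + xi W 0 P) =
      xi W 0 P ^ 3 + W.a₂ * xi W 0 P ^ 2 + W.a₄ * xi W 0 P := by
    have h := equation_y (W := W) hP0
    rw [ha1, ha3, ha6] at h
    linear_combination h
  -- the right-hand side is integral
  have hx2 : A.valuation (xi W 0 P ^ 2) = 1 := by rw [map_pow, hunit, one_pow]
  have hx3 : A.valuation (xi W 0 P ^ 3) = 1 := by rw [map_pow, hunit, one_pow]
  have hrhs : A.valuation (xi W 0 P ^ 3 + W.a₂ * xi W 0 P ^ 2 + W.a₄ * xi W 0 P) ≤ 1 := by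
    refine Valuation.map_add_le _ (Valuation.map_add_le _ hx3.le ?_) ?_
    · rw [map_mul, hx2, mul_one]; exact ha₂
    · rw [map_mul, hunit, mul_one]; exact ha₄.le
  -- `y` is integral
  have hy : A.valuation (ycoord W P) ≤ 1 := by
    by_contra hlt
    rw [not_le] at hlt
    have h1 : A.valuation (ycoord W P + xi W 0 P) = A.valuation (ycoord W P) :=
      Valuation.map_add_eq_of_lt_left _ (by rw [hunit]; exact hlt)
    have h3 : A.valuation (ycoord W P * (ycoord W P + xi W 0 P)) ≤ 1 := by rw [heq]; exact hrhs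
    rw [map_mul, h1] at h3
    exact absurd h3 (not_le.mpr (one_lt_mul_of_lt_of_le' hlt hlt.le))
  have hσx : A.valuation (σ (xi W 0 P) - xi W 0 P) < 1 := hσ _ hunit.le
  have hσy : A.valuation (σ (ycoord W P) - ycoord W P) < 1 := hσ _ hy
  have h2y : A.valuation (2 * ycoord W P) < 1 := by
    rw [map_mul]; exact mul_lt_one_of_lt_of_le h2 hy
  have hN0 : A.valuation (2 * ycoord W P + xi W 0 P) = 1 := by
    rw [Valuation.map_add_eq_of_lt_right _ (by rw [hunit]; exact h2y), hunit]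
  by_cases hx : xi W 0 (τ P) = xi W 0 P
  · rcases eq_or_eq_neg_of_xi_eq (W := W) (x0 := 0) hQ0 hP0 hx with h | h
    · rw [h, sub_self]; exact inK_zero A W 0
    · exfalso
      have hyn := ycoord_neg (W := W) hP0
      rw [ha1, ha3, ← h, hyQ] at hyn
      have h3 : σ (ycoord W P) - ycoord W P = -(2 * ycoord W P + xi W 0 P) := by
        rw [hyn]; ring
      rw [h3, Valuation.map_neg, hN0] at hσy
      exact lt_irrefl _ hσy
  · have hF := xi_sub_y (W := W) hQ0 hP0 hx
    rw [ha1, ha3, hξQ, hyQ] at hF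
    -- the numerator `N = (2y + x) + (σ y - y)` is a unit
    have hNeq : σ (ycoord W P) + ycoord W P + 1 * xi W 0 P + 0 =
        (2 * ycoord W P + xi W 0 P) + (σ (ycoord W P) - ycoord W P) := by ring
    have hN : A.valuation (σ (ycoord W P) + ycoord W P + 1 * xi W 0 P + 0) = 1 := by
      rw [hNeq, Valuation.map_add_eq_of_lt_left _ (by rw [hN0]; exact hσy), hN0]
    have hσx' : A.valuation (σ (xi W 0 P)) ≤ 1 := by
      have h3 : σ (xi W 0 P) = (σ (xi W 0 P) - xi W 0 P) + xi W 0 P := by ring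
      rw [h3]
      exact Valuation.map_add_le _ hσx.le hunit.le
    have hδ2 : A.valuation ((σ (xi W 0 P) - xi W 0 P) ^ 2) < 1 := by
      rw [map_pow]; exact pow_lt_one₀ zero_le hσx two_ne_zero
    have hT1 : A.valuation ((σ (ycoord W P) + ycoord W P + 1 * xi W 0 P + 0) ^ 2) = 1 := by
      rw [map_pow, hN, one_pow]
    have hT2 : A.valuation (1 * (σ (ycoord W P) + ycoord W P + 1 * xi W 0 P + 0) *
        (σ (xi W 0 P) - xi W 0 P)) < 1 := by
      rw [one_mul, map_mul, hN, one_mul]; exact hσx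
    have hT3 : A.valuation ((W.a₂ + σ (xi W 0 P) + xi W 0 P) *
        (σ (xi W 0 P) - xi W 0 P) ^ 2) < 1 := by
      rw [map_mul, mul_comm]
      exact mul_lt_one_of_lt_of_le hδ2
        (Valuation.map_add_le _ (Valuation.map_add_le _ ha₂ hσx') hunit.le)
    have hR : A.valuation ((σ (ycoord W P) + ycoord W P + 1 * xi W 0 P + 0) ^ 2 +
        1 * (σ (ycoord W P) + ycoord W P + 1 * xi W 0 P + 0) * (σ (xi W 0 P) - xi W 0 P) -
        (W.a₂ + σ (xi W 0 P) + xi W 0 P) * (σ (xi W 0 P) - xi W 0 P) ^ 2) = 1 := by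
      have h4 : A.valuation ((σ (ycoord W P) + ycoord W P + 1 * xi W 0 P + 0) ^ 2 +
          1 * (σ (ycoord W P) + ycoord W P + 1 * xi W 0 P + 0) *
            (σ (xi W 0 P) - xi W 0 P)) = 1 := by
        rw [Valuation.map_add_eq_of_lt_left _ (by rw [hT1]; exact hT2), hT1]
      rw [Valuation.map_sub_eq_of_lt_left _ (by rw [h4]; exact hT3), h4]
    rw [← hF, map_mul] at hR
    refine Or.inr ?_
    by_contra hle
    rw [not_lt] at hle
    have h5 : A.valuation (xi W 0 (τ P - P)) *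
        A.valuation ((σ (xi W 0 P) - xi W 0 P) ^ 2) < 1 := by
      rw [mul_comm]; exact mul_lt_one_of_lt_of_le hδ2 hle
    rw [hR] at h5
    exact lt_irrefl _ h5

end Fermat.Agent.S13
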