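import Fermat.Agent.S13.LocTwoNS
import Fermat.Agent.S05.SingDepth

set_option autoImplicit false

namespace Fermat.Agent.S13

open WeierstrassCurve Fermat.Agent.S05

variable {L : Type*} [Field L] [DecidableEq L] [CharZero L] {W : Affine L}

omit [DecidableEq L] [CharZero L] in
theorem LocTwoSing.twoTors_zero (hW : W.a₁ = 1 ∧ W.a₃ = 0 ∧ W.a₆ = 0) : twoTors W 0 = 0 := by
  obtain ⟨-, h3, h6⟩ := hW
  simp [twoTors, WeierstrassCurve.b₆, h3, h6]

omit [DecidableEq L] in
theorem LocTwoSing.beta_zero (hW : W.a₁ = 1 ∧ W.a₃ = 0 ∧ W.a₆ = 0) : beta W 0 = W.a₄ := by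
  obtain ⟨h1, h3, -⟩ := hW
  have h4 : (4 : L) ≠ 0 := by norm_num
  simp only [beta, WeierstrassCurve.b₂, WeierstrassCurve.b₄, h1, h3]
  field_simp
  ring

omit [DecidableEq L] [CharZero L] in
theorem LocTwoSing.b2'_zero (hW : W.a₁ = 1 ∧ W.a₃ = 0 ∧ W.a₆ = 0) :
    b2' W 0 = 1 + 4 * W.a₂ := by
  obtain ⟨h1, -, -⟩ := hW
  simp only [b2', WeierstrassCurve.b₂, h1]
  ring

omit [DecidableEq L] [CharZero L] in
theorem LocTwoSing.val_four (A : ValuationSubring L) : A.valuation (4 : L) ≤ 1 := by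
  have h : A.valuation ((4 : ℕ) : L) ≤ 1 := (A.valuation_le_one_iff _).mpr (natCast_mem A 4)
  exact_mod_cast h

omit [DecidableEq L] [CharZero L] in
theorem LocTwoSing.val_b2' (hW : W.a₁ = 1 ∧ W.a₃ = 0 ∧ W.a₆ = 0) (A : ValuationSubring L)
    (ha₂ : A.valuation W.a₂ ≤ 1) : A.valuation (b2' W 0) ≤ 1 := by
  rw [LocTwoSing.b2'_zero hW]
  refine Valuation.map_add_le _ (by rw [map_one]) ?_
  rw [map_mul]
  exact mul_le_one' (LocTwoSing.val_four A) ha₂

omit [CharZero L] in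
/-- (ii) the kernel of reduction is stable under `τ`. -/
theorem LocTwoSing.inK_tau (A : ValuationSubring L) (σ : L →+* L) (τ : W.Point →+ W.Point)
    (hσv : ∀ a : L, A.valuation (σ a) = A.valuation a)
    (hτ : ∀ P : W.Point, P ≠ 0 →
      τ P ≠ 0 ∧ xi W 0 (τ P) = σ (xi W 0 P) ∧ ycoord W (τ P) = σ (ycoord W P))
    {X : W.Point} (h : InK A W 0 X) : InK A W 0 (τ X) := by
  by_cases hX : X = 0
  · rw [hX, map_zero]
    exact inK_zero A W 0
  · obtain ⟨h1, h2, -⟩ := hτ X hX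
    rw [inK_iff h1, h2, hσv]
    exact (inK_iff hX).mp h

/-- (iii) if `X` is in the kernel of reduction then so is `τ X - X`. -/
theorem LocTwoSing.inK_tau_sub (hW : W.a₁ = 1 ∧ W.a₃ = 0 ∧ W.a₆ = 0) (A : ValuationSubring L)
    (ha₂ : A.valuation W.a₂ ≤ 1) (ha₄ : A.valuation W.a₄ ≤ 1)
    (σ : L →+* L) (τ : W.Point →+ W.Point)
    (hσv : ∀ a : L, A.valuation (σ a) = A.valuation a)
    (hτ : ∀ P : W.Point, P ≠ 0 →
      τ P ≠ 0 ∧ xi W 0 (τ P) = σ (xi W 0 P) ∧ ycoord W (τ P) = σ (ycoord W P))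
    {X : W.Point} (h : InK A W 0 X) : InK A W 0 (τ X - X) :=
  inK_sub (LocTwoSing.twoTors_zero hW) A (LocTwoSing.val_b2' hW A ha₂)
    (by rw [LocTwoSing.beta_zero hW]; exact ha₄) (LocTwoSing.inK_tau A σ τ hσv hτ h) h

omit [DecidableEq L] [CharZero L] in
/-- On `y² + xy = x³ + a₂x² + a₄x` with `v a₄ < v x < 1`, the slope `t = y/x` is integral and
`t² + t ≡ a₂`. -/
theorem LocTwoSing.aux_t (A : ValuationSubring L) {a₂ a₄ x y : L}
    (ha₂ : A.valuation a₂ ≤ 1) (hx0 : x ≠ 0) (hx : A.valuation x < 1)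
    (h4 : A.valuation a₄ < A.valuation x)
    (heq : y ^ 2 + x * y = x ^ 3 + a₂ * x ^ 2 + a₄ * x) :
    A.valuation (y / x) ≤ 1 ∧ A.valuation ((y / x) ^ 2 + y / x - a₂) < 1 := by
  have hvx : 0 < A.valuation x := zero_lt_iff.mpr ((Valuation.ne_zero_iff _).mpr hx0)
  have hq : A.valuation (a₄ / x) < 1 := by
    rw [map_div₀]
    exact (div_lt_one₀ hvx).mpr h4
  have hid : (y / x) ^ 2 + y / x = x + a₂ + a₄ / x := by
    field_simp
    linear_combination heq
  have hsmall : A.valuation (x + a₄ / x) < 1 := Valuation.map_add_lt _ hx hq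
  have hle : A.valuation ((y / x) ^ 2 + y / x) ≤ 1 := by
    rw [hid, add_right_comm]
    exact Valuation.map_add_le _ hsmall.le ha₂
  constructor
  · by_contra hcon
    rw [not_le] at hcon
    have h1 : A.valuation (y / x) < A.valuation ((y / x) ^ 2) := by
      rw [map_pow, pow_two]
      exact lt_mul_of_one_lt_left (lt_trans zero_lt_one hcon) hcon
    rw [Valuation.map_add_eq_of_lt_left _ h1] at hle
    exact absurd (lt_trans hcon h1) (not_lt.mpr hle)
  · have e : (y / x) ^ 2 + y / x - a₂ = x + a₄ / x := by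
      rw [hid]
      ring
    rw [e]
    exact hsmall

omit [DecidableEq L] [CharZero L] in
theorem LocTwoSing.aux_two_t (A : ValuationSubring L) {t : L} (h2 : A.valuation (2 : L) < 1)
    (ht : A.valuation t ≤ 1) : A.valuation (2 * t + 1) = 1 := by
  have h2t : A.valuation (2 * t) < 1 := by
    rw [map_mul]
    exact mul_lt_one_of_lt_of_le h2 ht
  rw [add_comm]
  exact Valuation.map_one_add_of_lt _ h2t

omit [DecidableEq L] [CharZero L] in
/-- Core of the shallow case: the difference `τ P - P` has `x`-coordinate of valuation `≥ 1`. -/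
theorem LocTwoSing.aux_shallow (A : ValuationSubring L) {a₂ x t s ζ XR : L}
    (h2 : A.valuation (2 : L) < 1)
    (hx0 : x ≠ 0) (hx : A.valuation x < 1)
    (ht : A.valuation t ≤ 1) (hta : A.valuation (t ^ 2 + t - a₂) < 1)
    (hζ : A.valuation ζ = 1) (hts : A.valuation (s - t) < 1)
    (hR : XR * (ζ * x - x) ^ 2 =
      (s * (ζ * x) + t * x + x) ^ 2 + (s * (ζ * x) + t * x + x) * (ζ * x - x) -
        (a₂ + ζ * x + x) * (ζ * x - x) ^ 2) :
    1 ≤ A.valuation XR := by
  have hR' : XR * (ζ - 1) ^ 2 =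
      ζ * (2 * t + 1) ^ 2 +
        ((s - t) * (ζ * (2 * (t * ζ + t + 1) + (s - t) * ζ + (ζ - 1))) -
          ((ζ + 1) * x - (t ^ 2 + t - a₂)) * (ζ - 1) ^ 2) := by
    apply mul_right_cancel₀ (pow_ne_zero 2 hx0)
    linear_combination hR
  have hζA : ζ ∈ A := (A.valuation_le_one_iff _).mp hζ.le
  have htA : t ∈ A := (A.valuation_le_one_iff _).mp ht
  have hstA : s - t ∈ A := (A.valuation_le_one_iff _).mp hts.le
  have h2A : (2 : L) ∈ A := (A.valuation_le_one_iff _).mp h2.le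
  have h1A : (1 : L) ∈ A := one_mem A
  have hζ1 : A.valuation (ζ - 1) ≤ 1 :=
    (A.valuation_le_one_iff _).mpr (sub_mem hζA h1A)
  have hζ12 : A.valuation ((ζ - 1) ^ 2) ≤ 1 := by
    rw [map_pow]
    exact pow_le_one₀ zero_le hζ1
  have hc1 : A.valuation (ζ * (2 * (t * ζ + t + 1) + (s - t) * ζ + (ζ - 1))) ≤ 1 := by
    rw [A.valuation_le_one_iff]
    exact mul_mem hζA (add_mem (add_mem (mul_mem h2A (add_mem (add_mem (mul_mem htA hζA) htA)
      h1A)) (mul_mem hstA hζA)) (sub_mem hζA h1A))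
  have hc2 : A.valuation ((ζ + 1) * x - (t ^ 2 + t - a₂)) < 1 := by
    refine Valuation.map_sub_lt _ ?_ hta
    rw [map_mul]
    exact mul_lt_one_of_nonneg_of_lt_one_right
      ((A.valuation_le_one_iff _).mpr (add_mem hζA h1A)) zero_le hx
  have hsmall : A.valuation ((s - t) * (ζ * (2 * (t * ζ + t + 1) + (s - t) * ζ + (ζ - 1))) -
      ((ζ + 1) * x - (t ^ 2 + t - a₂)) * (ζ - 1) ^ 2) < 1 := by
    refine Valuation.map_sub_lt _ ?_ ?_
    · rw [map_mul]
      exact mul_lt_one_of_lt_of_le hts hc1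
    · rw [map_mul]
      exact mul_lt_one_of_lt_of_le hc2 hζ12
  have hmain : A.valuation (ζ * (2 * t + 1) ^ 2) = 1 := by
    rw [map_mul, map_pow, hζ, one_mul, LocTwoSing.aux_two_t A h2 ht, one_pow]
  have hval : A.valuation (XR * (ζ - 1) ^ 2) = 1 := by
    rw [hR', Valuation.map_add_eq_of_lt_left _ (by rw [hmain]; exact hsmall), hmain]
  by_contra hcon
  rw [not_le] at hcon
  have hlt : A.valuation (XR * (ζ - 1) ^ 2) < 1 := by
    rw [map_mul]
    exact mul_lt_one_of_lt_of_le hcon hζ12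
  exact absurd hval hlt.ne

omit [DecidableEq L] [CharZero L] in
/-- Core of the deep case: `2P` has `x`-coordinate of valuation `≥ 1`. -/
theorem LocTwoSing.aux_deep (A : ValuationSubring L) {a₂ a₄ x X2 : L}
    (ha₂ : A.valuation a₂ ≤ 1) (hx0 : x ≠ 0) (hx : A.valuation x < 1)
    (h4 : A.valuation x ≤ A.valuation a₄)
    (hD : X2 * (4 * x ^ 3 + (1 + 4 * a₂) * x ^ 2 + 4 * a₄ * x) = (x ^ 2 - a₄) ^ 2) :
    1 ≤ A.valuation X2 := by
  have hvx : 0 < A.valuation x := zero_lt_iff.mpr ((Valuation.ne_zero_iff _).mpr hx0)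
  have hva : 0 < A.valuation a₄ := lt_of_lt_of_le hvx h4
  have h4A : A.valuation (4 : L) ≤ 1 := LocTwoSing.val_four A
  have hxsq : A.valuation (x ^ 2) < A.valuation a₄ := by
    rw [map_pow, pow_two]
    calc A.valuation x * A.valuation x ≤ A.valuation a₄ * A.valuation x :=
          mul_le_mul_left h4 _
      _ < A.valuation a₄ * 1 := by
          exact mul_lt_mul_of_pos_left hx hva
      _ = A.valuation a₄ := mul_one _
  have hrhs : A.valuation ((x ^ 2 - a₄) ^ 2) = A.valuation a₄ ^ 2 := by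
    rw [map_pow, Valuation.map_sub_eq_of_lt_right _ hxsq]
  have hfac : 4 * x ^ 3 + (1 + 4 * a₂) * x ^ 2 + 4 * a₄ * x =
      x * (4 * x ^ 2 + (1 + 4 * a₂) * x + 4 * a₄) := by ring
  have hg : A.valuation (4 * x ^ 2 + (1 + 4 * a₂) * x + 4 * a₄) ≤ A.valuation a₄ := by
    refine Valuation.map_add_le _ (Valuation.map_add_le _ ?_ ?_) ?_
    · rw [map_mul]
      calc A.valuation 4 * A.valuation (x ^ 2) ≤ 1 * A.valuation (x ^ 2) :=
            mul_le_mul_left h4A _
        _ = A.valuation (x ^ 2) := one_mul _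
        _ ≤ A.valuation a₄ := hxsq.le
    · rw [map_mul]
      have h1 : A.valuation (1 + 4 * a₂) ≤ 1 := by
        refine Valuation.map_add_le _ (by rw [map_one]) ?_
        rw [map_mul]
        exact mul_le_one' h4A ha₂
      calc A.valuation (1 + 4 * a₂) * A.valuation x ≤ 1 * A.valuation x :=
            mul_le_mul_left h1 _
        _ = A.valuation x := one_mul _
        _ ≤ A.valuation a₄ := h4
    · rw [map_mul]
      calc A.valuation 4 * A.valuation a₄ ≤ 1 * A.valuation a₄ :=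
            mul_le_mul_left h4A _
        _ = A.valuation a₄ := one_mul _
  have hf : A.valuation (4 * x ^ 3 + (1 + 4 * a₂) * x ^ 2 + 4 * a₄ * x) ≤
      A.valuation a₄ ^ 2 := by
    rw [hfac, map_mul]
    calc A.valuation x * A.valuation (4 * x ^ 2 + (1 + 4 * a₂) * x + 4 * a₄)
        ≤ A.valuation a₄ * A.valuation a₄ := mul_le_mul' h4 hg
      _ = A.valuation a₄ ^ 2 := (pow_two _).symm
  by_contra hcon
  rw [not_le] at hcon
  have hlt : A.valuation (X2 * (4 * x ^ 3 + (1 + 4 * a₂) * x ^ 2 + 4 * a₄ * x)) <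
      A.valuation a₄ ^ 2 := by
    rw [map_mul]
    calc A.valuation X2 * A.valuation (4 * x ^ 3 + (1 + 4 * a₂) * x ^ 2 + 4 * a₄ * x)
        ≤ A.valuation X2 * A.valuation a₄ ^ 2 := mul_le_mul_right hf _
      _ < 1 * A.valuation a₄ ^ 2 := mul_lt_mul_of_pos_right hcon (pow_pos hva 2)
      _ = A.valuation a₄ ^ 2 := one_mul _
  rw [hD, hrhs] at hlt
  exact lt_irrefl _ hlt

/-- Residue characteristic `2`, curve `y² + xy = x³ + a₂x² + a₄x`, `P` a torsion point of odd
order reducing to the node `(0,0)`: `(τ - 1)^2 P` lies in the kernel of reduction. -/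
theorem inK_sq_of_sing_two (hW : W.a₁ = 1 ∧ W.a₃ = 0 ∧ W.a₆ = 0) (A : ValuationSubring L)
    (h2 : A.valuation (2 : L) < 1) (ha₂ : A.valuation W.a₂ ≤ 1) (ha₄ : A.valuation W.a₄ < 1)
    {p : ℕ} (hodd : Odd p)
    (σ : L →+* L) (τ : W.Point →+ W.Point)
    (hσ : ∀ a : L, A.valuation a ≤ 1 → A.valuation (σ a - a) < 1)
    (hσv : ∀ a : L, A.valuation (σ a) = A.valuation a)
    (hτ : ∀ P : W.Point, P ≠ 0 →
      τ P ≠ 0 ∧ xi W 0 (τ P) = σ (xi W 0 P) ∧ ycoord W (τ P) = σ (ycoord W P))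
    {P : W.Point} (hP0 : P ≠ 0) (hP : p • P = 0) (hsing : A.valuation (xi W 0 P) < 1) :
    InK A W 0 (τ (τ P - P) - (τ P - P)) := by
  have hx0 : twoTors W 0 = 0 := LocTwoSing.twoTors_zero hW
  have hb2 : A.valuation (b2' W 0) ≤ 1 := LocTwoSing.val_b2' hW A ha₂
  have hβ : A.valuation (beta W 0) ≤ 1 := by
    rw [LocTwoSing.beta_zero hW]
    exact ha₄.le
  have hodd' : ¬ 2 ∣ p := by
    rw [← even_iff_two_dvd]
    exact Nat.not_even_iff_odd.mpr hodd
  have hxne : xi W 0 P ≠ 0 := SingDepth.xi_ne_zero hx0 hodd' hP0 hP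
  have hPP : P + P ≠ 0 := SingDepth.add_self_ne_zero hodd' hP0 hP
  obtain ⟨hQ0, hQx, hQy⟩ := hτ P hP0
  obtain ⟨h1, h3, h6⟩ := id hW
  -- it suffices to show that `τ P - P` is in the kernel of reduction, or directly the goal
  have hiii : InK A W 0 (τ P - P) → InK A W 0 (τ (τ P - P) - (τ P - P)) :=
    fun h => LocTwoSing.inK_tau_sub hW A ha₂ ha₄.le σ τ hσv hτ h
  rcases lt_or_ge (A.valuation W.a₄) (A.valuation (xi W 0 P)) with hsh | hdeep
  · -- shallow case
    have heq : ycoord W P ^ 2 + xi W 0 P * ycoord W P =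
        xi W 0 P ^ 3 + W.a₂ * xi W 0 P ^ 2 + W.a₄ * xi W 0 P := by
      have h := equation_y hP0
      rw [h1, h3, h6] at h
      linear_combination h
    obtain ⟨ht, hta⟩ := LocTwoSing.aux_t A ha₂ hxne hsing hsh heq
    have hσt : σ (ycoord W P / xi W 0 P) = σ (ycoord W P) / σ (xi W 0 P) := map_div₀ σ _ _
    have hts : A.valuation (σ (ycoord W P) / σ (xi W 0 P) - ycoord W P / xi W 0 P) < 1 := by
      rw [← hσt]
      exact hσ _ ht
    have hσx0 : σ (xi W 0 P) ≠ 0 := by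
      intro h0
      have := hσv (xi W 0 P)
      rw [h0, map_zero] at this
      exact hxne ((Valuation.zero_iff _).mp this.symm)
    by_cases hxx : xi W 0 (τ P) = xi W 0 P
    · rcases eq_or_eq_neg_of_xi_eq hQ0 hP0 hxx with hQP | hQP
      · rw [hQP, sub_self, map_zero, sub_self]
        exact inK_zero A W 0
      · exfalso
        have hy : σ (ycoord W P) = -ycoord W P - xi W 0 P := by
          rw [← hQy, hQP, ycoord_neg hP0, h1, h3]
          ring
        have hx : σ (xi W 0 P) = xi W 0 P := by rw [← hQx, hxx]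
        rw [hy, hx] at hts
        have e : (-ycoord W P - xi W 0 P) / xi W 0 P - ycoord W P / xi W 0 P =
            -(2 * (ycoord W P / xi W 0 P) + 1) := by
          field_simp
          ring
        rw [e, Valuation.map_neg, LocTwoSing.aux_two_t A h2 ht] at hts
        exact lt_irrefl _ hts
    · obtain ⟨-, hR0⟩ := add_ne_zero_of_xi_ne (W := W) (x0 := 0) hQ0 hP0 hxx
      have hF := xi_sub_y hQ0 hP0 hxx
      rw [h1, h3, hQx, hQy] at hF
      have hζ : A.valuation (σ (xi W 0 P) / xi W 0 P) = 1 := by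
        rw [map_div₀, hσv]
        exact div_self ((Valuation.ne_zero_iff _).mpr hxne)
      have e1 : σ (xi W 0 P) / xi W 0 P * xi W 0 P = σ (xi W 0 P) := div_mul_cancel₀ _ hxne
      have e2 : σ (ycoord W P) / σ (xi W 0 P) * (σ (xi W 0 P) / xi W 0 P * xi W 0 P) =
          σ (ycoord W P) := by rw [e1, div_mul_cancel₀ _ hσx0]
      have e3 : ycoord W P / xi W 0 P * xi W 0 P = ycoord W P := div_mul_cancel₀ _ hxne
      have hge : 1 ≤ A.valuation (xi W 0 (τ P - P)) := by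
        refine LocTwoSing.aux_shallow A (a₂ := W.a₂) (x := xi W 0 P)
          (t := ycoord W P / xi W 0 P) (s := σ (ycoord W P) / σ (xi W 0 P))
          (ζ := σ (xi W 0 P) / xi W 0 P) h2 hxne hsing ht hta hζ hts ?_
        rw [e2, e1, e3]
        linear_combination hF
      rcases hge.lt_or_eq with hgt | heq1
      · exact hiii ((inK_iff hR0).mpr hgt)
      · exact inK_sub_of_unit_two hW A h2 ha₂ ha₄ σ τ hσ hτ hR0 heq1.symm
  · -- deep case
    have hD := xi_double hx0 hP0 hPP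
    rw [fxi, LocTwoSing.b2'_zero hW, LocTwoSing.beta_zero hW] at hD
    have hge : 1 ≤ A.valuation (xi W 0 (P + P)) :=
      LocTwoSing.aux_deep A ha₂ hxne hsing hdeep hD
    have h2R : InK A W 0 (τ (P + P) - (P + P)) := by
      rcases hge.lt_or_eq with hgt | heq1
      · exact LocTwoSing.inK_tau_sub hW A ha₂ ha₄.le σ τ hσv hτ ((inK_iff hPP).mpr hgt)
      · exact inK_sub_of_unit_two hW A h2 ha₂ ha₄ σ τ hσ hτ hPP heq1.symm
    have e : τ (P + P) - (P + P) = 2 • (τ P - P) := by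
      rw [map_add, two_nsmul]
      abel
    rw [e] at h2R
    have hpR : p • (τ P - P) = 0 := by
      rw [smul_sub, ← map_nsmul, hP, map_zero, sub_zero]
    exact hiii (inK_of_two_nsmul hx0 A hb2 hβ hodd hpR h2R)

end Fermat.Agent.S13
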